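import Fermat.Agent.S34.H46.BaseConcrete
import Fermat.Agent.S34.H77.CrossGlue

/-!
# `HGen` at a crossing point of the concrete model, from the regular node of the unramified chart
(helper46; last mile of M6b, Program B', S34)

`hB : H92.InertiaBase A q K E π e g`.  `C₀ = chart (A ∩ E) j ⊆ ratForm N E` the chart over the
unramified base, `C = chart (A ∩ K) j ⊆ ratForm N K` the chart of the model, `x` a prime of `C`
containing the uniformiser `ϖ`, `x₀` its trace on `C₀`.  If the local ring of `C₀` at `x₀` is a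
regular node (`m = (J, b)`, `J * b = q`: the output of `H36.crossing_regular` /
`H68.crossing_regular_of_dsetup`) and the zeros and poles of `u` are rational (`RatK`), then the
certificate `H30.HGen C x ϖ u` holds:
`Fermat.Agent.S34.H77.crossing_hgen_atPrime` composed with `chart_dec_ratForm_hom`.
-/

set_option autoImplicit false
set_option linter.unusedSectionVars false
set_option linter.style.haveILetI false

open IntermediateField Polynomial ModularCurve AlgebraicCurve

noncomputable section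

namespace Fermat.Agent.S34.H46

open Fermat.Agent.S18 Fermat.Agent.S18.H74 Fermat.Agent.S18.H19 Fermat.Agent.S34.H19
  Fermat.Agent.S34.H61 Fermat.Agent.S34.H92 Fermat.Agent.S34.H54 Fermat.Agent.S34.H7

/-- In a discrete valuation ring, a nonzero natural number is a unit times a power of the
uniformiser. -/
theorem exists_natCast_eq_pow_mul {R : Type*} [CommRing R] [IsDomain R]
    [IsDiscreteValuationRing R] {ϖ : R} (hϖ : Irreducible ϖ) (q : ℕ) (hq0 : (q : R) ≠ 0) :
    ∃ (n : ℕ) (ε : Rˣ), (q : R) = ϖ ^ n * (ε : R) := by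
  obtain ⟨n, ε, hqε⟩ := IsDiscreteValuationRing.eq_unit_mul_pow_irreducible hq0 hϖ
  exact ⟨n, ε, by rw [hqε, mul_comm]⟩

variable (N : ℕ) (A : ValuationSubring Kb) {q : ℕ} {K E : IntermediateField ℚ Kb} {π : Kb}
  {e : ℕ} {g : Polynomial Kb}

set_option synthInstance.maxHeartbeats 400000 in
set_option maxHeartbeats 1000000 in
/-- **M6b on the concrete model: `HGen` from the regular node of the unramified chart.** -/
theorem hgen_ratForm_of_regular (hB : InertiaBase A q K E π e g) (hq : q ≠ 0) (hπ0 : π ≠ 0)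
    (hg0 : g.coeff 0 ≠ 0) [IsDiscreteValuationRing ↥(A.comap (algebraMap (↥K) Kb))]
    (ϖ : ↥(A.comap (algebraMap (↥K) Kb))) (hϖ : Irreducible ϖ) (j : ↥(ratForm N E)) :
    letI := algComap (A.comap (algebraMap (↥E) Kb)) (ratForm N E)
    letI := algComap (A.comap (algebraMap (↥K) Kb)) (ratForm N K)
    IsIntegrallyClosed ↥(chart (↥(A.comap (algebraMap (↥E) Kb))) j) →
    IsFractionRing ↥(chart (↥(A.comap (algebraMap (↥E) Kb))) j) ↥(ratForm N E) →
    (Ideal.span {((q : ℕ) : ↥(chart (↥(A.comap (algebraMap (↥E) Kb))) j))}).IsRadical →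
    ∀ [IsIntegrallyClosed ↥(chart (↥(A.comap (algebraMap (↥K) Kb))) (ratIncl N hB.le j))]
      [IsNoetherianRing ↥(chart (↥(A.comap (algebraMap (↥K) Kb))) (ratIncl N hB.le j))]
      [IsFractionRing ↥(chart (↥(A.comap (algebraMap (↥K) Kb))) (ratIncl N hB.le j))
        ↥(ratForm N K)]
      (x : Ideal ↥(chart (↥(A.comap (algebraMap (↥K) Kb))) (ratIncl N hB.le j))) [x.IsPrime],
      algebraMap ↥(A.comap (algebraMap (↥K) Kb))
        ↥(chart (↥(A.comap (algebraMap (↥K) Kb))) (ratIncl N hB.le j)) ϖ ∈ x →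
      ∀ (x₀ : Ideal ↥(chart (↥(A.comap (algebraMap (↥E) Kb))) j)) [x₀.IsPrime],
        x₀ = x.comap (chartIncl N A hB.le j) →
        (∃ J b : Localization.AtPrime x₀, J * b = ((q : ℕ) : Localization.AtPrime x₀) ∧
          IsLocalRing.maximalIdeal (Localization.AtPrime x₀) = Ideal.span {J, b}) →
        ∀ u : ↥(ratForm N K),
          (∀ V : ValuationSubring ↥(ratForm N K),
            (∀ a : ↥(A.comap (algebraMap (↥K) Kb)), a ≠ 0 →
              (algebraMap ↥(A.comap (algebraMap (↥K) Kb)) ↥(ratForm N K) a)⁻¹ ∈ V) →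
            IsDiscreteValuationRing ↥V →
            (∀ c ∈ chart (↥(A.comap (algebraMap (↥K) Kb))) (ratIncl N hB.le j), c ∈ V) →
            ¬ (u ∈ V ∧ u⁻¹ ∈ V) →
            ∀ y ∈ V, ∃ a a' : ↥(A.comap (algebraMap (↥K) Kb)), a' ≠ 0 ∧
              y - algebraMap ↥(A.comap (algebraMap (↥K) Kb)) ↥(ratForm N K) a /
                algebraMap ↥(A.comap (algebraMap (↥K) Kb)) ↥(ratForm N K) a' ∈ V.nonunits) →
          ∀ P : Ideal ↥(chart (↥(A.comap (algebraMap (↥K) Kb))) (ratIncl N hB.le j)),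
            P.IsPrime → P.height = 1 → P ≤ x →
            algebraMap ↥(A.comap (algebraMap (↥K) Kb))
              ↥(chart (↥(A.comap (algebraMap (↥K) Kb))) (ratIncl N hB.le j)) ϖ ∉ P →
            (∀ V : ValuationSubring ↥(ratForm N K), IsLocAt P V → ¬ IsU V u) →
            ∃ f' ∈ P, ∀ y ∈ P,
              ∃ s : ↥(chart (↥(A.comap (algebraMap (↥K) Kb))) (ratIncl N hB.le j)), s ∉ x ∧
                ∃ (n : ℕ) (c : ↥(chart (↥(A.comap (algebraMap (↥K) Kb))) (ratIncl N hB.le j))),
                  s * algebraMap ↥(A.comap (algebraMap (↥K) Kb))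
                    ↥(chart (↥(A.comap (algebraMap (↥K) Kb))) (ratIncl N hB.le j)) ϖ ^ n * y
                    = f' * c := by
  letI algE := algComap (A.comap (algebraMap (↥E) Kb)) (ratForm N E)
  letI algK := algComap (A.comap (algebraMap (↥K) Kb)) (ratForm N K)
  intro hicl hfrac hrad _ _ _ x _ hϖx x₀ _ hx₀ hnode u hrat
  haveI : FaithfulSMul ↥(A.comap (algebraMap (↥K) Kb)) ↥(ratForm N K) :=
    (faithfulSMul_iff_algebraMap_injective _ _).mpr (algebraMap_algComap_injective N A K)
  obtain ⟨J, b, hJb, hm⟩ := hnode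
  -- `q = ϖ ^ n * ε` in the discrete valuation ring `A ∩ K`
  have hq0 : ((q : ℕ) : ↥(A.comap (algebraMap (↥K) Kb))) ≠ 0 := by
    intro h0
    have h1 := congrArg (valEmb A K) h0
    rw [map_natCast, map_zero] at h1
    exact hq (Nat.cast_eq_zero.mp h1)
  have hex := exists_natCast_eq_pow_mul hϖ q hq0
  obtain ⟨n, ε, hqε⟩ := hex
  have hdec := chart_dec_ratForm_hom N A hB hq hπ0 hg0 ϖ hϖ j hicl hfrac hrad
  exact Fermat.Agent.S34.H77.crossing_hgen_atPrime ϖ hϖ _ x hϖx (chartIncl N A hB.le j) x₀ hx₀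
    hdec (Localization.AtPrime x₀) q n ε hqε J b hJb hm u hrat

end Fermat.Agent.S34.H46
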