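import Mathlib

/-!
# Normality of `R[ϖ]` at a regular node (helper46; L2b of Program B', S34)

Let `R` be an integrally closed domain with fraction field `K`, `L = K(ϖ)` a finite separable
extension with `ϖ` integral over `R`, and `J`, `b` two prime elements of `R` such that the minimal
polynomial of `ϖ` over `R` is Eisenstein at `(J)` and at `(b)` (e.g. an Eisenstein polynomial for
`q = J * b` over an unramified discrete valuation ring contained in `R`), and such that the
different element `E'(ϖ)` divides a power of `J * b` in `R[ϖ]`.  Then every element of `L`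
integral over `R` lies in `R[ϖ]`: the ring `R[ϖ]` is the integral closure of `R` in `L`, hence
integrally closed.

Application: `R` = local ring of the chart over the unramified base at a regular node
(`J * b = q`, see `Node.lean`); `R[ϖ]` = local ring of the normal chart over the ramified base
`A₀ = A₀₀[ϖ]`, whose maximal ideal is therefore `(J, b, ϖ)`.

The proof combines Mathlib's `traceForm_dualSubmodule_adjoin` (`E'(ϖ) z ∈ R[ϖ]` for integral `z`)
with `mem_adjoin_of_smul_prime_pow_smul_of_minpoly_isEisensteinAt`, applied at `J` and at `b`.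
Mathlib only.
-/

set_option autoImplicit false

namespace Fermat.Agent.S34.H46

open Polynomial

section eis

variable {R : Type*} [CommRing R] [IsDomain R]

/-- A monic polynomial whose lower coefficients are divisible by `J * b` and whose constant
coefficient is `J * b * u` with `u` a unit is Eisenstein at the prime `J`, provided `J ∤ b`. -/
theorem isEisensteinAt_left {E : R[X]} (hE : E.Monic) {J b u : R} (hJ : Prime J) (hbJ : ¬ J ∣ b)
    (hu : IsUnit u) (hc : ∀ n < E.natDegree, J * b ∣ E.coeff n) (h0 : E.coeff 0 = J * b * u) :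
    E.IsEisensteinAt (Ideal.span {J}) := by
  refine ⟨?_, ?_, ?_⟩
  · rw [hE.leadingCoeff, Ideal.mem_span_singleton]
    exact fun h => hJ.not_isUnit (isUnit_of_dvd_one h)
  · intro n hn
    rw [Ideal.mem_span_singleton]
    exact (dvd_mul_right J b).trans (hc n hn)
  · rw [Ideal.span_singleton_pow, Ideal.mem_span_singleton, h0, pow_two, mul_assoc]
    intro h
    have h1 : J ∣ b * u := (mul_dvd_mul_iff_left hJ.ne_zero).mp h
    rcases hJ.dvd_or_dvd h1 with h2 | h2
    · exact hbJ h2
    · exact hJ.not_isUnit (isUnit_of_dvd_unit h2 hu)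

/-- Symmetric version of `isEisensteinAt_left`: Eisenstein at the prime `b`, provided `b ∤ J`. -/
theorem isEisensteinAt_right {E : R[X]} (hE : E.Monic) {J b u : R} (hb : Prime b)
    (hJb : ¬ b ∣ J) (hu : IsUnit u) (hc : ∀ n < E.natDegree, J * b ∣ E.coeff n)
    (h0 : E.coeff 0 = J * b * u) : E.IsEisensteinAt (Ideal.span {b}) :=
  isEisensteinAt_left hE hb hJb hu (fun n hn => by rw [mul_comm]; exact hc n hn)
    (by rw [h0, mul_comm b J])

end eis

variable {R K L : Type*} [CommRing R] [IsDomain R] [IsIntegrallyClosed R] [Field K] [Field L]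
  [Algebra R K] [IsFractionRing R K] [Algebra K L] [Algebra R L] [IsScalarTower R K L]
  [FiniteDimensional K L] [Algebra.IsSeparable K L]

/-- `E'(ϖ) z ∈ R[ϖ]` for every `z` integral over `R` (the different of a monogenic order). -/
theorem derivative_mul_mem_adjoin {ϖ : L} (hgen : Algebra.adjoin K {ϖ} = ⊤) (hint : IsIntegral R ϖ)
    {z : L} (hz : IsIntegral R z) :
    aeval ϖ (derivative (minpoly R ϖ)) * z ∈ Algebra.adjoin R {ϖ} := by
  have hle : Algebra.adjoin R {ϖ} ≤ integralClosure R L :=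
    Algebra.adjoin_le (Set.singleton_subset_iff.mpr hint)
  have hzd : z ∈ (Algebra.traceForm K L).dualSubmodule
      (Subalgebra.toSubmodule (Algebra.adjoin R {ϖ})) := by
    rw [LinearMap.BilinForm.mem_dualSubmodule]
    intro y hy
    have hy' : IsIntegral R y := hle hy
    have hint' : IsIntegral R (Algebra.trace K L (z * y)) :=
      Algebra.isIntegral_trace (hz.mul hy')
    obtain ⟨r, hr⟩ := IsIntegrallyClosed.isIntegral_iff.mp hint'
    rw [Algebra.traceForm_apply]
    exact Submodule.mem_one.mpr ⟨r, hr⟩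
  rw [traceForm_dualSubmodule_adjoin R K hgen hint,
    Submodule.mem_smul_pointwise_iff_exists] at hzd
  obtain ⟨a, ha, haz⟩ := hzd
  have hKR : aeval ϖ (derivative (minpoly K ϖ)) = aeval ϖ (derivative (minpoly R ϖ)) := by
    rw [minpoly.isIntegrallyClosed_eq_field_fractions' K hint, derivative_map,
      aeval_map_algebraMap]
  rw [hKR] at haz
  by_cases h0 : aeval ϖ (derivative (minpoly R ϖ)) = 0
  · rw [h0, zero_mul]; exact Subalgebra.zero_mem _
  · have : aeval ϖ (derivative (minpoly R ϖ)) * z = a := by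
      rw [← haz, smul_eq_mul, mul_inv_cancel_left₀ h0]
    rw [this]; exact ha

/-- **Normality of `R[ϖ]`**: if the minimal polynomial of `ϖ` is Eisenstein at the primes `J`
and `b` and `E'(ϖ)` divides a power of `J * b` in `R[ϖ]`, then every element of `L` integral
over `R` lies in `R[ϖ]`. -/
theorem mem_adjoin_of_isIntegral_of_eisenstein_two {ϖ : L} (hgen : Algebra.adjoin K {ϖ} = ⊤)
    (hint : IsIntegral R ϖ) {J b : R} (hJ : Prime J) (hb : Prime b)
    (hEJ : (minpoly R ϖ).IsEisensteinAt (Ideal.span {J}))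
    (hEb : (minpoly R ϖ).IsEisensteinAt (Ideal.span {b}))
    (hD : ∃ (m : ℕ) (y : L), y ∈ Algebra.adjoin R {ϖ} ∧
      aeval ϖ (derivative (minpoly R ϖ)) * y = algebraMap R L ((J * b) ^ m))
    {z : L} (hz : IsIntegral R z) : z ∈ Algebra.adjoin R {ϖ} := by
  obtain ⟨m, y, hy, hym⟩ := hD
  have hKx : IsIntegral K ϖ := Algebra.IsIntegral.isIntegral ϖ
  let pb : PowerBasis K L := (Algebra.adjoin.powerBasis' hKx).map
    ((Subalgebra.equivOfEq _ _ hgen).trans Subalgebra.topEquiv)
  have pbgen : pb.gen = ϖ := by simp [pb]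
  have h1 : (J * b) ^ m • z ∈ Algebra.adjoin R {ϖ} := by
    have e : (J * b) ^ m • z = y * (aeval ϖ (derivative (minpoly R ϖ)) * z) := by
      rw [Algebra.smul_def, ← hym]; ring
    rw [e]
    exact Subalgebra.mul_mem _ hy (derivative_mul_mem_adjoin hgen hint hz)
  have h2 : J ^ m • (b ^ m • z) ∈ Algebra.adjoin R {pb.gen} := by
    rw [pbgen, smul_smul, ← mul_pow]; exact h1
  have hint' : IsIntegral R pb.gen := by rw [pbgen]; exact hint
  have h3 : b ^ m • z ∈ Algebra.adjoin R {pb.gen} :=
    mem_adjoin_of_smul_prime_pow_smul_of_minpoly_isEisensteinAt hJ hint'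
      (hz.smul (b ^ m)) h2 (by rw [pbgen]; exact hEJ)
  have h4 : z ∈ Algebra.adjoin R {pb.gen} :=
    mem_adjoin_of_smul_prime_pow_smul_of_minpoly_isEisensteinAt hb hint' hz h3
      (by rw [pbgen]; exact hEb)
  rwa [pbgen] at h4

/-- `R[ϖ]` is the integral closure of `R` in `L`. -/
theorem integralClosure_eq_adjoin_of_eisenstein_two {ϖ : L}
    (hgen : Algebra.adjoin K {ϖ} = ⊤) (hint : IsIntegral R ϖ) {J b : R} (hJ : Prime J)
    (hb : Prime b) (hEJ : (minpoly R ϖ).IsEisensteinAt (Ideal.span {J}))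
    (hEb : (minpoly R ϖ).IsEisensteinAt (Ideal.span {b}))
    (hD : ∃ (m : ℕ) (y : L), y ∈ Algebra.adjoin R {ϖ} ∧
      aeval ϖ (derivative (minpoly R ϖ)) * y = algebraMap R L ((J * b) ^ m)) :
    integralClosure R L = Algebra.adjoin R {ϖ} :=
  le_antisymm
    (fun _ hz => mem_adjoin_of_isIntegral_of_eisenstein_two hgen hint hJ hb hEJ hEb hD hz)
    (Algebra.adjoin_le (Set.singleton_subset_iff.mpr hint))

/-- `R[ϖ]` is integrally closed. -/
theorem isIntegrallyClosed_adjoin_of_eisenstein_two {ϖ : L}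
    (hgen : Algebra.adjoin K {ϖ} = ⊤) (hint : IsIntegral R ϖ) {J b : R} (hJ : Prime J)
    (hb : Prime b) (hEJ : (minpoly R ϖ).IsEisensteinAt (Ideal.span {J}))
    (hEb : (minpoly R ϖ).IsEisensteinAt (Ideal.span {b}))
    (hD : ∃ (m : ℕ) (y : L), y ∈ Algebra.adjoin R {ϖ} ∧
      aeval ϖ (derivative (minpoly R ϖ)) * y = algebraMap R L ((J * b) ^ m)) :
    IsIntegrallyClosed (Algebra.adjoin R {ϖ}) := by
  have e := integralClosure_eq_adjoin_of_eisenstein_two hgen hint hJ hb hEJ hEb hD
  have hic : IsIntegrallyClosed (integralClosure R L) :=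
    integralClosure.isIntegrallyClosedOfFiniteExtension K
  exact IsIntegrallyClosed.of_equiv (Subalgebra.equivOfEq _ _ e).toRingEquiv

/-- A subalgebra `A' = R[ϖ]` of `L` is integrally closed (general-subalgebra form). -/
theorem isIntegrallyClosed_subalgebra_of_eisenstein_two (A' : Subalgebra R L) {ϖ : L}
    (hA' : A' = Algebra.adjoin R {ϖ})
    (hgen : Algebra.adjoin K {ϖ} = ⊤) (hint : IsIntegral R ϖ) {J b : R} (hJ : Prime J)
    (hb : Prime b) (hEJ : (minpoly R ϖ).IsEisensteinAt (Ideal.span {J}))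
    (hEb : (minpoly R ϖ).IsEisensteinAt (Ideal.span {b}))
    (hD : ∃ (m : ℕ) (y : L), y ∈ Algebra.adjoin R {ϖ} ∧
      aeval ϖ (derivative (minpoly R ϖ)) * y = algebraMap R L ((J * b) ^ m)) :
    IsIntegrallyClosed A' := by
  have e : integralClosure R L = A' := by
    rw [hA']; exact integralClosure_eq_adjoin_of_eisenstein_two hgen hint hJ hb hEJ hEb hD
  have hic : IsIntegrallyClosed (integralClosure R L) :=
    integralClosure.isIntegrallyClosedOfFiniteExtension K
  exact IsIntegrallyClosed.of_equiv (Subalgebra.equivOfEq _ _ e).toRingEquiv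

omit [IsFractionRing R K] [Algebra K L] [IsScalarTower R K L] [FiniteDimensional K L]
  [Algebra.IsSeparable K L] [Algebra R K] in
/-- An Eisenstein-shaped monic polynomial with root `ϖ` is the minimal polynomial of `ϖ`. -/
theorem minpoly_eq_of_eisenstein_shape (hinj : Function.Injective (algebraMap R L)) {ϖ : L}
    {E : R[X]} (hE : E.Monic) (hE0 : aeval ϖ E = 0) (hdeg : 0 < E.natDegree) {J b u : R}
    (hJ : Prime J) (hJb : ¬ J ∣ b) (hu : IsUnit u) (hc : ∀ n < E.natDegree, J * b ∣ E.coeff n)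
    (h0 : E.coeff 0 = J * b * u) : minpoly R ϖ = E := by
  have hint : IsIntegral R ϖ := ⟨E, hE, hE0⟩
  have hirr : Irreducible E :=
    (isEisensteinAt_left hE hJ hJb hu hc h0).irreducible
      ((Ideal.span_singleton_prime hJ.ne_zero).mpr hJ) hE.isPrimitive hdeg
  have htf : Module.IsTorsionFree R L := by
    have : FaithfulSMul R L := (faithfulSMul_iff_algebraMap_injective R L).mpr hinj
    infer_instance
  obtain ⟨c, hc'⟩ := minpoly.isIntegrallyClosed_dvd hint hE0
  have hcu : IsUnit c := by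
    rcases hirr.isUnit_or_isUnit hc' with h | h
    · exact absurd h (minpoly.not_isUnit R ϖ)
    · exact h
  exact eq_of_monic_of_associated (minpoly.monic hint) hE ⟨hcu.unit, by rw [hc']; rfl⟩

/-- **Normality of `R[ϖ]` at a regular node** (consumer form): `E` is an Eisenstein-shaped
polynomial for `J * b` with root `ϖ`, `J` and `b` are non-associated primes of `R`, and
`E'(ϖ)` divides a power of `J * b` in `R[ϖ]`; then every element of `L` integral over `R` lies in
`R[ϖ]`. -/
theorem mem_adjoin_of_isIntegral_of_node {ϖ : L} (hgen : Algebra.adjoin K {ϖ} = ⊤)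
    {E : R[X]} (hE : E.Monic) (hE0 : aeval ϖ E = 0) (hdeg : 0 < E.natDegree) {J b u : R}
    (hJ : Prime J) (hb : Prime b) (hJb : ¬ J ∣ b) (hbJ : ¬ b ∣ J) (hu : IsUnit u)
    (hc : ∀ n < E.natDegree, J * b ∣ E.coeff n) (h0 : E.coeff 0 = J * b * u)
    (hD : ∃ (m : ℕ) (y : L), y ∈ Algebra.adjoin R {ϖ} ∧
      aeval ϖ (derivative E) * y = algebraMap R L ((J * b) ^ m))
    {z : L} (hz : IsIntegral R z) : z ∈ Algebra.adjoin R {ϖ} := by
  have hinj : Function.Injective (algebraMap R L) := by
    rw [IsScalarTower.algebraMap_eq R K L]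
    exact (algebraMap K L).injective.comp (IsFractionRing.injective R K)
  have hmin := minpoly_eq_of_eisenstein_shape hinj hE hE0 hdeg hJ hJb hu hc h0
  have hint : IsIntegral R ϖ := ⟨E, hE, hE0⟩
  exact mem_adjoin_of_isIntegral_of_eisenstein_two hgen hint hJ hb
    (by rw [hmin]; exact isEisensteinAt_left hE hJ hJb hu hc h0)
    (by rw [hmin]; exact isEisensteinAt_right hE hb hbJ hu hc h0)
    (by rw [hmin]; exact hD) hz

/-- In a discrete valuation ring, every nonzero element divides a power of any nonzero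
non-unit (used to produce the hypothesis `hD` from `A₀ = A₀₀[ϖ]`). -/
theorem exists_mul_eq_pow_of_dvr {A : Type*} [CommRing A] [IsDomain A]
    [IsDiscreteValuationRing A] {q x : A} (hq0 : q ≠ 0) (hq : ¬ IsUnit q) (hx : x ≠ 0) :
    ∃ (m : ℕ) (y : A), x * y = q ^ m := by
  obtain ⟨ϖ, hϖ⟩ := IsDiscreteValuationRing.exists_irreducible A
  obtain ⟨n, u, rfl⟩ := IsDiscreteValuationRing.eq_unit_mul_pow_irreducible hx hϖ
  obtain ⟨k, v, rfl⟩ := IsDiscreteValuationRing.eq_unit_mul_pow_irreducible hq0 hϖ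
  have hk : 0 < k := by
    rcases Nat.eq_zero_or_pos k with rfl | hk
    · exact absurd (by simp) hq
    · exact hk
  refine ⟨n, (↑u⁻¹ : A) * (v : A) ^ n * ϖ ^ (k * n - n), ?_⟩
  have hle : n ≤ k * n := Nat.le_mul_of_pos_left n hk
  have e : ϖ ^ (k * n) = ϖ ^ n * ϖ ^ (k * n - n) := by
    rw [← pow_add, Nat.add_sub_cancel' hle]
  calc (u : A) * ϖ ^ n * ((↑u⁻¹ : A) * (v : A) ^ n * ϖ ^ (k * n - n))
      = ((u : A) * (↑u⁻¹ : A)) * (v : A) ^ n * (ϖ ^ n * ϖ ^ (k * n - n)) := by ring
    _ = (v : A) ^ n * ϖ ^ (k * n) := by rw [Units.mul_inv, one_mul, ← e]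
    _ = ((v : A) * ϖ ^ k) ^ n := by rw [mul_pow, ← pow_mul]

end Fermat.Agent.S34.H46
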