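import Mathlib

/-!
# The abstract monogenic node: statements (helper46; package L2 of Program B', S34)

Abstract commutative algebra behind "the supersingular node of `X_0(qM)` over an unramified base
is regular, with local equation `J * b = q`" (report #2200 (I)(2)-(5)).

Setting (`NodeHyp`): `q : ℕ`, `S` a noetherian local domain in which `q` is a prime element and
whose maximal ideal is `(q, θ)` (a regular local ring of dimension two with `S/q` a discrete
valuation ring with uniformiser `θ`); `R` a local domain, finite over `S`; two primes `P1`, `P2`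
of `R` with `P1 ∩ P2 = qR`; `R/P1 = S/q`; and an element `x ∈ P1` whose image in `D2 = R/P2`
generates the maximal ideal and satisfies `x^q = θ` there.

Conclusions (`NodeConcl`): `R = S[x]` is free over `S` on `1, x, …, x^q`; the minimal polynomial
`G` of `x` is `≡ X (X^q - θ)` modulo `q`; `J = G'(x)` lies in `P2`, is `≡ -θ` modulo `P1`,
and `x * J = q * E` with `E ∉ P2` (so `v_{P2}(J) = v_{P2}(q) = 1`); and, as soon as `J` divides a
power of `q` (no ramification in characteristic zero through the node), there is `b` with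
`J * b = q`, `P2 = (J)`, `P1 = (b)`, `m_R = (J, b)`: the node is regular.

No normality, rank or fraction-field hypothesis is needed.  Mathlib only.
-/

set_option autoImplicit false

namespace Fermat.Agent.S34.H46

open Ideal IsLocalRing Polynomial

/-- Hypotheses of the abstract monogenic-node package. -/
structure NodeHyp (q : ℕ) (S R : Type*) [CommRing S] [CommRing R] [Algebra S R]
    [IsLocalRing S] [IsLocalRing R] (θ : S) (P1 P2 : Ideal R) (x : R) : Prop where
  /-- `2 ≤ q`. -/
  two_le : 2 ≤ q
  /-- `q` is a prime element of `S`. -/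
  prime_q : Prime (q : S)
  /-- the maximal ideal of `S` is `(q, θ)`. -/
  max_S : maximalIdeal S = Ideal.span {(q : S), θ}
  /-- `S ⊆ R`. -/
  inj : Function.Injective (algebraMap S R)
  /-- `P1` is prime. -/
  prime1 : P1.IsPrime
  /-- `P2` is prime. -/
  prime2 : P2.IsPrime
  /-- `P1 ∩ P2 = qR` (the special fibre is reduced with the two components `P1`, `P2`). -/
  inf_eq : P1 ⊓ P2 = Ideal.span {(q : R)}
  /-- `S → R/P1` is surjective. -/
  surj1 : ∀ r : R, ∃ s : S, r - algebraMap S R s ∈ P1
  /-- `P1 ∩ S = qS`. -/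
  comap1 : ∀ s : S, algebraMap S R s ∈ P1 → (q : S) ∣ s
  /-- `x ∈ P1`. -/
  x_mem1 : x ∈ P1
  /-- `x ∉ P2`. -/
  x_not_mem2 : x ∉ P2
  /-- `x^q = θ` on `R/P2`. -/
  x_pow : x ^ q - algebraMap S R θ ∈ P2
  /-- the image of `x` generates the maximal ideal of `R/P2`. -/
  max_R : maximalIdeal R = P2 ⊔ Ideal.span {x}

/-- The different element `J = G'(x)`, `G` the minimal polynomial of `x` over `S`. -/
noncomputable def nodeJ (S : Type*) {R : Type*} [CommRing S] [CommRing R] [Algebra S R]
    (x : R) : R :=
  aeval x (derivative (minpoly S x))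

/-- Conclusions of the abstract monogenic-node package. -/
structure NodeConcl (q : ℕ) (S R : Type*) [CommRing S] [CommRing R] [Algebra S R]
    [IsLocalRing S] [IsLocalRing R] (θ : S) (P1 P2 : Ideal R) (x : R) : Prop where
  /-- `R` is generated over `S` by `1, x, …, x^q`. -/
  gen : ∀ r : R, ∃ f : S[X], f.natDegree ≤ q ∧ aeval x f = r
  /-- `1, x, …, x^q` are linearly independent over `S`. -/
  indep : ∀ f : S[X], f.natDegree ≤ q → aeval x f = 0 → f = 0
  /-- the minimal polynomial of `x` over `S` is monic. -/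
  monic : (minpoly S x).Monic
  /-- the minimal polynomial of `x` over `S` has degree `q + 1`. -/
  natDegree_eq : (minpoly S x).natDegree = q + 1
  /-- `G ≡ X (X^q - θ)` modulo `q`. -/
  minpoly_mod : ∀ i : ℕ, (q : S) ∣ (minpoly S x - X * (X ^ q - C θ)).coeff i
  /-- `P1 = (x, q)`. -/
  p1_eq : P1 = Ideal.span {x, (q : R)}
  /-- `J ∈ P2`. -/
  J_mem2 : nodeJ S x ∈ P2
  /-- `J ≡ -θ` modulo `P1`. -/
  J_add_mem1 : nodeJ S x + algebraMap S R θ ∈ P1
  /-- `J ∉ P1`. -/
  J_not_mem1 : nodeJ S x ∉ P1
  /-- `x * J = q * E` with `E ∉ P2`: the valuation of `J` at `P2` is one. -/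
  val_J : ∃ E : R, E ∉ P2 ∧ x * nodeJ S x = (q : R) * E
  /-- regularity of the node when `J` divides a power of `q`. -/
  regular : (∃ k : ℕ, (q : R) ^ k ∈ Ideal.span {nodeJ S x}) →
    ∃ b : R, nodeJ S x * b = (q : R) ∧ P2 = Ideal.span {nodeJ S x} ∧ P1 = Ideal.span {b} ∧
      maximalIdeal R = Ideal.span {nodeJ S x, b} ∧ ∃ u : Rˣ, x = b * u

/-- The statement of package L2: `NodeHyp ⟹ NodeConcl`. -/
def NodeStatement.{u, v} : Prop :=
  ∀ (q : ℕ) (S : Type u) (R : Type v) [CommRing S] [CommRing R] [IsDomain S] [IsDomain R]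
    [Algebra S R] [IsLocalRing S] [IsLocalRing R] [IsNoetherianRing S] [Module.Finite S R]
    (θ : S) (P1 P2 : Ideal R) (x : R), NodeHyp q S R θ P1 P2 x → NodeConcl q S R θ P1 P2 x

end Fermat.Agent.S34.H46
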