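import Fermat.Agent.S34.H46.NodeDefs

/-!
# The abstract monogenic node: proofs (helper46; package L2 of Program B', S34)

Proof of `NodeStatement` (see `NodeDefs.lean`).  Everything is elementary: Nakayama's lemma,
Krull's intersection theorem and explicit computations with the sums `∑_{i<n} c_i x^i`.
-/

set_option autoImplicit false
set_option linter.unusedSectionVars false

namespace Fermat.Agent.S34.H46

open Ideal IsLocalRing Polynomial

section psum

variable {S R : Type*} [CommRing S] [CommRing R] [Algebra S R]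

/-- `∑_{i<n} c_i x^i`. -/
def psum (x : R) (c : ℕ → S) (n : ℕ) : R :=
  ∑ i ∈ Finset.range n, algebraMap S R (c i) * x ^ i

lemma psum_zero (x : R) (c : ℕ → S) : psum x c 0 = 0 := by simp [psum]

lemma psum_succ (x : R) (c : ℕ → S) (n : ℕ) :
    psum x c (n + 1) = psum x c n + algebraMap S R (c n) * x ^ n := by
  simp [psum, Finset.sum_range_succ]

lemma psum_succ' (x : R) (c : ℕ → S) (n : ℕ) :
    psum x c (n + 1) = algebraMap S R (c 0) + x * psum x (fun i => c (i + 1)) n := by
  simp only [psum, Finset.sum_range_succ', Finset.mul_sum]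
  rw [add_comm]
  congr 1
  · simp
  · refine Finset.sum_congr rfl fun i _ => ?_
    ring

lemma psum_congr (x : R) {c d : ℕ → S} {n : ℕ} (hcd : ∀ i < n, c i = d i) :
    psum x c n = psum x d n :=
  Finset.sum_congr rfl fun i hi => by rw [hcd i (Finset.mem_range.mp hi)]

lemma psum_add (x : R) (c d : ℕ → S) (n : ℕ) :
    psum x (fun i => c i + d i) n = psum x c n + psum x d n := by
  simp [psum, add_mul, Finset.sum_add_distrib]

lemma psum_mul (x : R) (s : S) (c : ℕ → S) (n : ℕ) :
    psum x (fun i => s * c i) n = algebraMap S R s * psum x c n := by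
  simp [psum, Finset.mul_sum, mul_assoc]

lemma psum_single (x : R) (s : S) {j n : ℕ} (hj : j < n) :
    psum x (fun i => if i = j then s else 0) n = algebraMap S R s * x ^ j := by
  unfold psum
  rw [Finset.sum_eq_single j]
  · simp
  · intro i _ hij; simp [hij]
  · intro hj'; exact absurd (Finset.mem_range.mpr hj) hj'

/-- The `S`-submodule `P + ∑_{i<n} S x^i` of `R`. -/
def genSub (S : Type*) {R : Type*} [CommRing S] [CommRing R] [Algebra S R]
    (P : Ideal R) (x : R) (n : ℕ) : Submodule S R where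
  carrier := {r | ∃ c : ℕ → S, r - psum x c n ∈ P}
  add_mem' := by
    rintro a b ⟨c, hc⟩ ⟨d, hd⟩
    refine ⟨fun i => c i + d i, ?_⟩
    rw [psum_add]
    have : a + b - (psum x c n + psum x d n) = (a - psum x c n) + (b - psum x d n) := by ring
    rw [this]; exact P.add_mem hc hd
  zero_mem' := ⟨0, by simp [psum]⟩
  smul_mem' := by
    rintro s a ⟨c, hc⟩
    refine ⟨fun i => s * c i, ?_⟩
    rw [psum_mul, Algebra.smul_def, ← mul_sub]
    exact P.mul_mem_left _ hc

end psum

section ppoly

variable {S R : Type*} [CommRing S] [CommRing R] [Algebra S R]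

/-- The polynomial `∑_{i<n} c_i X^i`. -/
noncomputable def ppoly (c : ℕ → S) (n : ℕ) : S[X] := ∑ i ∈ Finset.range n, C (c i) * X ^ i

lemma aeval_ppoly (x : R) (c : ℕ → S) (n : ℕ) : aeval x (ppoly c n) = psum x c n := by
  simp [ppoly, psum]

lemma natDegree_ppoly_le (c : ℕ → S) (n : ℕ) : (ppoly c (n + 1)).natDegree ≤ n :=
  Polynomial.natDegree_sum_le_of_forall_le _ _ fun i hi =>
    (natDegree_C_mul_X_pow_le (c i) i).trans (Nat.lt_succ_iff.mp (Finset.mem_range.mp hi))

lemma degree_ppoly_le (c : ℕ → S) (n : ℕ) : (ppoly c (n + 1)).degree ≤ n :=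
  Polynomial.degree_le_of_natDegree_le (natDegree_ppoly_le c n)

lemma degree_ppoly_lt (c : ℕ → S) (n : ℕ) :
    (ppoly c (n + 1)).degree < ((n + 1 : ℕ) : WithBot ℕ) :=
  (degree_ppoly_le c n).trans_lt (by exact_mod_cast Nat.lt_succ_self n)

lemma coeff_ppoly (c : ℕ → S) (n i : ℕ) : (ppoly c n).coeff i = if i < n then c i else 0 := by
  simp [ppoly, coeff_X_pow]

lemma aeval_eq_psum (x : R) (f : S[X]) {n : ℕ} (hf : f.natDegree < n) :
    aeval x f = psum x f.coeff n := by
  rw [aeval_eq_sum_range' hf]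
  simp [psum, Algebra.smul_def]

end ppoly

section node

variable {q : ℕ} {S R : Type*} [CommRing S] [CommRing R] [IsDomain S] [IsDomain R]
  [Algebra S R] [IsLocalRing S] [IsLocalRing R] [IsNoetherianRing S] [Module.Finite S R]
  {θ : S} {P1 P2 : Ideal R} {x : R}

namespace NodeHyp

variable (h : NodeHyp q S R θ P1 P2 x)
include h

lemma q_mem1 : (q : R) ∈ P1 := by
  have : (q : R) ∈ P1 ⊓ P2 := by rw [h.inf_eq]; exact mem_span_singleton_self _
  exact this.1

lemma q_mem2 : (q : R) ∈ P2 := by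
  have : (q : R) ∈ P1 ⊓ P2 := by rw [h.inf_eq]; exact mem_span_singleton_self _
  exact this.2

lemma le_max1 : P1 ≤ maximalIdeal R := le_maximalIdeal h.prime1.ne_top

lemma le_max2 : P2 ≤ maximalIdeal R := le_maximalIdeal h.prime2.ne_top

lemma x_mem_max : x ∈ maximalIdeal R := h.le_max1 h.x_mem1

lemma q_pos : 0 < q := by have := h.two_le; omega

lemma theta_mem_max : θ ∈ maximalIdeal S := by
  rw [h.max_S]; exact Ideal.subset_span (by simp)

lemma q_mem_max : (q : S) ∈ maximalIdeal S := by
  rw [h.max_S]; exact Ideal.subset_span (by simp)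

lemma theta_not_mem2 : algebraMap S R θ ∉ P2 := by
  intro hθ
  have : x ^ q ∈ P2 := by
    have := P2.add_mem h.x_pow hθ
    simpa using this
  exact h.x_not_mem2 (h.prime2.mem_of_pow_mem q this)

lemma not_dvd_theta : ¬ (q : S) ∣ θ := by
  rintro ⟨t, rfl⟩
  apply h.theta_not_mem2
  rw [map_mul, map_natCast]
  exact P2.mul_mem_right _ h.q_mem2

lemma map_mem_sup {s : S} (hs : s ∈ maximalIdeal S) {m : ℕ} (hm : m ≤ q) :
    algebraMap S R s ∈ P2 ⊔ Ideal.span {x ^ m} := by
  rw [h.max_S, Ideal.mem_span_pair] at hs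
  obtain ⟨u, w, rfl⟩ := hs
  have h1 : algebraMap S R θ ∈ P2 ⊔ Ideal.span {x ^ m} := by
    have e : algebraMap S R θ = -(x ^ q - algebraMap S R θ) + x ^ m * x ^ (q - m) := by
      rw [← pow_add, Nat.add_sub_cancel' hm]; ring
    rw [e]
    exact Ideal.add_mem _ (neg_mem (Ideal.mem_sup_left h.x_pow))
      (Ideal.mem_sup_right (Ideal.mul_mem_right _ _ (Ideal.mem_span_singleton_self _)))
  rw [map_add, map_mul, map_mul, map_natCast]
  exact Ideal.add_mem _ (Ideal.mul_mem_left _ _ (Ideal.mem_sup_left h.q_mem2))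
    (Ideal.mul_mem_left _ _ h1)

lemma map_mem_max {s : S} (hs : s ∈ maximalIdeal S) : algebraMap S R s ∈ maximalIdeal R := by
  have := h.map_mem_sup hs (le_refl q)
  refine (sup_le h.le_max2 ?_) this
  rw [Ideal.span_singleton_le_iff_mem]
  exact Ideal.pow_mem_of_mem _ h.x_mem_max q h.q_pos

lemma mem_max_of_map {s : S} (hs : algebraMap S R s ∈ maximalIdeal R) :
    s ∈ maximalIdeal S := by
  by_contra hns
  have hu : IsUnit s := by
    by_contra hu'
    exact hns ((IsLocalRing.mem_maximalIdeal s).mpr hu')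
  exact (IsLocalRing.mem_maximalIdeal _).mp hs (hu.map (algebraMap S R))

/-- Successive approximation in `R/P2`. -/
lemma approx (r : R) (n : ℕ) :
    ∃ c : ℕ → S, ∃ r' : R, r - (psum x c n + x ^ n * r') ∈ P2 := by
  induction n with
  | zero => exact ⟨0, r, by simp [psum_zero]⟩
  | succ n ih =>
    obtain ⟨c, r', hr⟩ := ih
    obtain ⟨s, hs⟩ := h.surj1 r'
    have hs' : r' - algebraMap S R s ∈ P2 ⊔ Ideal.span {x} := by
      rw [← h.max_R]; exact h.le_max1 hs
    obtain ⟨p, hp, z, hz, hpz⟩ := Submodule.mem_sup.mp hs'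
    obtain ⟨w, rfl⟩ := Ideal.mem_span_singleton'.mp hz
    refine ⟨fun i => if i = n then s else c i, w, ?_⟩
    have e1 : psum x (fun i => if i = n then s else c i) (n + 1)
        = psum x c n + algebraMap S R s * x ^ n := by
      rw [psum_succ, if_pos rfl]
      congr 1
      exact psum_congr x fun i hi => if_neg (Nat.ne_of_lt hi)
    have e2 : r - (psum x (fun i => if i = n then s else c i) (n + 1) + x ^ (n + 1) * w)
        = (r - (psum x c n + x ^ n * r')) + x ^ n * p := by
      rw [e1]; linear_combination (-(x ^ n)) * hpz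
    rw [e2]; exact P2.add_mem hr (P2.mul_mem_left _ hp)

/-- `R/P2` is generated over `S` by `1, x, …, x^(q-1)`. -/
lemma gen2 (r : R) : ∃ c : ℕ → S, r - psum x c q ∈ P2 := by
  have key : (⊤ : Submodule S R) ≤ genSub S P2 x q := by
    apply Submodule.le_of_le_smul_of_le_jacobson_bot (I := maximalIdeal S)
      Module.Finite.fg_top (IsLocalRing.maximalIdeal_le_jacobson _)
    intro r _
    obtain ⟨c, r', hr⟩ := h.approx r q
    have e : r = (r - algebraMap S R θ * r') + θ • r' := by rw [Algebra.smul_def]; ring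
    rw [e]
    refine Submodule.add_mem_sup ⟨c, ?_⟩ (Submodule.smul_mem_smul h.theta_mem_max Submodule.mem_top)
    have : r - algebraMap S R θ * r' - psum x c q
        = (r - (psum x c q + x ^ q * r')) + (x ^ q - algebraMap S R θ) * r' := by ring
    rw [this]
    exact P2.add_mem hr (P2.mul_mem_right _ h.x_pow)
  exact key (Submodule.mem_top (x := r))

/-- `R` is generated over `S` by `1, x, …, x^q`. -/
lemma gen1 (r : R) : ∃ c : ℕ → S, r = psum x c (q + 1) := by
  have key : (⊤ : Submodule S R) ≤ genSub S (⊥ : Ideal R) x (q + 1) := by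
    apply Submodule.le_of_le_smul_of_le_jacobson_bot (I := maximalIdeal S)
      Module.Finite.fg_top (IsLocalRing.maximalIdeal_le_jacobson _)
    intro r _
    obtain ⟨c, hc⟩ := h.gen2 r
    obtain ⟨d, hd⟩ := h.surj1 (r - psum x c q)
    have hd' : algebraMap S R d ∈ maximalIdeal R := by
      have := (maximalIdeal R).sub_mem (h.le_max2 hc) (h.le_max1 hd)
      simpa using this
    have hdm := h.mem_max_of_map hd'
    rw [h.max_S, Ideal.mem_span_pair] at hdm
    obtain ⟨u, w, huw⟩ := hdm
    have hmem : r - psum x c q - (algebraMap S R θ - x ^ q) * algebraMap S R w ∈ P1 ⊓ P2 := by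
      constructor
      · have e : r - psum x c q - (algebraMap S R θ - x ^ q) * algebraMap S R w
            = (r - psum x c q - algebraMap S R d) + algebraMap S R u * (q : R)
              + x ^ q * algebraMap S R w := by
          rw [← huw]; simp only [map_add, map_mul, map_natCast]; ring
        rw [e]
        exact P1.add_mem (P1.add_mem hd (P1.mul_mem_left _ h.q_mem1))
          (P1.mul_mem_right _ (Ideal.pow_mem_of_mem _ h.x_mem1 q h.q_pos))
      · refine P2.sub_mem hc (P2.mul_mem_right _ ?_)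
        have := P2.neg_mem h.x_pow
        simpa using this
    rw [h.inf_eq] at hmem
    obtain ⟨r'', hr''⟩ := Ideal.mem_span_singleton'.mp hmem
    have e : r = (psum x c q + (algebraMap S R (θ * w) * x ^ 0 - algebraMap S R w * x ^ q))
        + (q : S) • r'' := by
      rw [Algebra.smul_def, map_natCast, mul_comm (q : R), hr'']; simp only [map_mul]; ring
    rw [e]
    refine Submodule.add_mem_sup ?_ (Submodule.smul_mem_smul h.q_mem_max Submodule.mem_top)
    refine Submodule.add_mem _ ?_ (Submodule.sub_mem _ ?_ ?_)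
    · refine ⟨fun i => if i < q then c i else 0, ?_⟩
      rw [psum_succ, if_neg (lt_irrefl q), map_zero, zero_mul, add_zero,
        psum_congr x (d := c) (fun i hi => if_pos hi), sub_self]
      exact Ideal.zero_mem _
    · exact ⟨fun i => if i = 0 then θ * w else 0, by
        rw [psum_single x _ (Nat.succ_pos q), sub_self]; exact Ideal.zero_mem _⟩
    · exact ⟨fun i => if i = q then w else 0, by
        rw [psum_single x _ (Nat.lt_succ_self q), sub_self]; exact Ideal.zero_mem _⟩
  obtain ⟨c, hc⟩ := key (Submodule.mem_top (x := r))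
  exact ⟨c, by rwa [Ideal.mem_bot, sub_eq_zero] at hc⟩

/-- If `∑_{i<n} c_i x^i ∈ P2 + (x^n)` with `n ≤ q`, then all `c_i` (`i < n`) are non-units. -/
lemma coeff_mem_max : ∀ n ≤ q, ∀ c : ℕ → S, psum x c n ∈ P2 ⊔ Ideal.span {x ^ n} →
    ∀ i < n, c i ∈ maximalIdeal S := by
  intro n
  induction n with
  | zero => intro _ c _ i hi; omega
  | succ n ih =>
    intro hn c hc i hi
    rw [psum_succ'] at hc
    set y := psum x (fun i => c (i + 1)) n with hy
    have hle : P2 ⊔ Ideal.span {x ^ (n + 1)} ≤ maximalIdeal R := by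
      refine sup_le h.le_max2 ?_
      rw [Ideal.span_singleton_le_iff_mem]
      exact Ideal.pow_mem_of_mem _ h.x_mem_max _ (Nat.succ_pos n)
    have h0 : c 0 ∈ maximalIdeal S := by
      apply h.mem_max_of_map
      have := (maximalIdeal R).sub_mem (hle hc) ((maximalIdeal R).mul_mem_right y h.x_mem_max)
      simpa using this
    have hxy : x * y ∈ P2 ⊔ Ideal.span {x ^ (n + 1)} := by
      have := Ideal.sub_mem _ hc (h.map_mem_sup h0 hn)
      simpa using this
    obtain ⟨p, hp, z, hz, hpz⟩ := Submodule.mem_sup.mp hxy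
    obtain ⟨w, rfl⟩ := Ideal.mem_span_singleton'.mp hz
    have hy2 : y - w * x ^ n ∈ P2 := by
      have : x * (y - w * x ^ n) ∈ P2 := by
        have e : x * (y - w * x ^ n) = p := by linear_combination -hpz
        rw [e]; exact hp
      exact (h.prime2.mem_or_mem this).resolve_left h.x_not_mem2
    have hy3 : y ∈ P2 ⊔ Ideal.span {x ^ n} := by
      have e : y = (y - w * x ^ n) + w * x ^ n := by ring
      rw [e]
      exact Ideal.add_mem _ (Ideal.mem_sup_left hy2)
        (Ideal.mem_sup_right (Ideal.mul_mem_left _ _ (Ideal.mem_span_singleton_self _)))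
    rcases Nat.eq_zero_or_pos i with rfl | hpos
    · exact h0
    · have := ih (Nat.le_of_succ_le hn) (fun i => c (i + 1)) hy3 (i - 1) (by omega)
      rwa [Nat.sub_add_cancel hpos] at this

/-- `θ`-adic induction for the independence of `1, x, …, x^(q-1)` modulo `P2`. -/
lemma coeff_mem_pow (c : ℕ → S) (hc : psum x c q ∈ P2) :
    ∀ k : ℕ, ∀ i < q, ∃ u w : S, c i = (q : S) * u + θ ^ k * w := by
  intro k
  induction k with
  | zero => intro i _; exact ⟨0, c i, by simp⟩
  | succ k ih =>
    have : ∀ i, ∃ u w : S, i < q → c i = (q : S) * u + θ ^ k * w := by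
      intro i
      by_cases hi : i < q
      · obtain ⟨u, w, e⟩ := ih i hi; exact ⟨u, w, fun _ => e⟩
      · exact ⟨0, 0, fun hi' => absurd hi' hi⟩
    choose u w huw using this
    have e : psum x c q = (q : R) * psum x u q + (algebraMap S R θ) ^ k * psum x w q := by
      rw [psum_congr x (d := fun i => (q : S) * u i + θ ^ k * w i) huw,
        psum_add x (fun i => (q : S) * u i) (fun i => θ ^ k * w i) q, psum_mul, psum_mul,
        map_natCast, map_pow]
    have hw : psum x w q ∈ P2 := by
      have h1 : (algebraMap S R θ) ^ k * psum x w q ∈ P2 := by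
        have := P2.sub_mem hc (P2.mul_mem_right (psum x u q) h.q_mem2)
        rwa [e, add_sub_cancel_left] at this
      rcases h.prime2.mem_or_mem h1 with h2 | h2
      · exact absurd (h.prime2.mem_of_pow_mem k h2) h.theta_not_mem2
      · exact h2
    have hwm := h.coeff_mem_max q le_rfl w (Ideal.mem_sup_left hw)
    intro i hi
    have hi' := hwm i hi
    rw [h.max_S, Ideal.mem_span_pair] at hi'
    obtain ⟨u', w', e'⟩ := hi'
    refine ⟨u i + θ ^ k * u', w', ?_⟩
    rw [huw i hi, ← e']; ring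

/-- Krull's intersection theorem in `S/q`. -/
lemma dvd_of_forall (s : S) (hs : ∀ k : ℕ, ∃ u w : S, s = (q : S) * u + θ ^ k * w) :
    (q : S) ∣ s := by
  have hne : Ideal.span {θ} ≠ (⊤ : Ideal S) := by
    rw [Ne, Ideal.span_singleton_eq_top]
    exact (IsLocalRing.mem_maximalIdeal θ).mp h.theta_mem_max
  have key := Ideal.iInf_pow_smul_eq_bot_of_isLocalRing (M := S ⧸ Ideal.span {(q : S)})
    (Ideal.span {θ}) hne
  have hmem : (Ideal.Quotient.mk (Ideal.span {(q : S)}) s) ∈
      (⨅ i : ℕ, (Ideal.span {θ}) ^ i • ⊤ : Submodule S (S ⧸ Ideal.span {(q : S)})) := by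
    rw [Submodule.mem_iInf]
    intro k
    obtain ⟨u, w, e⟩ := hs k
    have e2 : Ideal.Quotient.mk (Ideal.span {(q : S)}) s
        = θ ^ k • Ideal.Quotient.mk (Ideal.span {(q : S)}) w := by
      rw [e, map_add, map_mul, map_mul,
        Ideal.Quotient.eq_zero_iff_mem.mpr (Ideal.mem_span_singleton_self _), zero_mul, zero_add]
      rfl
    rw [e2]
    exact Submodule.smul_mem_smul (Ideal.pow_mem_pow (Ideal.mem_span_singleton_self θ) k)
      Submodule.mem_top
  rw [key, Submodule.mem_bot, Ideal.Quotient.eq_zero_iff_mem, Ideal.mem_span_singleton] at hmem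
  exact hmem

/-- `1, x, …, x^(q-1)` are independent over `S/q` in `R/P2`. -/
lemma dvd_coeff_of_mem2 (c : ℕ → S) (hc : psum x c q ∈ P2) : ∀ i < q, (q : S) ∣ c i :=
  fun i hi => h.dvd_of_forall (c i) fun k => h.coeff_mem_pow c hc k i hi

/-- Reduction modulo `P2` of a sum of length `q + 1` (using `x^q = θ`). -/
lemma dvd_coeff_of_mem2' (c : ℕ → S) (hc : psum x c (q + 1) ∈ P2) :
    (q : S) ∣ c 0 + c q * θ ∧ ∀ i, 0 < i → i < q → (q : S) ∣ c i := by
  have key : psum x (fun i => c i + if i = 0 then c q * θ else 0) q ∈ P2 := by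
    rw [psum_add x c (fun i => if i = 0 then c q * θ else 0) q, psum_single x _ h.q_pos]
    have e : psum x c q + algebraMap S R (c q * θ) * x ^ 0
        = psum x c (q + 1) - algebraMap S R (c q) * (x ^ q - algebraMap S R θ) := by
      rw [psum_succ, map_mul]; ring
    rw [e]
    exact P2.sub_mem hc (P2.mul_mem_left _ h.x_pow)
  have := h.dvd_coeff_of_mem2 _ key
  refine ⟨by simpa using this 0 h.q_pos, fun i hi hiq => ?_⟩
  have := this i hiq
  simpa [Nat.pos_iff_ne_zero.mp hi] using this

/-- A sum of length `q + 1` lying in `qR` has all coefficients divisible by `q`. -/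
lemma dvd_coeff_of_mem_span (c : ℕ → S) (hc : psum x c (q + 1) ∈ Ideal.span {(q : R)}) :
    ∀ i < q + 1, (q : S) ∣ c i := by
  rw [← h.inf_eq] at hc
  obtain ⟨hc1, hc2⟩ := hc
  have h0 : (q : S) ∣ c 0 := by
    apply h.comap1
    rw [psum_succ'] at hc1
    have := P1.sub_mem hc1 (P1.mul_mem_right (psum x (fun i => c (i + 1)) q) h.x_mem1)
    simpa using this
  obtain ⟨h0q, hmid⟩ := h.dvd_coeff_of_mem2' c hc2
  have hq : (q : S) ∣ c q := by
    have : (q : S) ∣ c q * θ := (dvd_add_right h0).mp h0q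
    exact (h.prime_q.dvd_or_dvd this).resolve_right h.not_dvd_theta
  intro i hi
  rcases Nat.eq_zero_or_pos i with rfl | hpos
  · exact h0
  · rcases Nat.lt_or_ge i q with hlt | hge
    · exact hmid i hpos hlt
    · have : i = q := by omega
      rw [this]; exact hq

lemma q_ne_zero : (q : R) ≠ 0 := by
  rw [← map_natCast (algebraMap S R)]
  exact fun h0 => h.prime_q.ne_zero (h.inj (by rw [h0, map_zero]))

lemma dvd_pow_coeff : ∀ k : ℕ, ∀ c : ℕ → S, psum x c (q + 1) = 0 →
    ∀ i < q + 1, (q : S) ^ k ∣ c i := by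
  intro k
  induction k with
  | zero => intro c _ i _; simp
  | succ k ih =>
    intro c hc i hi
    have h1 := h.dvd_coeff_of_mem_span c (by rw [hc]; exact Ideal.zero_mem _)
    have : ∀ i, ∃ d : S, i < q + 1 → c i = (q : S) * d := by
      intro i
      by_cases hi : i < q + 1
      · obtain ⟨d, hd⟩ := h1 i hi; exact ⟨d, fun _ => hd⟩
      · exact ⟨0, fun hi' => absurd hi' hi⟩
    choose d hd using this
    have e : psum x c (q + 1) = (q : R) * psum x d (q + 1) := by
      rw [psum_congr x (d := fun i => (q : S) * d i) hd, psum_mul, map_natCast]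
    have hd0 : psum x d (q + 1) = 0 := by
      rw [e] at hc
      exact (mul_eq_zero.mp hc).resolve_left h.q_ne_zero
    obtain ⟨t, ht⟩ := ih d hd0 i hi
    exact ⟨t, by rw [hd i hi, ht]; ring⟩

/-- `1, x, …, x^q` are linearly independent over `S`. -/
lemma indep (c : ℕ → S) (hc : psum x c (q + 1) = 0) : ∀ i < q + 1, c i = 0 := by
  intro i hi
  have hne : Ideal.span {(q : S)} ≠ ⊤ := by
    rw [Ne, Ideal.span_singleton_eq_top]; exact h.prime_q.not_isUnit
  have key := Ideal.iInf_pow_eq_bot_of_isLocalRing (Ideal.span {(q : S)}) hne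
  have : c i ∈ (⨅ k : ℕ, Ideal.span {(q : S)} ^ k) := by
    rw [Ideal.mem_iInf]
    intro k
    rw [Ideal.span_singleton_pow, Ideal.mem_span_singleton]
    exact h.dvd_pow_coeff k c hc i hi
  rwa [key, Ideal.mem_bot] at this

/-- `R` is generated over `S` by `1, x, …, x^q` (polynomial form). -/
lemma gen_poly (r : R) : ∃ f : S[X], f.natDegree ≤ q ∧ aeval x f = r := by
  obtain ⟨c, hc⟩ := h.gen1 r
  exact ⟨ppoly c (q + 1), natDegree_ppoly_le c q, by rw [aeval_ppoly, hc]⟩

/-- `1, x, …, x^q` are linearly independent over `S` (polynomial form). -/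
lemma indep_poly (f : S[X]) (hf : f.natDegree ≤ q) (h0 : aeval x f = 0) : f = 0 := by
  rw [aeval_eq_psum x f (Nat.lt_succ_of_le hf)] at h0
  have := h.indep f.coeff h0
  ext i
  rcases Nat.lt_or_ge i (q + 1) with hi | hi
  · simpa using this i hi
  · simpa using coeff_eq_zero_of_natDegree_lt (by omega)

/-- The minimal polynomial of `x` is `X^(q+1) - ∑_{i ≤ q} c_i X^i`. -/
lemma minpoly_eq (c : ℕ → S) (hc : x ^ (q + 1) = psum x c (q + 1)) :
    minpoly S x = X ^ (q + 1) - ppoly c (q + 1) := by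
  have hdeg : (X ^ (q + 1) - ppoly c (q + 1) : S[X]).degree = ((q + 1 : ℕ) : WithBot ℕ) := by
    rw [degree_sub_eq_left_of_degree_lt, degree_X_pow]
    rw [degree_X_pow]
    exact degree_ppoly_lt c q
  symm
  apply minpoly.unique'
  · exact monic_X_pow_sub (degree_ppoly_lt c q)
  · rw [map_sub, map_pow, aeval_X, aeval_ppoly, hc, sub_self]
  · intro f hf
    by_cases hf0 : f = 0
    · exact Or.inl hf0
    · right
      intro h0
      apply hf0
      apply h.indep_poly f ?_ h0
      rw [hdeg] at hf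
      exact Nat.lt_succ_iff.mp ((natDegree_lt_iff_degree_lt hf0).mpr hf)

/-- The relation `x^(q+1) = ∑ c_i x^i` is `≡ x^(q+1) = θ x` modulo `q`. -/
lemma rel_mod (c : ℕ → S) (hc : x ^ (q + 1) = psum x c (q + 1)) :
    ∀ i < q + 1, (q : S) ∣ c i - (if i = 1 then θ else 0) := by
  have hq := h.q_pos
  have key : psum x (fun i => c i + (if i = 1 then -θ else 0)) (q + 1)
      ∈ Ideal.span {(q : R)} := by
    rw [psum_add x c (fun i => if i = 1 then -θ else 0) (q + 1),
      psum_single x _ (by omega : 1 < q + 1), ← hc, ← h.inf_eq]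
    have e : x ^ (q + 1) + algebraMap S R (-θ) * x ^ 1 = x * (x ^ q - algebraMap S R θ) := by
      rw [map_neg]; ring
    rw [e]
    exact ⟨P1.mul_mem_right _ h.x_mem1, P2.mul_mem_left _ h.x_pow⟩
  intro i hi
  have := h.dvd_coeff_of_mem_span _ key i hi
  by_cases h1 : i = 1
  · simpa [h1, sub_eq_add_neg] using this
  · simpa [h1] using this

lemma map_mem_span_q {s : S} (hs : (q : S) ∣ s) (r : R) :
    algebraMap S R s * r ∈ Ideal.span {(q : R)} := by
  obtain ⟨t, rfl⟩ := hs
  rw [map_mul, map_natCast, mul_assoc]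
  exact Ideal.mul_mem_right _ _ (Ideal.mem_span_singleton_self _)

/-- Explicit form of `J = G'(x)`. -/
lemma J_eq (c : ℕ → S) (hc : x ^ (q + 1) = psum x c (q + 1)) :
    nodeJ S x = ((q : R) + 1) * x ^ q
      - ∑ i ∈ Finset.range (q + 1), algebraMap S R (c i * (i : S)) * x ^ (i - 1) := by
  unfold nodeJ
  rw [h.minpoly_eq c hc]
  simp [ppoly, derivative_X_pow, mul_assoc]

/-- `J ≡ x^q - θ` modulo `q`. -/
lemma J_sub (c : ℕ → S) (hc : x ^ (q + 1) = psum x c (q + 1)) :
    nodeJ S x - (x ^ q - algebraMap S R θ) ∈ Ideal.span {(q : R)} := by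
  rw [h.J_eq c hc]
  have key : ∑ i ∈ Finset.range (q + 1), algebraMap S R (c i * (i : S)) * x ^ (i - 1)
      - algebraMap S R θ ∈ Ideal.span {(q : R)} := by
    have e : ∑ i ∈ Finset.range (q + 1), algebraMap S R (c i * (i : S)) * x ^ (i - 1)
        - algebraMap S R θ
        = ∑ i ∈ Finset.range (q + 1), (algebraMap S R (c i * (i : S)) * x ^ (i - 1)
            - if i = 1 then algebraMap S R θ else 0) := by
      rw [Finset.sum_sub_distrib, Finset.sum_ite_eq',
        if_pos (Finset.mem_range.mpr (by have := h.q_pos; omega))]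
    rw [e]
    refine Ideal.sum_mem _ fun i hi => ?_
    have hi' := Finset.mem_range.mp hi
    have hd := h.rel_mod c hc i hi'
    by_cases h1 : i = 1
    · subst h1
      rw [if_pos rfl] at hd ⊢
      have e1 : algebraMap S R (c 1 * ((1 : ℕ) : S)) * x ^ (1 - 1) - algebraMap S R θ
          = algebraMap S R (c 1 - θ) * 1 := by simp
      rw [e1]; exact h.map_mem_span_q hd 1
    · rw [if_neg h1, sub_zero] at hd ⊢
      rw [map_mul, mul_assoc]
      exact h.map_mem_span_q hd _
  have e : ((q : R) + 1) * x ^ q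
      - ∑ i ∈ Finset.range (q + 1), algebraMap S R (c i * (i : S)) * x ^ (i - 1)
      - (x ^ q - algebraMap S R θ)
      = (q : R) * x ^ q - (∑ i ∈ Finset.range (q + 1),
          algebraMap S R (c i * (i : S)) * x ^ (i - 1) - algebraMap S R θ) := by ring
  rw [e]
  exact Ideal.sub_mem _ (Ideal.mul_mem_right _ _ (Ideal.mem_span_singleton_self _)) key

lemma span_q_le1 : Ideal.span {(q : R)} ≤ P1 := by
  rw [← h.inf_eq]; exact inf_le_left

lemma span_q_le2 : Ideal.span {(q : R)} ≤ P2 := by
  rw [← h.inf_eq]; exact inf_le_right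

lemma J_mem2 (c : ℕ → S) (hc : x ^ (q + 1) = psum x c (q + 1)) : nodeJ S x ∈ P2 := by
  have := P2.add_mem (h.span_q_le2 (h.J_sub c hc)) h.x_pow
  simpa using this

lemma J_add_mem1 (c : ℕ → S) (hc : x ^ (q + 1) = psum x c (q + 1)) :
    nodeJ S x + algebraMap S R θ ∈ P1 := by
  have := P1.add_mem (h.span_q_le1 (h.J_sub c hc)) (Ideal.pow_mem_of_mem _ h.x_mem1 q h.q_pos)
  have e : nodeJ S x - (x ^ q - algebraMap S R θ) + x ^ q = nodeJ S x + algebraMap S R θ := by
    ring
  rwa [e] at this

lemma J_not_mem1 (c : ℕ → S) (hc : x ^ (q + 1) = psum x c (q + 1)) : nodeJ S x ∉ P1 := by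
  intro hJ
  have := P1.sub_mem (h.J_add_mem1 c hc) hJ
  rw [add_sub_cancel_left] at this
  exact h.not_dvd_theta (h.comap1 θ this)

/-- `x * J = q * E` with `E ∉ P2`. -/
lemma val_J (c : ℕ → S) (hc : x ^ (q + 1) = psum x c (q + 1)) :
    ∃ E : R, E ∉ P2 ∧ x * nodeJ S x = (q : R) * E := by
  have hmod := h.rel_mod c hc
  have : ∀ i, ∃ d : S, i < q + 1 → i ≠ 1 → c i = (q : S) * d := by
    intro i
    by_cases hi : i < q + 1 ∧ i ≠ 1
    · obtain ⟨d, hd⟩ := hmod i hi.1
      rw [if_neg hi.2, sub_zero] at hd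
      exact ⟨d, fun _ _ => hd⟩
    · exact ⟨0, fun h1 h2 => absurd ⟨h1, h2⟩ hi⟩
  choose d hd using this
  have hxJ : x * nodeJ S x = (q : R) * psum x
      (fun i => if i = 1 then c 1 else ((q : S) + 1 - (i : S)) * d i) (q + 1) := by
    rw [h.J_eq c hc]
    have e1 : x * (((q : R) + 1) * x ^ q
          - ∑ i ∈ Finset.range (q + 1), algebraMap S R (c i * (i : S)) * x ^ (i - 1))
        = ((q : R) + 1) * x ^ (q + 1)
          - ∑ i ∈ Finset.range (q + 1), algebraMap S R (c i * (i : S)) * x ^ i := by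
      rw [mul_sub, Finset.mul_sum]
      congr 1
      · ring
      · refine Finset.sum_congr rfl fun i _ => ?_
        rcases Nat.eq_zero_or_pos i with rfl | hpos
        · simp
        · rw [mul_left_comm, ← pow_succ', Nat.sub_add_cancel hpos]
    rw [e1, hc]
    unfold psum
    rw [Finset.mul_sum, Finset.mul_sum, ← Finset.sum_sub_distrib]
    refine Finset.sum_congr rfl fun i hi => ?_
    have hi' := Finset.mem_range.mp hi
    by_cases h1 : i = 1
    · subst h1
      simp only [↓reduceIte, Nat.cast_one, mul_one]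
      ring
    · simp only [if_neg h1]
      rw [hd i hi' h1]
      simp only [map_mul, map_sub, map_add, map_natCast, map_one]
      ring
  refine ⟨_, ?_, hxJ⟩
  intro hE
  obtain ⟨-, hmid⟩ := h.dvd_coeff_of_mem2' _ hE
  have hq2 := h.two_le
  have h1 := hmid 1 one_pos (by omega)
  simp only [↓reduceIte] at h1
  have h2 := hmod 1 (by omega)
  rw [if_pos rfl] at h2
  exact h.not_dvd_theta ((dvd_sub_right h1).mp h2)

/-- `P1 = (x, q)`. -/
lemma p1_eq : P1 = Ideal.span {x, (q : R)} := by
  apply le_antisymm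
  · intro a ha
    have ha' : a ∈ P2 ⊔ Ideal.span {x} := by rw [← h.max_R]; exact h.le_max1 ha
    obtain ⟨p, hp, z, hz, hpz⟩ := Submodule.mem_sup.mp ha'
    obtain ⟨w, rfl⟩ := Ideal.mem_span_singleton'.mp hz
    have hp' : p ∈ Ideal.span {(q : R)} := by
      rw [← h.inf_eq]
      refine ⟨?_, hp⟩
      have e : p = a - w * x := by rw [← hpz]; ring
      rw [e]; exact P1.sub_mem ha (P1.mul_mem_left _ h.x_mem1)
    obtain ⟨t, rfl⟩ := Ideal.mem_span_singleton'.mp hp'
    rw [Ideal.mem_span_pair]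
    exact ⟨w, t, by rw [← hpz]; ring⟩
  · rw [Ideal.span_le]
    rintro z (rfl | rfl)
    · exact h.x_mem1
    · exact h.q_mem1

/-- Descent `J y = q^k ⟹ J b = q`. -/
lemma exists_b_aux (J E : R) (hJ1 : J ∉ P1) (hJ2 : J ∈ P2) (hE : E ∉ P2)
    (hxJ : x * J = (q : R) * E) :
    ∀ k : ℕ, ∀ y : R, J * y = (q : R) ^ k → ∃ b : R, J * b = (q : R) := by
  intro k
  induction k with
  | zero =>
    intro y hy
    exfalso
    rw [pow_zero] at hy
    exact h.prime2.ne_top (Ideal.eq_top_of_isUnit_mem _ hJ2 (IsUnit.of_mul_eq_one _ hy))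
  | succ k ih =>
    intro y hy
    rcases Nat.eq_zero_or_pos k with rfl | hk
    · exact ⟨y, by simpa using hy⟩
    · have hy1 : y ∈ P1 := by
        have : J * y ∈ P1 := by
          rw [hy]; exact Ideal.pow_mem_of_mem _ h.q_mem1 _ (Nat.succ_pos k)
        exact (h.prime1.mem_or_mem this).resolve_left hJ1
      have hy2 : y ∈ P2 := by
        have e : E * y = x * (q : R) ^ k := by
          have h1 : (q : R) * (E * y) = (q : R) * (x * (q : R) ^ k) := by
            calc (q : R) * (E * y) = (x * J) * y := by rw [hxJ]; ring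
              _ = x * (J * y) := by ring
              _ = (q : R) * (x * (q : R) ^ k) := by rw [hy, pow_succ]; ring
          exact mul_left_cancel₀ h.q_ne_zero h1
        have : E * y ∈ P2 := by
          rw [e]; exact P2.mul_mem_left _ (Ideal.pow_mem_of_mem _ h.q_mem2 _ hk)
        exact (h.prime2.mem_or_mem this).resolve_left hE
      have hy3 : y ∈ Ideal.span {(q : R)} := by rw [← h.inf_eq]; exact ⟨hy1, hy2⟩
      obtain ⟨y', rfl⟩ := Ideal.mem_span_singleton'.mp hy3
      apply ih y'
      have : (q : R) * (J * y') = (q : R) * (q : R) ^ k := by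
        rw [pow_succ] at hy; linear_combination hy
      exact mul_left_cancel₀ h.q_ne_zero this

/-- Regularity of the node from `J ∣ q^k`. -/
lemma regular_aux (J E : R) (hJ1 : J ∉ P1) (hJ2 : J ∈ P2) (hE : E ∉ P2)
    (hxJ : x * J = (q : R) * E) (hk : ∃ k : ℕ, (q : R) ^ k ∈ Ideal.span {J}) :
    ∃ b : R, J * b = (q : R) ∧ P2 = Ideal.span {J} ∧ P1 = Ideal.span {b} ∧
      maximalIdeal R = Ideal.span {J, b} ∧ ∃ u : Rˣ, x = b * u := by
  obtain ⟨k, hk⟩ := hk
  obtain ⟨y, hy⟩ := Ideal.mem_span_singleton'.mp hk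
  obtain ⟨b, hb⟩ := h.exists_b_aux J E hJ1 hJ2 hE hxJ k y (by rw [mul_comm, hy])
  have hJ0 : J ≠ 0 := fun h0 => hJ1 (h0 ▸ P1.zero_mem)
  have hb0 : b ≠ 0 := by
    rintro rfl
    rw [mul_zero] at hb
    exact h.q_ne_zero hb.symm
  have hb1 : b ∈ P1 := by
    have : J * b ∈ P1 := by rw [hb]; exact h.q_mem1
    exact (h.prime1.mem_or_mem this).resolve_left hJ1
  have hxb : x = b * E := by
    have : J * x = J * (b * E) := by rw [← mul_assoc, hb, ← hxJ]; ring
    exact mul_left_cancel₀ hJ0 this
  have hP2 : P2 = Ideal.span {J} := by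
    apply le_antisymm
    · intro a ha
      have : a * b ∈ Ideal.span {(q : R)} := by
        rw [← h.inf_eq]; exact ⟨P1.mul_mem_left _ hb1, P2.mul_mem_right _ ha⟩
      obtain ⟨t, ht⟩ := Ideal.mem_span_singleton'.mp this
      rw [Ideal.mem_span_singleton']
      refine ⟨t, mul_right_cancel₀ hb0 ?_⟩
      rw [mul_assoc, hb, ht]
    · rw [Ideal.span_singleton_le_iff_mem]; exact hJ2
  have hP1 : P1 = Ideal.span {b} := by
    apply le_antisymm
    · intro a ha
      have : a * J ∈ Ideal.span {(q : R)} := by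
        rw [← h.inf_eq]; exact ⟨P1.mul_mem_right _ ha, P2.mul_mem_left _ hJ2⟩
      obtain ⟨t, ht⟩ := Ideal.mem_span_singleton'.mp this
      rw [Ideal.mem_span_singleton']
      refine ⟨t, mul_right_cancel₀ hJ0 ?_⟩
      rw [mul_assoc, mul_comm b J, hb, ht]
    · rw [Ideal.span_singleton_le_iff_mem]; exact hb1
  have hEu : IsUnit E := by
    by_contra hEn
    have hEm : E ∈ maximalIdeal R := (IsLocalRing.mem_maximalIdeal E).mpr hEn
    rw [h.max_R] at hEm
    obtain ⟨p, hp, z, hz, hpz⟩ := Submodule.mem_sup.mp hEm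
    obtain ⟨w, rfl⟩ := Ideal.mem_span_singleton'.mp hz
    have h1 : x * (1 - b * w) ∈ P2 := by
      have e : x * (1 - b * w) = b * p := by
        have : x = b * (p + w * x) := by rw [hpz]; exact hxb
        linear_combination this
      rw [e]; exact P2.mul_mem_left _ hp
    have h2 : 1 - b * w ∈ P2 := (h.prime2.mem_or_mem h1).resolve_left h.x_not_mem2
    have h3 : (1 : R) ∈ maximalIdeal R := by
      have := (maximalIdeal R).add_mem (h.le_max2 h2)
        ((maximalIdeal R).mul_mem_right w (h.le_max1 hb1))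
      have e : 1 - b * w + b * w = 1 := by ring
      rwa [e] at this
    exact (Ideal.ne_top_iff_one _).mp (IsLocalRing.maximalIdeal.isMaximal R).ne_top h3
  refine ⟨b, hb, hP2, hP1, ?_, hEu.unit, by rw [IsUnit.unit_spec]; exact hxb⟩
  apply le_antisymm
  · rw [h.max_R]
    refine sup_le ?_ ?_
    · rw [hP2]; exact Ideal.span_mono (by simp)
    · rw [Ideal.span_singleton_le_iff_mem, hxb]
      exact Ideal.mul_mem_right _ _ (Ideal.subset_span (by simp))
  · rw [Ideal.span_le]
    rintro z (rfl | rfl)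
    · exact h.le_max2 hJ2
    · exact h.le_max1 hb1

/-- **The abstract monogenic node**: conclusions from the hypotheses. -/
theorem concl : NodeConcl q S R θ P1 P2 x := by
  obtain ⟨c, hc⟩ := h.gen1 (x ^ (q + 1))
  have hmin := h.minpoly_eq c hc
  have hmonic : (minpoly S x).Monic := by
    rw [hmin]; exact monic_X_pow_sub (degree_ppoly_lt c q)
  have hnat : (minpoly S x).natDegree = q + 1 := by
    rw [hmin, natDegree_sub_eq_left_of_natDegree_lt, natDegree_X_pow]
    rw [natDegree_X_pow]
    exact Nat.lt_succ_of_le (natDegree_ppoly_le c q)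
  obtain ⟨E, hE, hxJ⟩ := h.val_J c hc
  refine ⟨h.gen_poly, h.indep_poly, hmonic, hnat, ?_, h.p1_eq, h.J_mem2 c hc,
    h.J_add_mem1 c hc, h.J_not_mem1 c hc, ⟨E, hE, hxJ⟩,
    h.regular_aux _ E (h.J_not_mem1 c hc) (h.J_mem2 c hc) hE hxJ⟩
  intro i
  have e : minpoly S x - X * (X ^ q - C θ) = C θ * X - ppoly c (q + 1) := by
    rw [hmin]; ring
  rw [e, coeff_sub, coeff_C_mul_X, coeff_ppoly]
  by_cases hi : i < q + 1
  · rw [if_pos hi]
    have := h.rel_mod c hc i hi
    rw [← dvd_neg, neg_sub]
    exact this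
  · rw [if_neg hi, if_neg (by have := h.q_pos; omega), sub_zero]
    exact dvd_zero _

end NodeHyp

/-- Package L2: the abstract monogenic-node statement. -/
theorem nodeStatement.{u, v} : NodeStatement.{u, v} := by
  intro q S R _ _ _ _ _ _ _ _ _ θ P1 P2 x h
  exact h.concl

end node

end Fermat.Agent.S34.H46
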