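import Mathlib

/-!
# `R[ϖ]` is local with maximal ideal `(m_R, ϖ)` (helper46; L2b of Program B', S34)

`R` a local ring, `R'` an `R`-algebra generated by one element `ϖ` which is a root of a monic
polynomial `E` whose lower coefficients lie in the maximal ideal of `R` (e.g. an Eisenstein
polynomial).  Then `R'` is local and its maximal ideal is `m_R R' + ϖ R'`.  In particular, if
`m_R = (J, b)` (a regular node over the unramified base), then `m_{R'} = (J, b, ϖ)`: this is the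
shape of the local ring of the chart over the ramified base at the node, as consumed by the
"branch through a point" lemma.  Also: `R[ϖ] ⊆ L` is a noetherian ring when `R` is.

Mathlib only.
-/

set_option autoImplicit false
set_option linter.unusedSectionVars false

namespace Fermat.Agent.S34.H46

open Polynomial IsLocalRing

section general

variable {R R' : Type*} [CommRing R] [IsLocalRing R] [CommRing R'] [Nontrivial R'] [Algebra R R']

/-- The candidate maximal ideal `m_R R' + ϖ R'`. -/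
def adjMax (R : Type*) {R' : Type*} [CommRing R] [IsLocalRing R] [CommRing R'] [Algebra R R']
    (ϖ : R') : Ideal R' :=
  (maximalIdeal R).map (algebraMap R R') ⊔ Ideal.span {ϖ}

omit [Nontrivial R'] in
lemma pow_mem_map_of_monic {ϖ : R'} {E : R[X]} (hE : E.Monic) (hE0 : aeval ϖ E = 0)
    (hc : ∀ n < E.natDegree, E.coeff n ∈ maximalIdeal R) :
    ϖ ^ E.natDegree ∈ (maximalIdeal R).map (algebraMap R R') := by
  have h1 : aeval ϖ E = ϖ ^ E.natDegree
      + ∑ i ∈ Finset.range E.natDegree, algebraMap R R' (E.coeff i) * ϖ ^ i := by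
    conv_lhs => rw [hE.as_sum]
    simp
  rw [hE0] at h1
  have h2 : ϖ ^ E.natDegree
      = -∑ i ∈ Finset.range E.natDegree, algebraMap R R' (E.coeff i) * ϖ ^ i := by
    linear_combination -h1
  rw [h2]
  refine Ideal.neg_mem_iff _ |>.mpr (Ideal.sum_mem _ fun i hi => ?_)
  exact Ideal.mul_mem_right _ _ (Ideal.mem_map_of_mem _ (hc i (Finset.mem_range.mp hi)))

omit [Nontrivial R'] in
lemma adjMax_le_of_isMaximal {ϖ : R'} (hgen : ∀ r' : R', ∃ f : R[X], aeval ϖ f = r')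
    {E : R[X]} (hE : E.Monic) (hE0 : aeval ϖ E = 0)
    (hc : ∀ n < E.natDegree, E.coeff n ∈ maximalIdeal R) (𝔫 : Ideal R') (h𝔫 : 𝔫.IsMaximal) :
    adjMax R ϖ ≤ 𝔫 := by
  have hϖint : IsIntegral R ϖ := ⟨E, hE, hE0⟩
  have hint : Algebra.IsIntegral R R' := by
    refine ⟨fun r' => ?_⟩
    obtain ⟨f, rfl⟩ := hgen r'
    have hle : Algebra.adjoin R {ϖ} ≤ integralClosure R R' :=
      Algebra.adjoin_le (Set.singleton_subset_iff.mpr hϖint)
    apply hle
    rw [Algebra.adjoin_singleton_eq_range_aeval]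
    exact ⟨f, rfl⟩
  have hcomap : (𝔫.comap (algebraMap R R')).IsMaximal :=
    Ideal.isMaximal_comap_of_isIntegral_of_isMaximal 𝔫
  have hmap : (maximalIdeal R).map (algebraMap R R') ≤ 𝔫 := by
    rw [Ideal.map_le_iff_le_comap, ← IsLocalRing.eq_maximalIdeal hcomap]
  refine sup_le hmap ?_
  rw [Ideal.span_singleton_le_iff_mem]
  exact h𝔫.isPrime.mem_of_pow_mem _ (hmap (pow_mem_map_of_monic hE hE0 hc))

lemma adjMax_isMaximal {ϖ : R'} (hgen : ∀ r' : R', ∃ f : R[X], aeval ϖ f = r')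
    {E : R[X]} (hE : E.Monic) (hE0 : aeval ϖ E = 0)
    (hc : ∀ n < E.natDegree, E.coeff n ∈ maximalIdeal R) : (adjMax R ϖ).IsMaximal := by
  obtain ⟨𝔫, h𝔫⟩ := Ideal.exists_maximal R'
  have hle := adjMax_le_of_isMaximal hgen hE hE0 hc 𝔫 h𝔫
  rw [Ideal.isMaximal_iff]
  refine ⟨fun h1 => h𝔫.ne_top ((Ideal.eq_top_iff_one _).mpr (hle h1)), ?_⟩
  intro J' r' hJ' hr' hr'J
  obtain ⟨f, rfl⟩ := hgen r'
  have hϖ : ϖ ∈ adjMax R ϖ := Ideal.mem_sup_right (Ideal.mem_span_singleton_self ϖ)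
  have e : aeval ϖ f = aeval ϖ f.divX * ϖ + algebraMap R R' (f.coeff 0) := by
    conv_lhs => rw [← divX_mul_X_add f]
    simp
  have h0 : f.coeff 0 ∉ maximalIdeal R := by
    intro hm
    apply hr'
    rw [e]
    exact Ideal.add_mem _ (Ideal.mul_mem_left _ _ hϖ)
      (Ideal.mem_sup_left (Ideal.mem_map_of_mem _ hm))
  have hu : IsUnit (f.coeff 0) := by
    by_contra hnu
    exact h0 ((IsLocalRing.mem_maximalIdeal _).mpr hnu)
  have h1 : algebraMap R R' (f.coeff 0) ∈ J' := by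
    have : algebraMap R R' (f.coeff 0) = aeval ϖ f - aeval ϖ f.divX * ϖ := by rw [e]; ring
    rw [this]
    exact J'.sub_mem hr'J (J'.mul_mem_left _ (hJ' hϖ))
  exact (Ideal.eq_top_iff_one _).mp (Ideal.eq_top_of_isUnit_mem _ h1 (hu.map _))

/-- `R[ϖ]` is a local ring. -/
theorem isLocalRing_of_monic {ϖ : R'} (hgen : ∀ r' : R', ∃ f : R[X], aeval ϖ f = r')
    {E : R[X]} (hE : E.Monic) (hE0 : aeval ϖ E = 0)
    (hc : ∀ n < E.natDegree, E.coeff n ∈ maximalIdeal R) : IsLocalRing R' := by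
  have hM := adjMax_isMaximal hgen hE hE0 hc
  refine IsLocalRing.of_unique_max_ideal ⟨adjMax R ϖ, hM, fun 𝔫 h𝔫 => ?_⟩
  exact (hM.eq_of_le h𝔫.ne_top (adjMax_le_of_isMaximal hgen hE hE0 hc 𝔫 h𝔫)).symm

omit [Nontrivial R'] in
/-- The maximal ideal of `R[ϖ]` is `m_R R' + ϖ R'`. -/
theorem maximalIdeal_eq_adjMax [IsLocalRing R'] {ϖ : R'}
    (hgen : ∀ r' : R', ∃ f : R[X], aeval ϖ f = r') {E : R[X]} (hE : E.Monic)
    (hE0 : aeval ϖ E = 0) (hc : ∀ n < E.natDegree, E.coeff n ∈ maximalIdeal R) :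
    maximalIdeal R' = (maximalIdeal R).map (algebraMap R R') ⊔ Ideal.span {ϖ} :=
  (IsLocalRing.eq_maximalIdeal (adjMax_isMaximal hgen hE hE0 hc)).symm

omit [Nontrivial R'] in
/-- If `m_R = (J, b)` then `m_{R[ϖ]} = (J, b, ϖ)`. -/
theorem maximalIdeal_eq_span_three [IsLocalRing R'] {ϖ : R'}
    (hgen : ∀ r' : R', ∃ f : R[X], aeval ϖ f = r') {E : R[X]} (hE : E.Monic)
    (hE0 : aeval ϖ E = 0) (hc : ∀ n < E.natDegree, E.coeff n ∈ maximalIdeal R) {J b : R}
    (hm : maximalIdeal R = Ideal.span {J, b}) :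
    maximalIdeal R' = Ideal.span {algebraMap R R' J, algebraMap R R' b, ϖ} := by
  rw [maximalIdeal_eq_adjMax hgen hE hE0 hc, hm, Ideal.map_span, ← Ideal.span_union]
  congr 1
  ext y
  simp only [Set.image_insert_eq, Set.image_singleton, Set.union_singleton, Set.mem_insert_iff,
    Set.mem_singleton_iff]
  tauto

end general

section subalgebra

variable {R L : Type*} [CommRing R] [IsLocalRing R] [CommRing L] [Nontrivial L] [Algebra R L]

/-- Every element of a subalgebra `A' = R[ϖ] ⊆ L` is a polynomial in the generator. -/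
lemma exists_aeval_eq_of_subalgebra (A' : Subalgebra R L) {ϖ : L} (hϖ : ϖ ∈ A')
    (hA' : A' ≤ Algebra.adjoin R {ϖ}) (r' : A') :
    ∃ f : R[X], aeval (⟨ϖ, hϖ⟩ : A') f = r' := by
  obtain ⟨y, hy⟩ := r'
  have hy' := hA' hy
  rw [Algebra.adjoin_singleton_eq_range_aeval] at hy'
  obtain ⟨f, hf⟩ := hy'
  refine ⟨f, Subtype.ext ?_⟩
  rw [← Subalgebra.aeval_coe]
  exact hf

lemma aeval_gen_subalgebra_eq_zero (A' : Subalgebra R L) {ϖ : L} (hϖ : ϖ ∈ A') {E : R[X]}
    (hE0 : aeval ϖ E = 0) : aeval (⟨ϖ, hϖ⟩ : A') E = 0 := by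
  apply Subtype.ext
  rw [← Subalgebra.aeval_coe]
  exact hE0

/-- A subalgebra `A' = R[ϖ] ⊆ L` is local when `ϖ` is a root of a monic polynomial with lower
coefficients in `m_R`. -/
theorem isLocalRing_subalgebra (A' : Subalgebra R L) {ϖ : L} (hϖ : ϖ ∈ A')
    (hA' : A' ≤ Algebra.adjoin R {ϖ}) {E : R[X]} (hE : E.Monic) (hE0 : aeval ϖ E = 0)
    (hc : ∀ n < E.natDegree, E.coeff n ∈ maximalIdeal R) : IsLocalRing A' :=
  isLocalRing_of_monic (ϖ := (⟨ϖ, hϖ⟩ : A')) (exists_aeval_eq_of_subalgebra A' hϖ hA') hE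
    (aeval_gen_subalgebra_eq_zero A' hϖ hE0) hc

/-- The maximal ideal of `A' = R[ϖ] ⊆ L` is `(J, b, ϖ)` when `m_R = (J, b)`. -/
theorem maximalIdeal_subalgebra_eq_span_three (A' : Subalgebra R L) [IsLocalRing A'] {ϖ : L}
    (hϖ : ϖ ∈ A') (hA' : A' ≤ Algebra.adjoin R {ϖ}) {E : R[X]} (hE : E.Monic)
    (hE0 : aeval ϖ E = 0) (hc : ∀ n < E.natDegree, E.coeff n ∈ maximalIdeal R) {J b : R}
    (hm : maximalIdeal R = Ideal.span {J, b}) :
    maximalIdeal A' = Ideal.span {algebraMap R A' J, algebraMap R A' b, (⟨ϖ, hϖ⟩ : A')} :=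
  maximalIdeal_eq_span_three (ϖ := (⟨ϖ, hϖ⟩ : A')) (exists_aeval_eq_of_subalgebra A' hϖ hA') hE
    (aeval_gen_subalgebra_eq_zero A' hϖ hE0) hc hm

omit [IsLocalRing R] [Nontrivial L] in
/-- A subalgebra `A' = R[ϖ] ⊆ L` is noetherian when `R` is and `ϖ` is integral. -/
theorem isNoetherianRing_subalgebra [IsNoetherianRing R] (A' : Subalgebra R L) {ϖ : L}
    (hA' : A' = Algebra.adjoin R {ϖ}) (hint : IsIntegral R ϖ) : IsNoetherianRing A' := by
  have hfin : Module.Finite R A' :=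
    Module.Finite.iff_fg.mpr (hA' ▸ hint.fg_adjoin_singleton)
  exact IsNoetherianRing.of_finite R _

end subalgebra

end Fermat.Agent.S34.H46
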