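import Fermat.Agent.S34.H46.NodeNormal

/-!
# Ramified base change of a normal chart with reduced special fibre
(helper46; global form of L2b, Program B', S34)

`R` an integrally closed domain with fraction field `K` (the chart over the unramified base),
`q ∈ R` nonzero with `qR` a radical ideal (reduced special fibre), `L = K(ϖ)` finite separable,
`ϖ` a root of a monic `E ∈ R[X]` of Eisenstein shape for `q` (lower coefficients divisible by
`q`, constant coefficient `q * u` with `u` a unit), and `E'(ϖ)` dividing a power of `q` in `R[ϖ]`.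
Then (no noetherian hypothesis, no assumption that `q` is prime, `E` need not be assumed
irreducible):

* `EisShape.mem_adjoin_of_isIntegral`: every element of `L` integral over `R` lies in `R[ϖ]`;
  so `R[ϖ]` is the integral closure of `R` in `L` and is integrally closed;
* `R[ϖ]/ϖ = R/q`: `EisShape.exists_eq_add` (every `y ∈ R[ϖ]` is `a + ϖ t`),
  `EisShape.dvd_of_eq_mul` (`R ∩ ϖ R[ϖ] = qR`), `EisShape.mem_of_pow` (`ϖ R[ϖ]` is radical);
* ring-level forms for a subalgebra `A' = R[ϖ]`: `EisShape.span_gen_isRadical`,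
  `EisShape.algebraMap_mem_span_gen_iff`, `EisShape.exists_sub_mem_span_gen`,
  `EisShape.inf_eq_span_gen` (two ideals through `ϖ` whose common trace on `R` is `qR`
  intersect in `ϖ A'`: the two components over the ramified base).
-/

set_option autoImplicit false
set_option linter.unusedSectionVars false

namespace Fermat.Agent.S34.H46

open Polynomial

/-- `E` is a monic polynomial with root `ϖ` of Eisenstein shape with respect to the nonzero
element `q`, and `qR` is a radical ideal. -/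
structure EisShape {R L : Type*} [CommRing R] [CommRing L] [Algebra R L] (ϖ : L) (E : R[X])
    (q u : R) : Prop where
  /-- `E` is monic. -/
  monic : E.Monic
  /-- `E(ϖ) = 0`. -/
  root : aeval ϖ E = 0
  /-- `q ≠ 0`. -/
  q_ne : q ≠ 0
  /-- `u` is a unit. -/
  unit : IsUnit u
  /-- the lower coefficients of `E` are divisible by `q`. -/
  dvd : ∀ n < E.natDegree, q ∣ E.coeff n
  /-- the constant coefficient of `E` is `q * u`. -/
  coeff_zero : E.coeff 0 = q * u
  /-- `qR` is a radical ideal. -/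
  radical : (Ideal.span {q}).IsRadical

namespace EisShape

section basic

variable {R L : Type*} [CommRing R] [CommRing L] [Algebra R L] {ϖ : L} {E : R[X]} {q u : R}

/-- `q ∈ ϖ R[ϖ]`. -/
lemma q_eq (h : EisShape ϖ E q u) : ∃ s ∈ Algebra.adjoin R {ϖ}, algebraMap R L q = ϖ * s := by
  obtain ⟨u', hu'⟩ := h.unit.exists_right_inv
  refine ⟨-(aeval ϖ E.divX) * algebraMap R L u', ?_, ?_⟩
  · exact Subalgebra.mul_mem _ (Subalgebra.neg_mem _ (aeval_mem_adjoin_singleton R ϖ))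
      (Subalgebra.algebraMap_mem _ _)
  · have h1 : aeval ϖ E.divX * ϖ + algebraMap R L (q * u) = 0 := by
      have h0 := h.root
      conv_lhs at h0 => rw [← divX_mul_X_add E]
      simpa [h.coeff_zero] using h0
    have h2 : algebraMap R L q = algebraMap R L (q * u) * algebraMap R L u' := by
      rw [← map_mul, mul_assoc, hu', mul_one]
    rw [h2]; linear_combination (algebraMap R L u') * h1

/-- `ϖ^e ∈ q R[ϖ]`, `e = deg E`. -/
lemma pow_eq (h : EisShape ϖ E q u) :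
    ∃ v ∈ Algebra.adjoin R {ϖ}, ϖ ^ E.natDegree = algebraMap R L q * v := by
  have : ∀ i, ∃ c : R, i < E.natDegree → E.coeff i = q * c := by
    intro i
    by_cases hi : i < E.natDegree
    · obtain ⟨c, hc⟩ := h.dvd i hi; exact ⟨c, fun _ => hc⟩
    · exact ⟨0, fun hi' => absurd hi' hi⟩
  choose c hc using this
  refine ⟨-∑ i ∈ Finset.range E.natDegree, algebraMap R L (c i) * ϖ ^ i, ?_, ?_⟩
  · exact Subalgebra.neg_mem _ (Subalgebra.sum_mem _ fun i _ =>
      Subalgebra.mul_mem _ (Subalgebra.algebraMap_mem _ _)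
        (Subalgebra.pow_mem _ (Algebra.self_mem_adjoin_singleton R ϖ) _))
  · have h1 : aeval ϖ E = ϖ ^ E.natDegree
        + ∑ i ∈ Finset.range E.natDegree, algebraMap R L (E.coeff i) * ϖ ^ i := by
      conv_lhs => rw [h.monic.as_sum]
      simp
    rw [h.root] at h1
    have h2 : ∑ i ∈ Finset.range E.natDegree, algebraMap R L (E.coeff i) * ϖ ^ i
        = algebraMap R L q * ∑ i ∈ Finset.range E.natDegree, algebraMap R L (c i) * ϖ ^ i := by
      rw [Finset.mul_sum]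
      refine Finset.sum_congr rfl fun i hi => ?_
      rw [hc i (Finset.mem_range.mp hi), map_mul, mul_assoc]
    rw [h2] at h1
    linear_combination -h1

lemma isIntegral_gen (h : EisShape ϖ E q u) : IsIntegral R ϖ := ⟨E, h.monic, h.root⟩

lemma isIntegral_of_mem (h : EisShape ϖ E q u) {y : L} (hy : y ∈ Algebra.adjoin R {ϖ}) :
    IsIntegral R y :=
  (Algebra.adjoin_le (S := integralClosure R L)
    (Set.singleton_subset_iff.mpr h.isIntegral_gen)) hy

/-- Every element of `R[ϖ]` is `a + ϖ t`. -/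
lemma exists_eq_add (_h : EisShape ϖ E q u) {y : L} (hy : y ∈ Algebra.adjoin R {ϖ}) :
    ∃ (a : R) (t : L), t ∈ Algebra.adjoin R {ϖ} ∧ y = algebraMap R L a + ϖ * t := by
  rw [Algebra.adjoin_singleton_eq_range_aeval] at hy
  obtain ⟨g, rfl⟩ := hy
  refine ⟨g.coeff 0, aeval ϖ g.divX, aeval_mem_adjoin_singleton R ϖ, ?_⟩
  have e1 : aeval ϖ g = aeval ϖ g.divX * ϖ + algebraMap R L (g.coeff 0) := by
    conv_lhs => rw [← divX_mul_X_add g]
    simp
  change aeval ϖ g = _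
  rw [e1]; ring

end basic

variable {R K L : Type*} [CommRing R] [IsDomain R] [IsIntegrallyClosed R] [Field K] [Field L]
  [Algebra R K] [IsFractionRing R K] [Algebra K L] [Algebra R L] [IsScalarTower R K L]
  {ϖ : L} {E : R[X]} {q u : R}

include K

lemma algebraMap_injective : Function.Injective (algebraMap R L) := by
  rw [IsScalarTower.algebraMap_eq R K L]
  exact (algebraMap K L).injective.comp (IsFractionRing.injective R K)

lemma gen_ne_zero (h : EisShape ϖ E q u) : ϖ ≠ 0 := by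
  rintro rfl
  obtain ⟨s, -, hs⟩ := h.q_eq
  rw [zero_mul] at hs
  exact h.q_ne (algebraMap_injective (K := K) (by rw [hs, map_zero]))

/-- `R ∩ ϖ R[ϖ] ⊆ qR`. -/
lemma dvd_of_eq_mul (h : EisShape ϖ E q u) {a : R} {t : L} (ht : t ∈ Algebra.adjoin R {ϖ})
    (hat : algebraMap R L a = ϖ * t) : q ∣ a := by
  obtain ⟨v, hv, hve⟩ := h.pow_eq
  have hc : IsIntegral R (v * t ^ E.natDegree) :=
    (h.isIntegral_of_mem hv).mul ((h.isIntegral_of_mem ht).pow _)
  have h1 : algebraMap R L (a ^ E.natDegree) = algebraMap R L q * (v * t ^ E.natDegree) := by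
    rw [map_pow, hat, mul_pow, hve]; ring
  have hqK : algebraMap R K q ≠ 0 := fun h0 =>
    h.q_ne (IsFractionRing.injective R K (by rw [h0, map_zero]))
  have hqL : algebraMap R L q ≠ 0 := fun h0 =>
    h.q_ne (algebraMap_injective (K := K) (by rw [h0, map_zero]))
  have h2 : v * t ^ E.natDegree
      = algebraMap K L (algebraMap R K (a ^ E.natDegree) / algebraMap R K q) := by
    apply mul_left_cancel₀ hqL
    rw [← h1, IsScalarTower.algebraMap_apply R K L (a ^ E.natDegree),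
      IsScalarTower.algebraMap_apply R K L q, ← map_mul, mul_div_cancel₀ _ hqK]
  rw [h2] at hc
  have hκ : IsIntegral R (algebraMap R K (a ^ E.natDegree) / algebraMap R K q) :=
    (isIntegral_algebraMap_iff (algebraMap K L).injective).mp hc
  obtain ⟨r, hr⟩ := IsIntegrallyClosed.isIntegral_iff.mp hκ
  have h3 : a ^ E.natDegree = q * r := by
    apply IsFractionRing.injective R K
    rw [map_mul, hr, mul_div_cancel₀ _ hqK]
  have h4 : a ^ E.natDegree ∈ Ideal.span {q} := Ideal.mem_span_singleton.mpr ⟨r, h3⟩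
  exact Ideal.mem_span_singleton.mp (h.radical ⟨_, h4⟩)

/-- `a ∈ R` lies in `ϖ R[ϖ]` iff `q ∣ a`. -/
lemma exists_eq_mul_iff (h : EisShape ϖ E q u) (a : R) :
    (∃ t ∈ Algebra.adjoin R {ϖ}, algebraMap R L a = ϖ * t) ↔ q ∣ a := by
  constructor
  · rintro ⟨t, ht, hat⟩
    exact h.dvd_of_eq_mul (K := K) ht hat
  · rintro ⟨a', rfl⟩
    obtain ⟨s, hs, hqs⟩ := h.q_eq
    exact ⟨s * algebraMap R L a', Subalgebra.mul_mem _ hs (Subalgebra.algebraMap_mem _ _), by
      rw [map_mul, hqs, mul_assoc]⟩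

/-- `ϖ R[ϖ]` is radical: if `y^n ∈ ϖ R[ϖ]` then `y ∈ ϖ R[ϖ]`. -/
lemma mem_of_pow (h : EisShape ϖ E q u) {y t : L} (hy : y ∈ Algebra.adjoin R {ϖ})
    (ht : t ∈ Algebra.adjoin R {ϖ}) (n : ℕ) (hyt : y ^ n = ϖ * t) :
    ∃ t' ∈ Algebra.adjoin R {ϖ}, y = ϖ * t' := by
  obtain ⟨a₀, y', hy', e1⟩ := h.exists_eq_add hy
  have ha₀ : algebraMap R L a₀ ∈ Algebra.adjoin R {ϖ} := Subalgebra.algebraMap_mem _ _
  have hG : (∑ i ∈ Finset.range n, y ^ i * (algebraMap R L a₀) ^ (n - 1 - i))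
      ∈ Algebra.adjoin R {ϖ} :=
    Subalgebra.sum_mem _ fun i _ =>
      Subalgebra.mul_mem _ (Subalgebra.pow_mem _ hy _) (Subalgebra.pow_mem _ ha₀ _)
  have e2 := geom_sum₂_mul y (algebraMap R L a₀) n
  set G := ∑ i ∈ Finset.range n, y ^ i * (algebraMap R L a₀) ^ (n - 1 - i) with hGdef
  have e3 : algebraMap R L (a₀ ^ n) = ϖ * (t - G * y') := by
    rw [map_pow]; linear_combination e2 + hyt - G * e1
  have hdvd : q ∣ a₀ ^ n :=
    h.dvd_of_eq_mul (K := K) (Subalgebra.sub_mem _ ht (Subalgebra.mul_mem _ hG hy')) e3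
  have hdvd' : q ∣ a₀ :=
    Ideal.mem_span_singleton.mp (h.radical ⟨n, Ideal.mem_span_singleton.mpr hdvd⟩)
  obtain ⟨a₀', rfl⟩ := hdvd'
  obtain ⟨s, hs, hqs⟩ := h.q_eq
  refine ⟨s * algebraMap R L a₀' + y', Subalgebra.add_mem _
    (Subalgebra.mul_mem _ hs (Subalgebra.algebraMap_mem _ _)) hy', ?_⟩
  rw [e1, map_mul, hqs]; ring

/-- If `w` is integral over `R` and `ϖ w ∈ R[ϖ]`, then `w ∈ R[ϖ]`. -/
lemma mem_of_mul_mem (h : EisShape ϖ E q u) {w : L} (hw : IsIntegral R w)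
    (hϖw : ϖ * w ∈ Algebra.adjoin R {ϖ}) : w ∈ Algebra.adjoin R {ϖ} := by
  obtain ⟨p, hp, hpw⟩ := hw
  have h1 : aeval w p = w ^ p.natDegree
      + ∑ i ∈ Finset.range p.natDegree, algebraMap R L (p.coeff i) * w ^ i := by
    conv_lhs => rw [hp.as_sum]
    simp
  rw [aeval_def, hpw] at h1
  have ht : (-∑ i ∈ Finset.range p.natDegree,
      algebraMap R L (p.coeff i) * ϖ ^ (p.natDegree - 1 - i) * (ϖ * w) ^ i)
      ∈ Algebra.adjoin R {ϖ} :=
    Subalgebra.neg_mem _ (Subalgebra.sum_mem _ fun i _ =>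
      Subalgebra.mul_mem _ (Subalgebra.mul_mem _ (Subalgebra.algebraMap_mem _ _)
        (Subalgebra.pow_mem _ (Algebra.self_mem_adjoin_singleton R ϖ) _))
        (Subalgebra.pow_mem _ hϖw _))
  have h2 : (ϖ * w) ^ p.natDegree = ϖ * (-∑ i ∈ Finset.range p.natDegree,
      algebraMap R L (p.coeff i) * ϖ ^ (p.natDegree - 1 - i) * (ϖ * w) ^ i) := by
    have hterm : ∀ i ∈ Finset.range p.natDegree,
        ϖ * (algebraMap R L (p.coeff i) * ϖ ^ (p.natDegree - 1 - i) * (ϖ * w) ^ i)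
          = ϖ ^ p.natDegree * (algebraMap R L (p.coeff i) * w ^ i) := by
      intro i hi
      have hi' := Finset.mem_range.mp hi
      have e : ϖ ^ p.natDegree = ϖ * ϖ ^ (p.natDegree - 1 - i) * ϖ ^ i := by
        rw [← pow_succ', ← pow_add]; congr 1; omega
      rw [e]; ring
    rw [mul_pow, mul_neg, Finset.mul_sum, Finset.sum_congr rfl hterm, ← Finset.mul_sum]
    linear_combination (-(ϖ ^ p.natDegree)) * h1
  obtain ⟨t', ht', e⟩ := h.mem_of_pow (K := K) hϖw ht p.natDegree h2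
  have : w = t' := mul_left_cancel₀ (h.gen_ne_zero (K := K)) e
  rw [this]; exact ht'

/-- If `w` is integral over `R` and `ϖ^k w ∈ R[ϖ]`, then `w ∈ R[ϖ]`. -/
lemma mem_of_pow_mul_mem (h : EisShape ϖ E q u) :
    ∀ (k : ℕ) {w : L}, IsIntegral R w → ϖ ^ k * w ∈ Algebra.adjoin R {ϖ} →
      w ∈ Algebra.adjoin R {ϖ} := by
  intro k
  induction k with
  | zero => intro w _ hk; simpa using hk
  | succ k ih =>
    intro w hw hk
    have h1 : ϖ * (ϖ ^ k * w) ∈ Algebra.adjoin R {ϖ} := by rwa [← mul_assoc, ← pow_succ']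
    exact ih hw (h.mem_of_mul_mem (K := K) ((h.isIntegral_gen.pow k).mul hw) h1)

/-- If `z` is integral over `R` and `q z ∈ R[ϖ]`, then `z ∈ R[ϖ]`. -/
lemma mem_of_q_mul_mem (h : EisShape ϖ E q u) {z : L} (hz : IsIntegral R z)
    (hqz : algebraMap R L q * z ∈ Algebra.adjoin R {ϖ}) : z ∈ Algebra.adjoin R {ϖ} := by
  obtain ⟨v, hv, hve⟩ := h.pow_eq
  apply h.mem_of_pow_mul_mem (K := K) E.natDegree hz
  rw [hve, mul_assoc, mul_left_comm]
  exact Subalgebra.mul_mem _ hv hqz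

variable [FiniteDimensional K L] [Algebra.IsSeparable K L]

/-- **Ramified base change is normal**: every element of `L = K(ϖ)` integral over `R` lies in
`R[ϖ]`. -/
theorem mem_adjoin_of_isIntegral (h : EisShape ϖ E q u) (hgen : Algebra.adjoin K {ϖ} = ⊤)
    (hD : ∃ (m : ℕ) (y : L), y ∈ Algebra.adjoin R {ϖ} ∧
      aeval ϖ (derivative E) * y = algebraMap R L (q ^ m))
    {z : L} (hz : IsIntegral R z) : z ∈ Algebra.adjoin R {ϖ} := by
  obtain ⟨m, y, hy, hym⟩ := hD
  have hϖint := h.isIntegral_gen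
  have htf : Module.IsTorsionFree R L := by
    have : FaithfulSMul R L :=
      (faithfulSMul_iff_algebraMap_injective R L).mpr (algebraMap_injective (K := K))
    infer_instance
  obtain ⟨g, hg⟩ := minpoly.isIntegrallyClosed_dvd hϖint h.root
  have hE' : aeval ϖ (derivative E)
      = aeval ϖ (derivative (minpoly R ϖ)) * aeval ϖ g := by
    rw [hg, derivative_mul, map_add, map_mul, map_mul, minpoly.aeval, zero_mul, add_zero]
  have h1 : aeval ϖ (derivative E) * z ∈ Algebra.adjoin R {ϖ} := by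
    rw [hE', mul_right_comm]
    exact Subalgebra.mul_mem _ (derivative_mul_mem_adjoin hgen hϖint hz)
      (aeval_mem_adjoin_singleton R ϖ)
  have h2 : algebraMap R L (q ^ m) * z ∈ Algebra.adjoin R {ϖ} := by
    rw [← hym, mul_right_comm]; exact Subalgebra.mul_mem _ h1 hy
  have key : ∀ (m : ℕ) {z : L}, IsIntegral R z →
      algebraMap R L (q ^ m) * z ∈ Algebra.adjoin R {ϖ} → z ∈ Algebra.adjoin R {ϖ} := by
    intro m
    induction m with
    | zero => intro z _ hz'; simpa using hz'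
    | succ m ih =>
      intro z hz hz'
      apply ih hz
      apply h.mem_of_q_mul_mem (K := K) (isIntegral_algebraMap.mul hz)
      rwa [← mul_assoc, ← map_mul, ← pow_succ']
  exact key m hz h2

/-- `R[ϖ]` is the integral closure of `R` in `L`. -/
theorem integralClosure_eq_adjoin (h : EisShape ϖ E q u) (hgen : Algebra.adjoin K {ϖ} = ⊤)
    (hD : ∃ (m : ℕ) (y : L), y ∈ Algebra.adjoin R {ϖ} ∧
      aeval ϖ (derivative E) * y = algebraMap R L (q ^ m)) :
    integralClosure R L = Algebra.adjoin R {ϖ} :=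
  le_antisymm (fun _ hz => h.mem_adjoin_of_isIntegral hgen hD hz)
    (Algebra.adjoin_le (Set.singleton_subset_iff.mpr h.isIntegral_gen))

/-- A subalgebra `A' = R[ϖ]` is integrally closed. -/
theorem isIntegrallyClosed_subalgebra (h : EisShape ϖ E q u) (hgen : Algebra.adjoin K {ϖ} = ⊤)
    (hD : ∃ (m : ℕ) (y : L), y ∈ Algebra.adjoin R {ϖ} ∧
      aeval ϖ (derivative E) * y = algebraMap R L (q ^ m))
    (A' : Subalgebra R L) (hA' : A' = Algebra.adjoin R {ϖ}) : IsIntegrallyClosed A' := by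
  have e : integralClosure R L = A' := by rw [hA']; exact h.integralClosure_eq_adjoin hgen hD
  have hic : IsIntegrallyClosed (integralClosure R L) :=
    integralClosure.isIntegrallyClosedOfFiniteExtension K
  exact IsIntegrallyClosed.of_equiv (Subalgebra.equivOfEq _ _ e).toRingEquiv

end EisShape

section ring

variable {R L : Type*} [CommRing R] [CommRing L] [Algebra R L]

/-- Membership in the principal ideal `ϖ A'` of a subalgebra, read in `L`. -/
lemma mem_span_gen_iff (A' : Subalgebra R L) {ϖ : L} (hϖ : ϖ ∈ A') (y : A') :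
    y ∈ Ideal.span {(⟨ϖ, hϖ⟩ : A')} ↔ ∃ t ∈ A', (y : L) = ϖ * t := by
  rw [Ideal.mem_span_singleton']
  constructor
  · rintro ⟨a, rfl⟩
    exact ⟨a, a.2, by simp [mul_comm]⟩
  · rintro ⟨t, ht, e⟩
    exact ⟨⟨t, ht⟩, Subtype.ext (by simp [e, mul_comm])⟩

/-- The ideal `P A' + ϖ A'` of `A' = R[ϖ]` attached to an ideal `P` of `R`. -/
def liftIdeal (A' : Subalgebra R L) {ϖ : L} (hϖ : ϖ ∈ A') (P : Ideal R) : Ideal A' :=
  P.map (algebraMap R A') ⊔ Ideal.span {(⟨ϖ, hϖ⟩ : A')}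

lemma gen_mem_liftIdeal (A' : Subalgebra R L) {ϖ : L} (hϖ : ϖ ∈ A') (P : Ideal R) :
    (⟨ϖ, hϖ⟩ : A') ∈ liftIdeal A' hϖ P :=
  Ideal.mem_sup_right (Ideal.mem_span_singleton_self _)

end ring

namespace EisShape

variable {R K L : Type*} [CommRing R] [IsDomain R] [IsIntegrallyClosed R] [Field K] [Field L]
  [Algebra R K] [IsFractionRing R K] [Algebra K L] [Algebra R L] [IsScalarTower R K L]
  {ϖ : L} {E : R[X]} {q u : R}

include K

/-- `ϖ A'` is a radical ideal of `A' = R[ϖ]` (the special fibre over the ramified base is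
reduced). -/
theorem span_gen_isRadical (h : EisShape ϖ E q u) (A' : Subalgebra R L)
    (hA' : A' = Algebra.adjoin R {ϖ}) (hϖ : ϖ ∈ A') :
    (Ideal.span {(⟨ϖ, hϖ⟩ : A')}).IsRadical := by
  rintro y ⟨n, hn⟩
  rw [mem_span_gen_iff] at hn ⊢
  obtain ⟨t, ht, e⟩ := hn
  have hy : (y : L) ∈ Algebra.adjoin R {ϖ} := by rw [← hA']; exact y.2
  have ht2 : t ∈ Algebra.adjoin R {ϖ} := by rw [← hA']; exact ht
  obtain ⟨t', ht', e'⟩ := h.mem_of_pow (K := K) hy ht2 n (by simpa using e)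
  exact ⟨t', by rw [hA']; exact ht', e'⟩

/-- `R ∩ ϖ A' = qR`. -/
theorem algebraMap_mem_span_gen_iff (h : EisShape ϖ E q u) (A' : Subalgebra R L)
    (hA' : A' = Algebra.adjoin R {ϖ}) (hϖ : ϖ ∈ A') (a : R) :
    algebraMap R A' a ∈ Ideal.span {(⟨ϖ, hϖ⟩ : A')} ↔ q ∣ a := by
  rw [mem_span_gen_iff, ← h.exists_eq_mul_iff (K := K) a]
  constructor
  · rintro ⟨t, ht, e⟩
    exact ⟨t, by rw [← hA']; exact ht, e⟩
  · rintro ⟨t, ht, e⟩
    exact ⟨t, by rw [hA']; exact ht, e⟩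

omit K [IsDomain R] [IsIntegrallyClosed R] in
/-- `R → A'/ϖ A'` is surjective. -/
theorem exists_sub_mem_span_gen (h : EisShape ϖ E q u) (A' : Subalgebra R L)
    (hA' : A' = Algebra.adjoin R {ϖ}) (hϖ : ϖ ∈ A') (y : A') :
    ∃ a : R, y - algebraMap R A' a ∈ Ideal.span {(⟨ϖ, hϖ⟩ : A')} := by
  have hy : (y : L) ∈ Algebra.adjoin R {ϖ} := by rw [← hA']; exact y.2
  obtain ⟨a, t, ht, e⟩ := h.exists_eq_add hy
  refine ⟨a, ?_⟩
  rw [mem_span_gen_iff]
  exact ⟨t, by rw [hA']; exact ht, by simp [e]⟩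

/-- Two ideals of `A'` through `ϖ` whose common trace on `R` is `qR` intersect in `ϖ A'`. -/
theorem inf_eq_span_gen (h : EisShape ϖ E q u) (A' : Subalgebra R L)
    (hA' : A' = Algebra.adjoin R {ϖ}) (hϖ : ϖ ∈ A') (Z1 Z2 : Ideal A')
    (h1 : (⟨ϖ, hϖ⟩ : A') ∈ Z1) (h2 : (⟨ϖ, hϖ⟩ : A') ∈ Z2)
    (hZ : ∀ a : R, algebraMap R A' a ∈ Z1 → algebraMap R A' a ∈ Z2 → q ∣ a) :
    Z1 ⊓ Z2 = Ideal.span {(⟨ϖ, hϖ⟩ : A')} := by
  have hle1 : Ideal.span {(⟨ϖ, hϖ⟩ : A')} ≤ Z1 := (Ideal.span_singleton_le_iff_mem _).mpr h1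
  have hle2 : Ideal.span {(⟨ϖ, hϖ⟩ : A')} ≤ Z2 := (Ideal.span_singleton_le_iff_mem _).mpr h2
  apply le_antisymm
  · rintro y ⟨hy1, hy2⟩
    obtain ⟨a, ha⟩ := h.exists_sub_mem_span_gen A' hA' hϖ y
    have ha1 : algebraMap R A' a ∈ Z1 := by
      have := Z1.sub_mem hy1 (hle1 ha)
      simpa using this
    have ha2 : algebraMap R A' a ∈ Z2 := by
      have := Z2.sub_mem hy2 (hle2 ha)
      simpa using this
    have ha3 := (h.algebraMap_mem_span_gen_iff (K := K) A' hA' hϖ a).mpr (hZ a ha1 ha2)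
    have := Ideal.add_mem _ ha ha3
    simpa using this
  · exact le_inf hle1 hle2

/-- Elements of `P A' + ϖ A'` are `a + ϖ t` with `a ∈ P`. -/
theorem mem_liftIdeal_iff (h : EisShape ϖ E q u) (A' : Subalgebra R L)
    (hA' : A' = Algebra.adjoin R {ϖ}) (hϖ : ϖ ∈ A') (P : Ideal R) (y : A') :
    y ∈ liftIdeal A' hϖ P ↔
      ∃ a ∈ P, y - algebraMap R A' a ∈ Ideal.span {(⟨ϖ, hϖ⟩ : A')} := by
  constructor
  · intro hy
    obtain ⟨m, hm, z, hz, rfl⟩ := Submodule.mem_sup.mp hy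
    have key : ∀ m ∈ P.map (algebraMap R A'),
        ∃ a ∈ P, m - algebraMap R A' a ∈ Ideal.span {(⟨ϖ, hϖ⟩ : A')} := by
      intro m hm
      refine Submodule.span_induction (p := fun m _ =>
        ∃ a ∈ P, m - algebraMap R A' a ∈ Ideal.span {(⟨ϖ, hϖ⟩ : A')}) ?_ ?_ ?_ ?_ hm
      · rintro _ ⟨p, hp, rfl⟩
        exact ⟨p, hp, by simp⟩
      · exact ⟨0, P.zero_mem, by simp⟩
      · rintro m₁ m₂ _ _ ⟨a₁, ha₁, h₁⟩ ⟨a₂, ha₂, h₂⟩
        refine ⟨a₁ + a₂, P.add_mem ha₁ ha₂, ?_⟩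
        have := Ideal.add_mem _ h₁ h₂
        rw [map_add]
        convert this using 1
        ring
      · rintro r' m _ ⟨a, ha, h₁⟩
        obtain ⟨c, hc⟩ := h.exists_sub_mem_span_gen A' hA' hϖ r'
        refine ⟨c * a, P.mul_mem_left _ ha, ?_⟩
        have := Ideal.add_mem _ (Ideal.mul_mem_left _ r' h₁)
          (Ideal.mul_mem_right (algebraMap R A' a) _ hc)
        rw [map_mul, smul_eq_mul]
        convert this using 1
        ring
    obtain ⟨a, ha, h₁⟩ := key m hm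
    refine ⟨a, ha, ?_⟩
    have := Ideal.add_mem _ h₁ hz
    convert this using 1
    ring
  · rintro ⟨a, ha, h₁⟩
    have e : y = algebraMap R A' a + (y - algebraMap R A' a) := by ring
    rw [e]
    exact Ideal.add_mem _ (Ideal.mem_sup_left (Ideal.mem_map_of_mem _ ha))
      (Ideal.mem_sup_right h₁)

/-- The trace of `P A' + ϖ A'` on `R` is `P` (for `q ∈ P`). -/
theorem algebraMap_mem_liftIdeal_iff (h : EisShape ϖ E q u) (A' : Subalgebra R L)
    (hA' : A' = Algebra.adjoin R {ϖ}) (hϖ : ϖ ∈ A') {P : Ideal R} (hqP : q ∈ P) (a : R) :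
    algebraMap R A' a ∈ liftIdeal A' hϖ P ↔ a ∈ P := by
  constructor
  · intro ha
    obtain ⟨a', ha', h₁⟩ := (h.mem_liftIdeal_iff (K := K) A' hA' hϖ P _).mp ha
    rw [← map_sub, h.algebraMap_mem_span_gen_iff (K := K) A' hA' hϖ] at h₁
    obtain ⟨c, hc⟩ := h₁
    have e : a = a' + q * c := by rw [← hc]; ring
    rw [e]
    exact P.add_mem ha' (P.mul_mem_right _ hqP)
  · intro ha
    exact Ideal.mem_sup_left (Ideal.mem_map_of_mem _ ha)

/-- `P A' + ϖ A'` is a prime ideal of `A'` when `P ∋ q` is a prime ideal of `R`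
(`A'/(P, ϖ) = R/P`). -/
theorem liftIdeal_isPrime (h : EisShape ϖ E q u) (A' : Subalgebra R L)
    (hA' : A' = Algebra.adjoin R {ϖ}) (hϖ : ϖ ∈ A') {P : Ideal R} (hP : P.IsPrime)
    (hqP : q ∈ P) : (liftIdeal A' hϖ P).IsPrime := by
  have hspan : Ideal.span {(⟨ϖ, hϖ⟩ : A')} ≤ liftIdeal A' hϖ P := le_sup_right
  refine ⟨?_, ?_⟩
  · intro htop
    have h1 : algebraMap R A' 1 ∈ liftIdeal A' hϖ P := by rw [htop]; trivial
    exact hP.ne_top ((Ideal.eq_top_iff_one P).mpr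
      ((h.algebraMap_mem_liftIdeal_iff (K := K) A' hA' hϖ hqP 1).mp h1))
  · intro y₁ y₂ hy
    obtain ⟨a₁, h₁⟩ := h.exists_sub_mem_span_gen A' hA' hϖ y₁
    obtain ⟨a₂, h₂⟩ := h.exists_sub_mem_span_gen A' hA' hϖ y₂
    have h12 : algebraMap R A' (a₁ * a₂) ∈ liftIdeal A' hϖ P := by
      have e : algebraMap R A' (a₁ * a₂)
          = y₁ * y₂ - (y₁ * (y₂ - algebraMap R A' a₂) + (y₁ - algebraMap R A' a₁)
              * algebraMap R A' a₂) := by
        rw [map_mul]; ring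
      rw [e]
      exact Ideal.sub_mem _ hy (Ideal.add_mem _ (Ideal.mul_mem_left _ _ (hspan h₂))
        (Ideal.mul_mem_right _ _ (hspan h₁)))
    rcases hP.mem_or_mem ((h.algebraMap_mem_liftIdeal_iff (K := K) A' hA' hϖ hqP _).mp h12)
      with ha | ha
    · left
      exact (h.mem_liftIdeal_iff (K := K) A' hA' hϖ P y₁).mpr ⟨a₁, ha, h₁⟩
    · right
      exact (h.mem_liftIdeal_iff (K := K) A' hA' hϖ P y₂).mpr ⟨a₂, ha, h₂⟩

/-- The two components over the ramified base: if `P1 ∩ P2 = qR` then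
`(P1, ϖ) ∩ (P2, ϖ) = ϖ A'`. -/
theorem liftIdeal_inf_eq (h : EisShape ϖ E q u) (A' : Subalgebra R L)
    (hA' : A' = Algebra.adjoin R {ϖ}) (hϖ : ϖ ∈ A') {P1 P2 : Ideal R}
    (hP : P1 ⊓ P2 = Ideal.span {q}) :
    liftIdeal A' hϖ P1 ⊓ liftIdeal A' hϖ P2 = Ideal.span {(⟨ϖ, hϖ⟩ : A')} := by
  have hq : q ∈ P1 ⊓ P2 := by rw [hP]; exact Ideal.mem_span_singleton_self q
  refine h.inf_eq_span_gen (K := K) A' hA' hϖ _ _ (gen_mem_liftIdeal A' hϖ P1)
    (gen_mem_liftIdeal A' hϖ P2) fun a ha1 ha2 => ?_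
  have h1 := (h.algebraMap_mem_liftIdeal_iff (K := K) A' hA' hϖ hq.1 a).mp ha1
  have h2 := (h.algebraMap_mem_liftIdeal_iff (K := K) A' hA' hϖ hq.2 a).mp ha2
  have : a ∈ P1 ⊓ P2 := ⟨h1, h2⟩
  rw [hP] at this
  exact Ideal.mem_span_singleton.mp this

end EisShape


end Fermat.Agent.S34.H46
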