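import Fermat.Agent.S34.H46.ChartDec
import Fermat.Agent.S34.H61.TauDescent
import Fermat.Agent.S34.H92.BaseDefs

/-!
# The ramified base change on the concrete model (helper46; M6b of Program B', S34)

`hB : H92.InertiaBase A q K E π e g` (the inertia field `E` of the finite Galois `K/ℚ` at `A`,
`π` a uniformiser of `A ∩ K`, `g` its Eisenstein polynomial over `A ∩ E`).

* `ratIncl`, `exists_sum_pow_of_mem_ratForm` : `ratForm N K = (ratForm N E)(π)`, with the
  coordinates `1, π, …, π ^ (e - 1)`;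
* `valEmb`, `valMk`, `valIncl`, `baseGen` : the base rings `A ∩ E ⊆ A ∩ K ⊆ ℚ̄`;
  `base_exists_eq_sum` (`A ∩ K = (A ∩ E)[π]`), `base_exists_descent` (`g` over `A ∩ E`),
  `base_root`, `base_coeff`, `base_unit`, `base_derivative_ne_zero`, `base_not_isUnit_natCast`;
* `chartIncl` : the inclusion of the chart over `A ∩ E` into the chart over `A ∩ K`;
* `chart_dec_ratForm` : every element of the chart over `A ∩ K` is `a + ϖ t` with `a` in the
  chart over `A ∩ E` (normal, fraction field `ratForm N E`, reduced special fibre) and `t` in the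
  chart over `A ∩ K`, for any uniformiser `ϖ` of `A ∩ K`; `chart_dec_ratForm_hom` : the same in
  the shape of the hypothesis `hdec` of `Fermat.Agent.S34.H77.crossing_hgen_atPrime`.
-/

set_option autoImplicit false
set_option linter.unusedSectionVars false
set_option linter.style.haveILetI false

open IntermediateField Polynomial ModularCurve AlgebraicCurve

noncomputable section

namespace Fermat.Agent.S34.H46

open Fermat.Agent.S18 Fermat.Agent.S18.H74 Fermat.Agent.S34.H19 Fermat.Agent.S34.H61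
  Fermat.Agent.S34.H92

/-! ### `ratForm N K = (ratForm N E)(π)` -/

/-- The inclusion `ratForm N E ⊆ ratForm N K` for `E ≤ K`. -/
def ratIncl (N : ℕ) {E K : IntermediateField ℚ Kb} (hEK : E ≤ K) :
    ↥(ratForm N E) →+* ↥(ratForm N K) :=
  RingHom.codRestrict ((ratForm N E).toSubfield.subtype) (ratForm N K)
    (fun f => ratForm_mono N hEK f.2)

theorem coe_ratIncl (N : ℕ) {E K : IntermediateField ℚ Kb} (hEK : E ≤ K)
    (f : ↥(ratForm N E)) : ((ratIncl N hEK f : ↥(ratForm N K)) : FN N) = (f : FN N) := by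
  unfold ratIncl
  rw [RingHom.codRestrict_apply]
  rfl

/-- If `K = E(π)` with coordinates `1, π, …, π ^ (e - 1)`, then every element of `ratForm N K` is
`∑ c i * π ^ i` with `c i ∈ ratForm N E`. -/
theorem exists_sum_pow_of_mem_ratForm (N : ℕ) {E K : IntermediateField ℚ Kb} (π : Kb) (e : ℕ)
    (hπK : π ∈ K)
    (hbasis : ∀ y ∈ K, ∃ c : Fin e → Kb, (∀ i, c i ∈ E) ∧ y = ∑ i, c i * π ^ (i : ℕ))
    {f : FN N} (hf : f ∈ ratForm N K) :
    ∃ c : Fin e → FN N, (∀ i, c i ∈ ratForm N E) ∧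
      f = ∑ i, c i * algebraMap Kb (FN N) π ^ (i : ℕ) := by
  set F : IntermediateField ↥E (FN N) := ratForm N E with hF
  set ϖ : FN N := algebraMap Kb (FN N) π with hϖ
  -- the `F`-span of `1, ϖ, …, ϖ ^ (e - 1)`
  set W : Submodule ↥F (FN N) := Submodule.span ↥F (Set.range fun i : Fin e => ϖ ^ (i : ℕ))
    with hW
  have hmemW : ∀ y : FN N, y ∈ W ↔
      ∃ c : Fin e → FN N, (∀ i, c i ∈ F) ∧ y = ∑ i, c i * ϖ ^ (i : ℕ) := by
    intro y
    rw [hW, Submodule.mem_span_range_iff_exists_fun]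
    constructor
    · rintro ⟨c, rfl⟩
      exact ⟨fun i => (c i : FN N), fun i => (c i).2, rfl⟩
    · rintro ⟨c, hc, rfl⟩
      exact ⟨fun i => ⟨c i, hc i⟩, rfl⟩
  -- constants of `K` lie in `W`
  have hconst : ∀ y ∈ K, algebraMap Kb (FN N) y ∈ W := by
    intro y hy
    obtain ⟨c, hc, rfl⟩ := hbasis y hy
    rw [hmemW]
    refine ⟨fun i => algebraMap Kb (FN N) (c i), fun i => algebraMap_mem_ratForm N E (hc i), ?_⟩
    rw [map_sum]
    refine Finset.sum_congr rfl fun i _ => ?_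
    rw [map_mul, map_pow]
  -- all powers of `ϖ` lie in `W`
  have hpow : ∀ n : ℕ, ϖ ^ n ∈ W := by
    intro n
    have h1 : ϖ ^ n = algebraMap Kb (FN N) (π ^ n) := by rw [map_pow]
    rw [h1]
    exact hconst _ (pow_mem hπK n)
  -- `ϖ` is integral over `F`
  have hint : IsIntegral ↥F ϖ := by
    have h0 : IsAlgebraic ℚ π := (Fermat.Agent.S34.H61.isAlgebraic_Kb).isAlgebraic π
    have h1 : IsIntegral (↥E) π := (h0.tower_top (↥E)).isIntegral
    have h2 : IsIntegral (↥E) ϖ := h1.map (IsScalarTower.toAlgHom (↥E) Kb (FN N))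
    exact h2.tower_top
  -- `F(ϖ) = F[ϖ] ⊆ W`
  have hle : ∀ y : FN N, y ∈ F⟮ϖ⟯ → y ∈ W := by
    intro y hy
    have h1 : y ∈ (F⟮ϖ⟯).toSubalgebra := hy
    rw [IntermediateField.adjoin_simple_toSubalgebra_of_isAlgebraic hint.isAlgebraic] at h1
    rw [Algebra.adjoin_singleton_eq_range_aeval] at h1
    obtain ⟨p, rfl⟩ := h1
    change aeval ϖ p ∈ W
    rw [aeval_eq_sum_range]
    exact Submodule.sum_mem _ fun i _ => Submodule.smul_mem _ _ (hpow i)
  -- `ratForm N K ⊆ F(ϖ)`
  have hsub : f ∈ F⟮ϖ⟯ := by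
    have hϖmem : ϖ ∈ F⟮ϖ⟯ := IntermediateField.mem_adjoin_simple_self ↥F ϖ
    have hFle : ∀ y ∈ F, y ∈ F⟮ϖ⟯ := fun y hy => (F⟮ϖ⟯).algebraMap_mem (⟨y, hy⟩ : ↥F)
    induction hf using IntermediateField.adjoin_induction with
    | mem y hy =>
      obtain ⟨g, rfl⟩ := hy
      exact hFle _ (ratEmb_mem_ratForm N E g)
    | algebraMap c =>
      obtain ⟨d, hd, hcd⟩ := hbasis (c : Kb) c.2
      have h1 : algebraMap (↥K) (FN N) c = algebraMap Kb (FN N) (c : Kb) := rfl
      rw [h1, hcd, map_sum]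
      refine sum_mem fun i _ => ?_
      rw [map_mul, map_pow]
      exact mul_mem (hFle _ (algebraMap_mem_ratForm N E (hd i))) (pow_mem hϖmem _)
    | add y z _ _ hy hz => exact add_mem hy hz
    | inv y _ hy => exact inv_mem hy
    | mul y z _ _ hy hz => exact mul_mem hy hz
  exact (hmemW f).mp (hle f hsub)

/-! ### The base rings `A ∩ E ⊆ A ∩ K` -/

section base

variable (A : ValuationSubring Kb)

/-- The embedding `A ∩ K₀ → ℚ̄`. -/
def valEmb (K₀ : IntermediateField ℚ Kb) : ↥(A.comap (algebraMap (↥K₀) Kb)) →+* Kb :=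
  (algebraMap (↥K₀) Kb).comp (A.comap (algebraMap (↥K₀) Kb)).subtype

theorem valEmb_injective (K₀ : IntermediateField ℚ Kb) : Function.Injective (valEmb A K₀) := by
  intro x y h
  exact Subtype.ext (Subtype.ext h)

/-- An element of `A ∩ K₀`. -/
def valMk (K₀ : IntermediateField ℚ Kb) (y : Kb) (hyK : y ∈ K₀) (hyA : y ∈ A) :
    ↥(A.comap (algebraMap (↥K₀) Kb)) :=
  ⟨⟨y, hyK⟩, hyA⟩

theorem valEmb_valMk (K₀ : IntermediateField ℚ Kb) (y : Kb) (hyK : y ∈ K₀) (hyA : y ∈ A) :
    valEmb A K₀ (valMk A K₀ y hyK hyA) = y := rfl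

theorem valEmb_mem (K₀ : IntermediateField ℚ Kb) (x : ↥(A.comap (algebraMap (↥K₀) Kb))) :
    valEmb A K₀ x ∈ A := x.2

theorem valEmb_mem_field (K₀ : IntermediateField ℚ Kb) (x : ↥(A.comap (algebraMap (↥K₀) Kb))) :
    valEmb A K₀ x ∈ K₀ := x.1.2

/-- The inclusion `A ∩ E → A ∩ K` for `E ≤ K`. -/
def valIncl {E K : IntermediateField ℚ Kb} (hEK : E ≤ K) :
    ↥(A.comap (algebraMap (↥E) Kb)) →+* ↥(A.comap (algebraMap (↥K) Kb)) :=
  RingHom.codRestrict
    (((IntermediateField.inclusion hEK : ↥E →ₐ[ℚ] ↥K) : ↥E →+* ↥K).comp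
      (A.comap (algebraMap (↥E) Kb)).subtype)
    (A.comap (algebraMap (↥K) Kb)) (fun x => x.2)

theorem valEmb_valIncl {E K : IntermediateField ℚ Kb} (hEK : E ≤ K)
    (x : ↥(A.comap (algebraMap (↥E) Kb))) : valEmb A K (valIncl A hEK x) = valEmb A E x := rfl

theorem valEmb_comp_valIncl {E K : IntermediateField ℚ Kb} (hEK : E ≤ K) :
    (valEmb A K).comp (valIncl A hEK) = valEmb A E := rfl

variable {A} {q : ℕ} {K E : IntermediateField ℚ Kb} {π : Kb} {e : ℕ} {g : Polynomial Kb}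

/-- `π` as an element of `A ∩ K`. -/
def baseGen (hB : InertiaBase A q K E π e g) : ↥(A.comap (algebraMap (↥K) Kb)) :=
  valMk A K π hB.π_mem (ValuationSubring.nonunits_subset hB.π_nonunit)

theorem valEmb_baseGen (hB : InertiaBase A q K E π e g) : valEmb A K (baseGen hB) = π := rfl

/-- `A ∩ K = (A ∩ E)[π]`, with coordinates. -/
theorem base_exists_eq_sum (hB : InertiaBase A q K E π e g)
    (y : ↥(A.comap (algebraMap (↥K) Kb))) :
    ∃ c : Fin e → ↥(A.comap (algebraMap (↥E) Kb)),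
      y = ∑ i, valIncl A hB.le (c i) * baseGen hB ^ (i : ℕ) := by
  obtain ⟨c, hc, hy⟩ := hB.basis (valEmb A K y) (valEmb_mem_field A K y)
  have hcA : ∀ i, c i ∈ A := hB.integral c hc (by rw [← hy]; exact valEmb_mem A K y)
  refine ⟨fun i => valMk A E (c i) (hc i) (hcA i), valEmb_injective A K ?_⟩
  rw [hy, map_sum]
  refine Finset.sum_congr rfl fun i _ => ?_
  rw [map_mul, map_pow, valEmb_valIncl, valEmb_valMk, valEmb_baseGen]

/-- The Eisenstein polynomial descends to `A ∩ E`. -/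
theorem base_exists_descent (hB : InertiaBase A q K E π e g) :
    ∃ g₀ : (↥(A.comap (algebraMap (↥E) Kb)))[X], g₀.Monic ∧ g₀.natDegree = e ∧
      g₀.map (valEmb A E) = g := by
  have hl : g ∈ Polynomial.lifts (valEmb A E) := by
    rw [Polynomial.lifts_iff_coeff_lifts]
    intro n
    exact ⟨valMk A E (g.coeff n) (hB.g_coeff n).1 (hB.g_coeff n).2, rfl⟩
  obtain ⟨g₀, h1, h2, h3⟩ := Polynomial.lifts_and_natDegree_eq_and_monic hl hB.g_monic
  exact ⟨g₀, h3, by rw [h2, hB.g_deg], h1⟩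

/-- `q` is not a unit of `A ∩ K`. -/
theorem base_not_isUnit_natCast (hB : InertiaBase A q K E π e g) (hπ0 : π ≠ 0) :
    ¬ IsUnit ((q : ℕ) : ↥(A.comap (algebraMap (↥K) Kb))) := by
  intro hu
  obtain ⟨v, hv⟩ := hu.exists_right_inv
  have h1 : (q : Kb) * valEmb A K v = 1 := by
    have h2 := congrArg (valEmb A K) hv
    rwa [map_mul, map_natCast, map_one] at h2
  have hπe : π ^ e ≠ 0 := pow_ne_zero e hπ0
  have hπnu : π ^ e ∈ A.nonunits := by
    have h5 : A.valuation π < 1 := (ValuationSubring.mem_nonunits_iff A).mp hB.π_nonunit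
    rw [ValuationSubring.mem_nonunits_iff, map_pow]
    exact pow_lt_one₀ zero_le h5 hB.e_pos.ne'
  have hq : (q : Kb) = π ^ e * ((q : Kb) / π ^ e) := by
    field_simp
  have h3 : (1 : Kb) ∈ A.nonunits := by
    rw [← h1, hq, mul_assoc]
    rw [ValuationSubring.mem_nonunits_iff] at hπnu ⊢
    rw [map_mul]
    have h4 : A.valuation ((q : Kb) / π ^ e * valEmb A K v) ≤ 1 :=
      (ValuationSubring.valuation_le_one_iff A _).mpr (A.mul_mem _ _ hB.div_pow (valEmb_mem A K v))
    calc A.valuation (π ^ e) * A.valuation ((q : Kb) / π ^ e * valEmb A K v)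
        ≤ A.valuation (π ^ e) * 1 := mul_le_mul_right h4 _
      _ < 1 := by rwa [mul_one]
  rw [ValuationSubring.mem_nonunits_iff, map_one] at h3
  exact lt_irrefl _ h3

variable (g₀ : (↥(A.comap (algebraMap (↥E) Kb)))[X])

/-- `g₀(π) = 0` in `A ∩ K`. -/
theorem base_root (hB : InertiaBase A q K E π e g) (hg₀ : g₀.map (valEmb A E) = g) :
    g₀.eval₂ (valIncl A hB.le) (baseGen hB) = 0 := by
  apply valEmb_injective A K
  rw [Polynomial.hom_eval₂, valEmb_comp_valIncl, valEmb_baseGen, map_zero,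
    ← Polynomial.eval_map, hg₀]
  exact hB.g_root

/-- the lower coefficients of `g₀` are divisible by `q`, with quotient a unit for the constant
coefficient. -/
theorem base_coeff (hB : InertiaBase A q K E π e g) (hq : q ≠ 0)
    (hg₀ : g₀.map (valEmb A E) = g) (n : ℕ) (hn : n < e) :
    g₀.coeff n = ((q : ℕ) : ↥(A.comap (algebraMap (↥E) Kb))) *
      valMk A E (g.coeff n / (q : Kb)) (div_mem (hB.g_coeff n).1 (_root_.natCast_mem E q))
        (hB.g_low n hn) := by
  apply valEmb_injective A E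
  have hq' : (q : Kb) ≠ 0 := Nat.cast_ne_zero.mpr hq
  rw [map_mul, map_natCast, valEmb_valMk, ← Polynomial.coeff_map, hg₀]
  field_simp

theorem base_unit (hB : InertiaBase A q K E π e g) (hq : q ≠ 0) (hg0 : g.coeff 0 ≠ 0) :
    IsUnit (valMk A E (g.coeff 0 / (q : Kb)) (div_mem (hB.g_coeff 0).1 (_root_.natCast_mem E q))
      (hB.g_low 0 hB.e_pos)) := by
  have hq' : (q : Kb) ≠ 0 := Nat.cast_ne_zero.mpr hq
  refine IsUnit.of_mul_eq_one (valMk A E ((q : Kb) / g.coeff 0)
    (div_mem (_root_.natCast_mem E q) (hB.g_coeff 0).1) hB.g_zero) ?_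
  apply valEmb_injective A E
  rw [map_mul, valEmb_valMk, valEmb_valMk, map_one]
  field_simp

/-- `g₀'(π) ≠ 0`. -/
theorem base_derivative_ne_zero (hB : InertiaBase A q K E π e g)
    (hg₀ : g₀.map (valEmb A E) = g) :
    (derivative g₀).eval₂ (valIncl A hB.le) (baseGen hB) ≠ 0 := by
  intro h0
  have h1 : (derivative g).eval π = 0 := by
    have h2 := congrArg (valEmb A K) h0
    rwa [Polynomial.hom_eval₂, valEmb_comp_valIncl, valEmb_baseGen, map_zero,
      ← Polynomial.eval_map, ← Polynomial.derivative_map, hg₀] at h2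
  have he : g.natDegree ≠ 0 := by rw [hB.g_deg]; exact hB.e_pos.ne'
  have hlt : (derivative g).natDegree < e := by
    rw [← hB.g_deg]
    exact Polynomial.natDegree_derivative_lt he
  rw [Polynomial.eval_eq_sum_range' hlt, Finset.sum_range] at h1
  have h3 := hB.indep (fun i : Fin e => (derivative g).coeff i) (fun i => by
    rw [Polynomial.coeff_derivative]
    exact mul_mem (hB.g_coeff _).1 (add_mem (_root_.natCast_mem E _) (one_mem E))) h1
    ⟨e - 1, Nat.sub_lt hB.e_pos Nat.one_pos⟩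
  have h4 : (derivative g).coeff (e - 1) = (e : Kb) := by
    rw [Polynomial.coeff_derivative, Nat.sub_add_cancel hB.e_pos, ← hB.g_deg,
      Polynomial.Monic.coeff_natDegree hB.g_monic, one_mul, hB.g_deg]
    have h5 : ((e - 1 : ℕ) : Kb) + 1 = ((e - 1 + 1 : ℕ) : Kb) := by push_cast; ring
    rw [h5, Nat.sub_add_cancel hB.e_pos]
  rw [h4] at h3
  exact hB.e_pos.ne' (Nat.cast_eq_zero.mp h3)

end base

/-! ### The charts -/

section charts

open Fermat.Agent.S18.H19

variable (N : ℕ) (A : ValuationSubring Kb) {q : ℕ} {K E : IntermediateField ℚ Kb} {π : Kb}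
  {e : ℕ} {g : Polynomial Kb}

/-- The structure map `A ∩ K₀ → ratForm N K₀`, in `FN N`. -/
theorem coe_algebraMap_algComap (K₀ : IntermediateField ℚ Kb)
    (a : ↥(A.comap (algebraMap (↥K₀) Kb))) :
    letI := algComap (A.comap (algebraMap (↥K₀) Kb)) (ratForm N K₀)
    ((algebraMap ↥(A.comap (algebraMap (↥K₀) Kb)) ↥(ratForm N K₀) a : ↥(ratForm N K₀)) : FN N)
      = algebraMap Kb (FN N) (valEmb A K₀ a) := rfl

theorem algebraMap_algComap_injective (K₀ : IntermediateField ℚ Kb) :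
    letI := algComap (A.comap (algebraMap (↥K₀) Kb)) (ratForm N K₀)
    Function.Injective (algebraMap ↥(A.comap (algebraMap (↥K₀) Kb)) ↥(ratForm N K₀)) := by
  letI := algComap (A.comap (algebraMap (↥K₀) Kb)) (ratForm N K₀)
  intro a b hab
  have h1 := congrArg (fun x : ↥(ratForm N K₀) => (x : FN N)) hab
  simp only [coe_algebraMap_algComap] at h1
  exact valEmb_injective A K₀ ((algebraMap Kb (FN N)).injective h1)

/-- The chart over `AE` maps into the chart over `AK` (no hypothesis on the base rings). -/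
theorem chart_map_mem_gen {AE AK FE FK : Type*} [CommRing AE] [CommRing AK] [Field FE] [Field FK]
    [Algebra AE FE] [Algebra AK FK] (ιA : AE →+* AK) (ι : FE →+* FK)
    (hι : ∀ a : AE, ι (algebraMap AE FE a) = algebraMap AK FK (ιA a)) (j : FE) {a : FE}
    (ha : a ∈ chart AE j) : ι a ∈ chart AK (ι j) := by
  rw [mem_chart_iff] at ha ⊢
  refine isIntegral_map_of_mem ι _ _ ?_ ha
  intro b hb
  induction hb using Algebra.adjoin_induction with
  | mem x hx =>
    rw [Set.mem_singleton_iff] at hx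
    rw [hx]
    exact Algebra.subset_adjoin rfl
  | algebraMap r =>
    rw [hι]
    exact Subalgebra.algebraMap_mem _ _
  | add x y _ _ hx hy =>
    rw [map_add]
    exact Subalgebra.add_mem _ hx hy
  | mul x y _ _ hx hy =>
    rw [map_mul]
    exact Subalgebra.mul_mem _ hx hy

/-- The inclusions of the base rings and of the function fields are compatible. -/
theorem ratIncl_algebraMap {E K : IntermediateField ℚ Kb} (hEK : E ≤ K)
    (a : ↥(A.comap (algebraMap (↥E) Kb))) :
    letI := algComap (A.comap (algebraMap (↥E) Kb)) (ratForm N E)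
    letI := algComap (A.comap (algebraMap (↥K) Kb)) (ratForm N K)
    ratIncl N hEK (algebraMap ↥(A.comap (algebraMap (↥E) Kb)) ↥(ratForm N E) a)
      = algebraMap ↥(A.comap (algebraMap (↥K) Kb)) ↥(ratForm N K) (valIncl A hEK a) := by
  letI algE := algComap (A.comap (algebraMap (↥E) Kb)) (ratForm N E)
  letI algK := algComap (A.comap (algebraMap (↥K) Kb)) (ratForm N K)
  apply Subtype.ext
  rw [coe_ratIncl, coe_algebraMap_algComap, coe_algebraMap_algComap, valEmb_valIncl]

/-- The inclusion of the chart over `A ∩ E` into the chart over `A ∩ K`. -/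
def chartIncl {E K : IntermediateField ℚ Kb} (hEK : E ≤ K) (j : ↥(ratForm N E)) :
    letI := algComap (A.comap (algebraMap (↥E) Kb)) (ratForm N E)
    letI := algComap (A.comap (algebraMap (↥K) Kb)) (ratForm N K)
    ↥(chart (↥(A.comap (algebraMap (↥E) Kb))) j) →+*
      ↥(chart (↥(A.comap (algebraMap (↥K) Kb))) (ratIncl N hEK j)) :=
  letI := algComap (A.comap (algebraMap (↥E) Kb)) (ratForm N E)
  letI := algComap (A.comap (algebraMap (↥K) Kb)) (ratForm N K)
  RingHom.codRestrict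
    ((ratIncl N hEK).comp (algebraMap ↥(chart (↥(A.comap (algebraMap (↥E) Kb))) j) ↥(ratForm N E)))
    (chart (↥(A.comap (algebraMap (↥K) Kb))) (ratIncl N hEK j))
    (fun a => chart_map_mem_gen (valIncl A hEK) (ratIncl N hEK) (ratIncl_algebraMap N A hEK) j a.2)

theorem coe_chartIncl {E K : IntermediateField ℚ Kb} (hEK : E ≤ K) (j : ↥(ratForm N E)) :
    letI := algComap (A.comap (algebraMap (↥E) Kb)) (ratForm N E)
    letI := algComap (A.comap (algebraMap (↥K) Kb)) (ratForm N K)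
    ∀ a : ↥(chart (↥(A.comap (algebraMap (↥E) Kb))) j),
      ((chartIncl N A hEK j a : ↥(chart (↥(A.comap (algebraMap (↥K) Kb))) (ratIncl N hEK j))) :
        ↥(ratForm N K)) = ratIncl N hEK (a : ↥(ratForm N E)) :=
  fun _ => rfl

/-- **The chart over `A ∩ K` is `(chart over A ∩ E)[π]`** (concrete `hdec` of
`Fermat.Agent.S34.H77.crossing_hgen`), for the uniformiser `π` of `H92.InertiaBase`. -/
theorem chart_dec_ratForm_gen (hB : InertiaBase A q K E π e g) (hq : q ≠ 0) (hπ0 : π ≠ 0)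
    (hg0 : g.coeff 0 ≠ 0) [IsDiscreteValuationRing ↥(A.comap (algebraMap (↥K) Kb))]
    (j : ↥(ratForm N E)) :
    letI := algComap (A.comap (algebraMap (↥E) Kb)) (ratForm N E)
    letI := algComap (A.comap (algebraMap (↥K) Kb)) (ratForm N K)
    IsIntegrallyClosed ↥(chart (↥(A.comap (algebraMap (↥E) Kb))) j) →
    IsFractionRing ↥(chart (↥(A.comap (algebraMap (↥E) Kb))) j) ↥(ratForm N E) →
    (Ideal.span {((q : ℕ) : ↥(chart (↥(A.comap (algebraMap (↥E) Kb))) j))}).IsRadical →
    ∀ c ∈ chart (↥(A.comap (algebraMap (↥K) Kb))) (ratIncl N hB.le j),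
      ∃ a ∈ chart (↥(A.comap (algebraMap (↥E) Kb))) j,
        ∃ t ∈ chart (↥(A.comap (algebraMap (↥K) Kb))) (ratIncl N hB.le j),
          c = ratIncl N hB.le a +
            algebraMap ↥(A.comap (algebraMap (↥K) Kb)) ↥(ratForm N K) (baseGen hB) * t := by
  letI algE := algComap (A.comap (algebraMap (↥E) Kb)) (ratForm N E)
  letI algK := algComap (A.comap (algebraMap (↥K) Kb)) (ratForm N K)
  intro hicl hfrac hrad c hc
  haveI : FaithfulSMul ↥(A.comap (algebraMap (↥K) Kb)) ↥(ratForm N K) :=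
    (faithfulSMul_iff_algebraMap_injective _ _).mpr (algebraMap_algComap_injective N A K)
  obtain ⟨g₀, hmonic, hdeg, hg₀⟩ := base_exists_descent hB
  have hι := ratIncl_algebraMap N A hB.le
  have hbasisF : ∀ f : ↥(ratForm N K), ∃ c : Fin e → ↥(ratForm N E),
      f = ∑ i, ratIncl N hB.le (c i) *
        algebraMap ↥(A.comap (algebraMap (↥K) Kb)) ↥(ratForm N K) (baseGen hB) ^ (i : ℕ) := by
    intro f
    obtain ⟨c, hc, hf⟩ := exists_sum_pow_of_mem_ratForm N π e hB.π_mem hB.basis f.2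
    refine ⟨fun i => ⟨c i, hc i⟩, ?_⟩
    apply Subtype.ext
    rw [hf, IntermediateField.coe_sum]
    refine Finset.sum_congr rfl fun i _ => ?_
    rw [IntermediateField.coe_mul, IntermediateField.coe_pow, coe_ratIncl,
      coe_algebraMap_algComap, valEmb_baseGen]
  exact chart_dec (valIncl A hB.le) (ratIncl N hB.le) hι (baseGen hB) e
    (base_exists_eq_sum hB) hbasisF q hq (base_not_isUnit_natCast hB hπ0) g₀ hmonic
    (base_root g₀ hB hg₀)
    (fun n hn => ⟨_, base_coeff g₀ hB hq hg₀ n (hdeg ▸ hn)⟩) _ (base_unit hB hq hg0)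
    (base_coeff g₀ hB hq hg₀ 0 hB.e_pos) (base_derivative_ne_zero g₀ hB hg₀) j hrad c hc

/-- **The chart over `A ∩ K` is `(chart over A ∩ E) + ϖ (chart over A ∩ K)`**, for ANY
uniformiser `ϖ` of `A ∩ K`. -/
theorem chart_dec_ratForm (hB : InertiaBase A q K E π e g) (hq : q ≠ 0) (hπ0 : π ≠ 0)
    (hg0 : g.coeff 0 ≠ 0) [IsDiscreteValuationRing ↥(A.comap (algebraMap (↥K) Kb))]
    (ϖ : ↥(A.comap (algebraMap (↥K) Kb))) (hϖ : Irreducible ϖ) (j : ↥(ratForm N E)) :
    letI := algComap (A.comap (algebraMap (↥E) Kb)) (ratForm N E)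
    letI := algComap (A.comap (algebraMap (↥K) Kb)) (ratForm N K)
    IsIntegrallyClosed ↥(chart (↥(A.comap (algebraMap (↥E) Kb))) j) →
    IsFractionRing ↥(chart (↥(A.comap (algebraMap (↥E) Kb))) j) ↥(ratForm N E) →
    (Ideal.span {((q : ℕ) : ↥(chart (↥(A.comap (algebraMap (↥E) Kb))) j))}).IsRadical →
    ∀ c ∈ chart (↥(A.comap (algebraMap (↥K) Kb))) (ratIncl N hB.le j),
      ∃ a ∈ chart (↥(A.comap (algebraMap (↥E) Kb))) j,
        ∃ t ∈ chart (↥(A.comap (algebraMap (↥K) Kb))) (ratIncl N hB.le j),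
          c = ratIncl N hB.le a +
            algebraMap ↥(A.comap (algebraMap (↥K) Kb)) ↥(ratForm N K) ϖ * t := by
  letI algE := algComap (A.comap (algebraMap (↥E) Kb)) (ratForm N E)
  letI algK := algComap (A.comap (algebraMap (↥K) Kb)) (ratForm N K)
  intro hicl hfrac hrad c hc
  obtain ⟨a, ha, t, ht, hat⟩ := chart_dec_ratForm_gen N A hB hq hπ0 hg0 j hicl hfrac hrad c hc
  -- `π = ϖ * s` with `s ∈ A ∩ K`
  have hϖnu : valEmb A K ϖ ∈ A.nonunits := by
    rw [ValuationSubring.mem_nonunits_iff_or]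
    by_cases h0 : valEmb A K ϖ = 0
    · exact Or.inl h0
    · refine Or.inr fun hinv => hϖ.not_isUnit ?_
      refine IsUnit.of_mul_eq_one (valMk A K (valEmb A K ϖ)⁻¹
        (inv_mem (valEmb_mem_field A K ϖ)) hinv) ?_
      apply valEmb_injective A K
      rw [map_mul, valEmb_valMk, map_one, mul_inv_cancel₀ h0]
  have hdiv : valEmb A K ϖ / π ∈ A := hB.π_unif _ (valEmb_mem_field A K ϖ) hϖnu
  set s' : ↥(A.comap (algebraMap (↥K) Kb)) :=
    valMk A K (valEmb A K ϖ / π) (div_mem (valEmb_mem_field A K ϖ) hB.π_mem) hdiv with hs'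
  have hϖs : ϖ = baseGen hB * s' := by
    apply valEmb_injective A K
    rw [map_mul, valEmb_baseGen, hs', valEmb_valMk]
    field_simp
  have hπnu : ¬ IsUnit (baseGen hB) := by
    intro hu
    obtain ⟨v, hv⟩ := hu.exists_right_inv
    have h1 : π * valEmb A K v = 1 := by
      have h2 := congrArg (valEmb A K) hv
      rwa [map_mul, valEmb_baseGen, map_one] at h2
    have h3 : (1 : Kb) ∈ A.nonunits := by
      rw [← h1, ValuationSubring.mem_nonunits_iff, map_mul]
      have h4 : A.valuation π < 1 := (ValuationSubring.mem_nonunits_iff A).mp hB.π_nonunit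
      have h5 : A.valuation (valEmb A K v) ≤ 1 :=
        (ValuationSubring.valuation_le_one_iff A _).mpr (valEmb_mem A K v)
      calc A.valuation π * A.valuation (valEmb A K v) ≤ A.valuation π * 1 :=
            mul_le_mul_right h5 _
        _ < 1 := by rwa [mul_one]
    rw [ValuationSubring.mem_nonunits_iff, map_one] at h3
    exact lt_irrefl _ h3
  have hs'u : IsUnit s' := by
    rcases hϖ.isUnit_or_isUnit hϖs with h | h
    · exact absurd h hπnu
    · exact h
  obtain ⟨v, hv⟩ := hs'u.exists_right_inv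
  refine ⟨a, ha, algebraMap ↥(A.comap (algebraMap (↥K) Kb)) ↥(ratForm N K) v * t,
    Subalgebra.mul_mem _ (Subalgebra.algebraMap_mem _ _) ht, ?_⟩
  have hπϖ : baseGen hB = ϖ * v := by
    rw [hϖs, mul_assoc, hv, mul_one]
  rw [hat, hπϖ, map_mul, mul_assoc]

/-- `chart_dec_ratForm` in the shape of the hypothesis `hdec` of
`Fermat.Agent.S34.H77.crossing_hgen_atPrime`, with `f := chartIncl`. -/
theorem chart_dec_ratForm_hom (hB : InertiaBase A q K E π e g) (hq : q ≠ 0) (hπ0 : π ≠ 0)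
    (hg0 : g.coeff 0 ≠ 0) [IsDiscreteValuationRing ↥(A.comap (algebraMap (↥K) Kb))]
    (ϖ : ↥(A.comap (algebraMap (↥K) Kb))) (hϖ : Irreducible ϖ) (j : ↥(ratForm N E)) :
    letI := algComap (A.comap (algebraMap (↥E) Kb)) (ratForm N E)
    letI := algComap (A.comap (algebraMap (↥K) Kb)) (ratForm N K)
    IsIntegrallyClosed ↥(chart (↥(A.comap (algebraMap (↥E) Kb))) j) →
    IsFractionRing ↥(chart (↥(A.comap (algebraMap (↥E) Kb))) j) ↥(ratForm N E) →
    (Ideal.span {((q : ℕ) : ↥(chart (↥(A.comap (algebraMap (↥E) Kb))) j))}).IsRadical →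
    ∀ c : ↥(chart (↥(A.comap (algebraMap (↥K) Kb))) (ratIncl N hB.le j)),
      ∃ (a : ↥(chart (↥(A.comap (algebraMap (↥E) Kb))) j))
        (t : ↥(chart (↥(A.comap (algebraMap (↥K) Kb))) (ratIncl N hB.le j))),
        c = chartIncl N A hB.le j a +
          algebraMap ↥(A.comap (algebraMap (↥K) Kb))
            ↥(chart (↥(A.comap (algebraMap (↥K) Kb))) (ratIncl N hB.le j)) ϖ * t := by
  letI algE := algComap (A.comap (algebraMap (↥E) Kb)) (ratForm N E)
  letI algK := algComap (A.comap (algebraMap (↥K) Kb)) (ratForm N K)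
  intro hicl hfrac hrad c
  obtain ⟨a, ha, t, ht, hat⟩ :=
    chart_dec_ratForm N A hB hq hπ0 hg0 ϖ hϖ j hicl hfrac hrad c c.2
  exact ⟨⟨a, ha⟩, ⟨t, ht⟩, Subtype.ext hat⟩

end charts

end Fermat.Agent.S34.H46
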