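import Fermat.Agent.S34.H46.CrossGlue
import Fermat.Agent.S18.H19.Core2Defs

/-!
# The chart over the ramified base is `(chart over the unramified base)[π]`
(helper46; M6b of Program B', S34 — abstract form of the concrete base change)

Abstract data of the concrete model: `AE ⊆ AK` the unramified and the ramified base rings
(`ιA`), `FE ⊆ FK` the function fields over their fraction fields (`ι`), `π ∈ AK` with
`AK = AE[π]` (`hbasisA`), `FK = FE(π)` (`hbasisF`), `π` a root of a monic `g₀ ∈ AE[X]` of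
Eisenstein shape for `q` with `g₀'(π) ≠ 0`; `C₀ = chart AE j` normal with fraction field `FE` and
reduced special fibre (`hrad`).  Then every element of `chart AK j` is `a + π t` with
`a ∈ chart AE j`, `t ∈ chart AK j`: the hypothesis `hdec` of
`Fermat.Agent.S34.H77.crossing_hgen`.
-/

set_option autoImplicit false
set_option linter.unusedSectionVars false
set_option linter.style.haveILetI false

open Polynomial

namespace Fermat.Agent.S34.H46

open Fermat.Agent.S18.H19

/-- Integrality is transported by a ring homomorphism mapping the base subalgebra into the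
target base subalgebra. -/
theorem isIntegral_map_of_mem {A₁ F₁ A₂ F₂ : Type*} [CommRing A₁] [CommRing F₁] [Algebra A₁ F₁]
    [CommRing A₂] [CommRing F₂] [Algebra A₂ F₂] (φ : F₁ →+* F₂) (B₁ : Subalgebra A₁ F₁)
    (B₂ : Subalgebra A₂ F₂) (hφ : ∀ b ∈ B₁, φ b ∈ B₂) {a : F₁} (ha : IsIntegral ↥B₁ a) :
    IsIntegral ↥B₂ (φ a) := by
  obtain ⟨p, hp, hpa⟩ := ha
  let ψ : ↥B₁ →+* ↥B₂ := (φ.comp (algebraMap ↥B₁ F₁)).codRestrict B₂ (fun b => hφ b b.2)
  refine ⟨p.map ψ, hp.map ψ, ?_⟩
  have hcomp : (algebraMap ↥B₂ F₂).comp ψ = φ.comp (algebraMap ↥B₁ F₁) := by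
    ext b
    rfl
  rw [Polynomial.eval₂_map, hcomp, ← Polynomial.hom_eval₂, hpa, map_zero]

/-- An element integral over a subalgebra all of whose elements are integral over `R` is integral
over `R`. -/
theorem isIntegral_of_isIntegral_subalgebra {R F A₂ : Type*} [CommRing R] [CommRing F]
    [Algebra R F] [CommRing A₂] [Algebra A₂ F] (B : Subalgebra A₂ F)
    (hB : ∀ b ∈ B, IsIntegral R b) {c : F} (hc : IsIntegral ↥B c) : IsIntegral R c := by
  have h1 : IsIntegral ↥(integralClosure R F) c := by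
    have h2 := isIntegral_map_of_mem (RingHom.id F) B (integralClosure R F) hB hc
    exact h2
  exact isIntegral_trans c h1

section

variable {AE AK FE FK : Type*} [CommRing AE] [CommRing AK] [IsDomain AK]
  [IsDiscreteValuationRing AK] [Field FE] [CharZero FE] [Field FK] [Algebra AE FE]
  [Algebra AK FK] [FaithfulSMul AK FK]

/-- The chart over `AE` maps into the chart over `AK`. -/
theorem chart_map_mem (ιA : AE →+* AK) (ι : FE →+* FK)
    (hι : ∀ a : AE, ι (algebraMap AE FE a) = algebraMap AK FK (ιA a)) (j : FE) {a : FE}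
    (ha : a ∈ chart AE j) : ι a ∈ chart AK (ι j) := by
  rw [mem_chart_iff] at ha ⊢
  refine isIntegral_map_of_mem ι _ _ ?_ ha
  intro b hb
  induction hb using Algebra.adjoin_induction with
  | mem x hx =>
    rw [Set.mem_singleton_iff] at hx
    rw [hx]
    exact Algebra.subset_adjoin rfl
  | algebraMap r =>
    rw [hι]
    exact Subalgebra.algebraMap_mem _ _
  | add x y _ _ hx hy =>
    rw [map_add]
    exact Subalgebra.add_mem _ hx hy
  | mul x y _ _ hx hy =>
    rw [map_mul]
    exact Subalgebra.mul_mem _ hx hy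

/-- **The chart over the ramified base is `(chart over the unramified base)[π]`.** -/
theorem chart_dec (ιA : AE →+* AK) (ι : FE →+* FK)
    (hι : ∀ a : AE, ι (algebraMap AE FE a) = algebraMap AK FK (ιA a))
    (π : AK) (e : ℕ)
    (hbasisA : ∀ y : AK, ∃ c : Fin e → AE, y = ∑ i, ιA (c i) * π ^ (i : ℕ))
    (hbasisF : ∀ f : FK, ∃ c : Fin e → FE, f = ∑ i, ι (c i) * algebraMap AK FK π ^ (i : ℕ))
    (q : ℕ) (hq : q ≠ 0) (hqnu : ¬ IsUnit ((q : ℕ) : AK))
    (g₀ : AE[X]) (hmonic : g₀.Monic) (hroot : g₀.eval₂ ιA π = 0)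
    (hdvd : ∀ n < g₀.natDegree, ((q : ℕ) : AE) ∣ g₀.coeff n)
    (u₀ : AE) (hu₀ : IsUnit u₀) (hcoeff0 : g₀.coeff 0 = ((q : ℕ) : AE) * u₀)
    (hder : (derivative g₀).eval₂ ιA π ≠ 0)
    (j : FE) [IsIntegrallyClosed ↥(chart AE j)] [IsFractionRing ↥(chart AE j) FE]
    (hrad : (Ideal.span {((q : ℕ) : ↥(chart AE j))}).IsRadical)
    (c : FK) (hc : c ∈ chart AK (ι j)) :
    ∃ a ∈ chart AE j, ∃ t ∈ chart AK (ι j), c = ι a + algebraMap AK FK π * t := by
  classical
  set C₀ : Subalgebra AE FE := chart AE j with hC₀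
  set ϖ : FK := algebraMap AK FK π with hϖ
  letI algFE : Algebra FE FK := ι.toAlgebra
  have hιalg : ∀ x : FE, algebraMap FE FK x = ι x := fun _ => rfl
  have hC₀alg : ∀ a : ↥C₀, algebraMap ↥C₀ FK a = ι (a : FE) := fun _ => rfl
  -- finiteness and separability of `FK / FE`
  haveI hfin : Module.Finite FE FK := by
    refine Module.Finite.of_surjective
      (Fintype.linearCombination FE (fun i : Fin e => ϖ ^ (i : ℕ))) ?_
    intro f
    obtain ⟨c, rfl⟩ := hbasisF f
    refine ⟨c, ?_⟩
    rw [Fintype.linearCombination_apply]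
    refine Finset.sum_congr rfl fun i _ => ?_
    rw [Algebra.smul_def, hιalg]
  -- the structure maps
  have hcomp : (algebraMap ↥C₀ FK).comp (algebraMap AE ↥C₀) = (algebraMap AK FK).comp ιA := by
    ext a
    exact hι a
  have hconst : ∀ a : AE, algebraMap ↥C₀ FK (algebraMap AE ↥C₀ a) = algebraMap AK FK (ιA a) :=
    fun a => hι a
  -- the Eisenstein polynomial over `C₀`
  set Ep : (↥C₀)[X] := g₀.map (algebraMap AE ↥C₀) with hEp
  have hEmonic : Ep.Monic := hmonic.map _
  have hEdeg : Ep.natDegree = g₀.natDegree := hmonic.natDegree_map _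
  have haeval : ∀ p : AE[X], aeval ϖ (p.map (algebraMap AE ↥C₀))
      = algebraMap AK FK (p.eval₂ ιA π) := by
    intro p
    rw [aeval_def, Polynomial.eval₂_map, hcomp, ← Polynomial.hom_eval₂]
  have hqC₀ : ((q : ℕ) : ↥C₀) ≠ 0 := by
    intro h0
    have h1 : ((q : ℕ) : FE) = 0 := by
      have h2 : algebraMap ↥C₀ FE ((q : ℕ) : ↥C₀) = 0 := by rw [h0, map_zero]
      rwa [map_natCast] at h2
    exact hq (Nat.cast_eq_zero.mp h1)
  have hEis : EisShape ϖ Ep ((q : ℕ) : ↥C₀) (algebraMap AE ↥C₀ u₀) :=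
    { monic := hEmonic
      root := by rw [hEp, haeval, hroot, map_zero]
      q_ne := hqC₀
      unit := hu₀.map _
      dvd := by
        intro n hn
        rw [hEdeg] at hn
        obtain ⟨d, hd⟩ := hdvd n hn
        refine ⟨algebraMap AE ↥C₀ d, ?_⟩
        rw [hEp, Polynomial.coeff_map, hd, map_mul, map_natCast]
      coeff_zero := by rw [hEp, Polynomial.coeff_map, hcoeff0, map_mul, map_natCast]
      radical := hrad }
  -- `FK = FE(ϖ)`
  have hgen : Algebra.adjoin FE {ϖ} = ⊤ := by
    rw [eq_top_iff]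
    rintro f -
    obtain ⟨c, rfl⟩ := hbasisF f
    exact Subalgebra.sum_mem _ fun i _ => Subalgebra.mul_mem _ (Subalgebra.algebraMap_mem _ _)
      (Subalgebra.pow_mem _ (Algebra.self_mem_adjoin_singleton _ _) _)
  -- constants of `AK` lie in `C₀[ϖ]`
  have hAK : ∀ y : AK, algebraMap AK FK y ∈ Algebra.adjoin ↥C₀ {ϖ} := by
    intro y
    obtain ⟨c, rfl⟩ := hbasisA y
    rw [map_sum]
    refine Subalgebra.sum_mem _ fun i _ => ?_
    rw [map_mul, map_pow, ← hconst]
    exact Subalgebra.mul_mem _ (Subalgebra.algebraMap_mem _ _)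
      (Subalgebra.pow_mem _ (Algebra.self_mem_adjoin_singleton _ _) _)
  -- the different divides a power of `q`
  have hinjK : Function.Injective (algebraMap AK FK) := FaithfulSMul.algebraMap_injective AK FK
  have hqAK : ((q : ℕ) : AK) ≠ 0 := by
    intro h0
    have h1 : algebraMap ↥C₀ FK ((q : ℕ) : ↥C₀) = 0 := by
      rw [map_natCast, ← map_natCast (algebraMap AK FK), h0, map_zero]
    have h2 : ((q : ℕ) : FE) = 0 := by
      have h3 : ι ((q : ℕ) : FE) = 0 := by
        rw [← h1, hC₀alg]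
        congr 1
      exact (map_eq_zero ι).mp h3
    exact hq (Nat.cast_eq_zero.mp h2)
  have hD : ∃ (m : ℕ) (y : FK), y ∈ Algebra.adjoin ↥C₀ {ϖ} ∧
      aeval ϖ (derivative Ep) * y = algebraMap ↥C₀ FK (((q : ℕ) : ↥C₀) ^ m) := by
    obtain ⟨m, y, hy⟩ := exists_mul_eq_pow_of_dvr hqAK hqnu hder
    refine ⟨m, algebraMap AK FK y, hAK y, ?_⟩
    rw [hEp, Polynomial.derivative_map, haeval, ← map_mul, hy, map_pow, map_pow, map_natCast,
      map_natCast]
  -- `C₀ ⊆ C` and `C` is integral over `C₀`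
  have hR₀C : ∀ a : ↥C₀, algebraMap ↥C₀ FK a ∈ chart AK (ι j) := fun a =>
    chart_map_mem ιA ι hι j a.2
  have hϖint : IsIntegral ↥C₀ ϖ := hEis.isIntegral_gen
  have hint : ∀ c ∈ chart AK (ι j), IsIntegral ↥C₀ c := by
    intro c hc
    rw [mem_chart_iff] at hc
    refine isIntegral_of_isIntegral_subalgebra _ ?_ hc
    intro b hb
    induction hb using Algebra.adjoin_induction with
    | mem x hx =>
      rw [Set.mem_singleton_iff] at hx
      rw [hx]
      exact isIntegral_algebraMap (x := (⟨j, self_mem_chart AE j⟩ : ↥C₀))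
    | algebraMap r =>
      obtain ⟨d, rfl⟩ := hbasisA r
      rw [map_sum]
      refine IsIntegral.sum _ fun i _ => ?_
      rw [map_mul, map_pow, ← hconst]
      exact isIntegral_algebraMap.mul (hϖint.pow _)
    | add x y _ _ hx hy => exact hx.add hy
    | mul x y _ _ hx hy => exact hx.mul hy
  obtain ⟨a, t, ht, hat⟩ := crossing_glue_dec (K := FE) hEis hgen hD (chart AK (ι j))
    (Subalgebra.algebraMap_mem _ π) hR₀C hint c hc
  exact ⟨(a : FE), a.2, t, ht, hat⟩

end

end Fermat.Agent.S34.H46
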