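import Fermat.Agent.S34.H46.BaseChange
import Fermat.Agent.S34.H54.KrullVal

/-!
# The glue `(ρ, hρ, hρm, hdec)` for a crossing point (helper46; M6b (ii) of Program B', S34)

The three hypotheses `hρ`, `hρm`, `hdec` of `Fermat.Agent.S34.H77.crossing_hgen`, in its exact
shape, from the Eisenstein base change of `BaseChange.lean`.

* `A₀` the ramified base with uniformiser `ϖ`, `C : Subalgebra A₀ F₀` the chart over it, `x` a
  prime of `C`;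
* `R₀` the (normal) chart over the unramified base, with fraction field `K`, mapped to `F₀`
  (`Algebra R₀ F₀`, image in `C`), `F₀ = K(ϖ)` with `ϖ` Eisenstein over `R₀` (`EisShape`), `C`
  integral over `R₀`;
* `Rl` a local ring which is a localisation of `R₀` (the unramified local ring at the crossing
  point), `ρ : Rl →+* F₀` extending `R₀ → F₀`, with `x ∩ R₀ = m_Rl ∩ R₀`.

No instance `Algebra R₀ ↥C` or `Algebra Rl F₀` is required.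
-/

set_option autoImplicit false
set_option linter.unusedSectionVars false

namespace Fermat.Agent.S34.H46

open Polynomial Fermat.Agent.S34.H54

section

variable {A₀ F₀ : Type*} [CommRing A₀] [Field F₀] [Algebra A₀ F₀]
  {R₀ Rl : Type*} [CommRing R₀] [Algebra R₀ F₀] [CommRing Rl] [IsLocalRing Rl] [Algebra R₀ Rl]

/-- `hρ` of `crossing_hgen`: the image of a localisation `Rl` of `R₀` lies in the local ring of
`C` at `x`, as soon as `x ∩ R₀ ⊆ m_Rl ∩ R₀`. -/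
theorem crossing_glue_mem (C : Subalgebra A₀ F₀) (x : Ideal ↥C) [hx : x.IsPrime]
    (hR₀C : ∀ a : R₀, algebraMap R₀ F₀ a ∈ C)
    (T : Submonoid R₀) [IsLocalization T Rl]
    (ρ : Rl →+* F₀) (hρ₀ : ∀ a : R₀, ρ (algebraMap R₀ Rl a) = algebraMap R₀ F₀ a)
    (hxT : ∀ a : R₀, (⟨algebraMap R₀ F₀ a, hR₀C a⟩ : ↥C) ∈ x →
      algebraMap R₀ Rl a ∈ IsLocalRing.maximalIdeal Rl) (r : Rl) :
    ρ r ∈ locSubring (K := F₀) x := by
  obtain ⟨⟨a, t⟩, hat⟩ := IsLocalization.surj T r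
  refine ⟨⟨algebraMap R₀ F₀ t, hR₀C t⟩, ?_, ⟨algebraMap R₀ F₀ a, hR₀C a⟩, ?_⟩
  · intro ht
    exact (IsLocalRing.mem_maximalIdeal _).mp (hxT t ht) (IsLocalization.map_units Rl t)
  · change algebraMap R₀ F₀ a = algebraMap R₀ F₀ t * ρ r
    rw [← hρ₀, ← hρ₀, ← map_mul, mul_comm, hat]

/-- `hρm` of `crossing_hgen`: `ρ` is local, as soon as `m_Rl ∩ R₀ ⊆ x ∩ R₀`. -/
theorem crossing_glue_local (C : Subalgebra A₀ F₀) (x : Ideal ↥C) [hx : x.IsPrime]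
    (hR₀C : ∀ a : R₀, algebraMap R₀ F₀ a ∈ C)
    (T : Submonoid R₀) [IsLocalization T Rl]
    (ρ : Rl →+* F₀) (hρ₀ : ∀ a : R₀, ρ (algebraMap R₀ Rl a) = algebraMap R₀ F₀ a)
    (hxT : ∀ a : R₀, (⟨algebraMap R₀ F₀ a, hR₀C a⟩ : ↥C) ∈ x ↔
      algebraMap R₀ Rl a ∈ IsLocalRing.maximalIdeal Rl)
    (r : Rl) (hr : r ∈ IsLocalRing.maximalIdeal Rl) (z : F₀) (hz : z ∈ locSubring (K := F₀) x) :
    ρ r * z ≠ 1 := by
  intro h1
  obtain ⟨⟨a, t⟩, hat⟩ := IsLocalization.surj T r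
  obtain ⟨s, hs, c, hc⟩ := hz
  have hc' : (c : F₀) = (s : F₀) * z := hc
  have ha : (⟨algebraMap R₀ F₀ a, hR₀C a⟩ : ↥C) ∈ x := by
    rw [hxT, ← hat]
    exact Ideal.mul_mem_right _ _ hr
  have ht : (⟨algebraMap R₀ F₀ t, hR₀C t⟩ : ↥C) ∉ x := fun ht =>
    (IsLocalRing.mem_maximalIdeal _).mp ((hxT t).mp ht) (IsLocalization.map_units Rl t)
  have hat' : ρ r * algebraMap R₀ F₀ t = algebraMap R₀ F₀ a := by
    rw [← hρ₀, ← hρ₀, ← map_mul, hat]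
  have e : (⟨algebraMap R₀ F₀ t, hR₀C t⟩ : ↥C) * s = ⟨algebraMap R₀ F₀ a, hR₀C a⟩ * c := by
    apply Subtype.ext
    change algebraMap R₀ F₀ t * (s : F₀) = algebraMap R₀ F₀ a * (c : F₀)
    rw [hc', ← hat']
    calc algebraMap R₀ F₀ t * (s : F₀) = algebraMap R₀ F₀ t * (s : F₀) * (ρ r * z) := by
          rw [h1, mul_one]
      _ = ρ r * algebraMap R₀ F₀ t * ((s : F₀) * z) := by ring
  have h3 : (⟨algebraMap R₀ F₀ t, hR₀C t⟩ : ↥C) * s ∈ x := by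
    rw [e]
    exact x.mul_mem_right _ ha
  rcases hx.mem_or_mem h3 with h | h
  · exact ht h
  · exact hs h

end

section eis

variable {A₀ F₀ : Type*} [CommRing A₀] [Field F₀] [Algebra A₀ F₀]
  {R₀ K : Type*} [CommRing R₀] [IsDomain R₀] [IsIntegrallyClosed R₀] [Field K] [Algebra R₀ K]
  [IsFractionRing R₀ K] [Algebra K F₀] [Algebra R₀ F₀] [IsScalarTower R₀ K F₀]
  [FiniteDimensional K F₀] [Algebra.IsSeparable K F₀]
  {ϖ : F₀} {E : R₀[X]} {q u : R₀}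

include K

/-- `hdec` of `crossing_hgen`, chart level: `C = R₀ + ϖ C`. -/
theorem crossing_glue_dec (h : EisShape ϖ E q u) (hgen : Algebra.adjoin K {ϖ} = ⊤)
    (hD : ∃ (m : ℕ) (y : F₀), y ∈ Algebra.adjoin R₀ {ϖ} ∧
      aeval ϖ (derivative E) * y = algebraMap R₀ F₀ (q ^ m))
    (C : Subalgebra A₀ F₀) (hϖC : ϖ ∈ C) (hR₀C : ∀ a : R₀, algebraMap R₀ F₀ a ∈ C)
    (hint : ∀ c ∈ C, IsIntegral R₀ c) (c : F₀) (hc : c ∈ C) :
    ∃ a : R₀, ∃ t ∈ C, c = algebraMap R₀ F₀ a + ϖ * t := by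
  have hc' : c ∈ Algebra.adjoin R₀ {ϖ} :=
    h.mem_adjoin_of_isIntegral (K := K) hgen hD (hint c hc)
  obtain ⟨a, t, ht, hat⟩ := h.exists_eq_add hc'
  let C' : Subalgebra R₀ F₀ := { C.toSubsemiring with algebraMap_mem' := hR₀C }
  have hle : Algebra.adjoin R₀ {ϖ} ≤ C' := by
    refine Algebra.adjoin_le ?_
    rintro _ rfl
    exact hϖC
  exact ⟨a, t, hle ht, hat⟩

/-- **The glue for `Fermat.Agent.S34.H77.crossing_hgen`**: its hypotheses `hρ`, `hρm`, `hdec`,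
verbatim, from the Eisenstein base change. -/
theorem crossing_glue {Rl : Type*} [CommRing Rl] [IsLocalRing Rl] [Algebra R₀ Rl]
    (ϖ₀ : A₀) (h : EisShape (algebraMap A₀ F₀ ϖ₀) E q u)
    (hgen : Algebra.adjoin K {algebraMap A₀ F₀ ϖ₀} = ⊤)
    (hD : ∃ (m : ℕ) (y : F₀), y ∈ Algebra.adjoin R₀ {algebraMap A₀ F₀ ϖ₀} ∧
      aeval (algebraMap A₀ F₀ ϖ₀) (derivative E) * y = algebraMap R₀ F₀ (q ^ m))
    (C : Subalgebra A₀ F₀) (x : Ideal ↥C) [hx : x.IsPrime]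
    (hR₀C : ∀ a : R₀, algebraMap R₀ F₀ a ∈ C) (hint : ∀ c ∈ C, IsIntegral R₀ c)
    (T : Submonoid R₀) [IsLocalization T Rl]
    (ρ : Rl →+* F₀) (hρ₀ : ∀ a : R₀, ρ (algebraMap R₀ Rl a) = algebraMap R₀ F₀ a)
    (hxT : ∀ a : R₀, (⟨algebraMap R₀ F₀ a, hR₀C a⟩ : ↥C) ∈ x ↔
      algebraMap R₀ Rl a ∈ IsLocalRing.maximalIdeal Rl) :
    (∀ r : Rl, ρ r ∈ locSubring (K := F₀) x) ∧
    (∀ r ∈ IsLocalRing.maximalIdeal Rl, ∀ z ∈ locSubring (K := F₀) x, ρ r * z ≠ 1) ∧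
    (∀ c ∈ C, ∃ r : Rl, ∃ t ∈ C, c = ρ r + algebraMap A₀ F₀ ϖ₀ * t) := by
  refine ⟨fun r => crossing_glue_mem C x hR₀C T ρ hρ₀ (fun a => (hxT a).mp) r,
    fun r hr z hz => crossing_glue_local C x hR₀C T ρ hρ₀ hxT r hr z hz, ?_⟩
  intro c hc
  obtain ⟨a, t, ht, hat⟩ := crossing_glue_dec (K := K) h hgen hD C (C.algebraMap_mem ϖ₀) hR₀C
    hint c hc
  exact ⟨algebraMap R₀ Rl a, t, ht, by rw [hρ₀]; exact hat⟩

end eis

end Fermat.Agent.S34.H46
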