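import Fermat.Agent.S34.H46.CrossGlue
import Fermat.Agent.S34.H77.NodeHGen

/-!
# `HGen` at a crossing point from the Eisenstein base change (helper46; M6b of Program B', S34)

`Fermat.Agent.S34.H77.crossing_hgen` with its hypotheses `hρ`, `hρm`, `hdec` discharged by
`crossing_glue` (Eisenstein base change of the unramified chart `R₀`): one call for the concrete
model.

Remaining inputs: the unramified chart `R₀` (normal, fraction field `K`, `F₀ = K(ϖ)`, `ϖ`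
Eisenstein over `R₀`), its local ring `Rl` at the crossing point, a regular node
(`m_Rl = (J, b)`, `J * b = q`: `NodeConcl.regular`), `q = ϖ ^ e * ε` in the ramified base, and
the rationality of the support of `u`.
-/

set_option autoImplicit false
set_option linter.unusedSectionVars false

namespace Fermat.Agent.S34.H46

open Polynomial Fermat.Agent.S34.H54 Fermat.Agent.S34.H7

/-- **M6b at a crossing point, from the unramified chart.** -/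
theorem crossing_hgen_of_eisShape
    {A₀ F₀ : Type*} [CommRing A₀] [IsDomain A₀] [IsDiscreteValuationRing A₀] [Field F₀]
    [Algebra A₀ F₀] [FaithfulSMul A₀ F₀]
    (ϖ : A₀) (hϖ : Irreducible ϖ) (C : Subalgebra A₀ F₀)
    [IsIntegrallyClosed ↥C] [IsNoetherianRing ↥C] [IsFractionRing ↥C F₀]
    (x : Ideal ↥C) [hx : x.IsPrime] (hϖx : algebraMap A₀ ↥C ϖ ∈ x)
    {R₀ K : Type*} [CommRing R₀] [IsDomain R₀] [IsIntegrallyClosed R₀] [Field K] [Algebra R₀ K]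
    [IsFractionRing R₀ K] [Algebra K F₀] [Algebra R₀ F₀] [IsScalarTower R₀ K F₀]
    [FiniteDimensional K F₀] [Algebra.IsSeparable K F₀]
    {E : R₀[X]} {q₀ u₀ : R₀} (h : EisShape (algebraMap A₀ F₀ ϖ) E q₀ u₀)
    (hgen : Algebra.adjoin K {algebraMap A₀ F₀ ϖ} = ⊤)
    (hD : ∃ (m : ℕ) (y : F₀), y ∈ Algebra.adjoin R₀ {algebraMap A₀ F₀ ϖ} ∧
      aeval (algebraMap A₀ F₀ ϖ) (derivative E) * y = algebraMap R₀ F₀ (q₀ ^ m))
    (hR₀C : ∀ a : R₀, algebraMap R₀ F₀ a ∈ C) (hint : ∀ c ∈ C, IsIntegral R₀ c)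
    {Rl : Type*} [CommRing Rl] [IsLocalRing Rl] [Algebra R₀ Rl]
    (T : Submonoid R₀) [IsLocalization T Rl]
    (ρ : Rl →+* F₀) (hρ₀ : ∀ a : R₀, ρ (algebraMap R₀ Rl a) = algebraMap R₀ F₀ a)
    (hxT : ∀ a : R₀, (⟨algebraMap R₀ F₀ a, hR₀C a⟩ : ↥C) ∈ x ↔
      algebraMap R₀ Rl a ∈ IsLocalRing.maximalIdeal Rl)
    (q e : ℕ) (ε : A₀ˣ) (hq : (q : A₀) = ϖ ^ e * (ε : A₀))
    (J b : Rl) (hJb : J * b = (q : Rl)) (hm : IsLocalRing.maximalIdeal Rl = Ideal.span {J, b})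
    (u : F₀)
    (hrat : ∀ V : ValuationSubring F₀, (∀ a : A₀, a ≠ 0 → (algebraMap A₀ F₀ a)⁻¹ ∈ V) →
      IsDiscreteValuationRing ↥V → (∀ c ∈ C, c ∈ V) → ¬ (u ∈ V ∧ u⁻¹ ∈ V) →
      ∀ y ∈ V, ∃ a a' : A₀, a' ≠ 0 ∧ y - algebraMap A₀ F₀ a / algebraMap A₀ F₀ a' ∈ V.nonunits) :
    ∀ P : Ideal ↥C, P.IsPrime → P.height = 1 → P ≤ x → algebraMap A₀ ↥C ϖ ∉ P →
      (∀ V : ValuationSubring F₀, IsLocAt P V → ¬ IsU V u) →
      ∃ f ∈ P, ∀ y ∈ P, ∃ s : ↥C, s ∉ x ∧ ∃ (n : ℕ) (c : ↥C),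
        s * algebraMap A₀ ↥C ϖ ^ n * y = f * c := by
  obtain ⟨hρ, hρm, hdec⟩ := crossing_glue (K := K) ϖ h hgen hD C x hR₀C hint T ρ hρ₀ hxT
  exact Fermat.Agent.S34.H77.crossing_hgen ϖ hϖ C x hϖx ρ hρ hρm hdec q e ε hq J b hJb hm u hrat

end Fermat.Agent.S34.H46
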