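import Fermat.Agent.S34.H46.CrossConcrete

/-!
# Crossing points of the ramified chart lie over crossing points of the unramified chart
(helper46; (P2) of M6b, Program B', S34)

`hB : H92.InertiaBase A q K E π e g`, `C₀ = chart (A ∩ E) j ⊆ ratForm N E`,
`C = chart (A ∩ K) j ⊆ ratForm N K`.

* `chartIncl_isIntegral` : `C` is integral over `C₀`;
* `comap_chartIncl_isMaximal` : the trace on `C₀` of a maximal ideal of `C` is maximal;
* `mem_nonunits_comap_iff`, `coe_mem_nonunits_comap_iff` : the components of the special fibre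
  (`O ∩ ratForm N E`, `O ∩ ratForm N K` for a valuation ring `O` of `F_N`) correspond;
* `cross_of_regular` : if the local ring of `C₀` at every closed point on both components is a
  regular node (conclusion of `H68.crossing_regular_of_dsetup`), then `HGen` holds at every closed
  point of `C` on both components (the body of `(H30.stdV …).Cross m u₀`, right disjunct).
-/

set_option autoImplicit false
set_option linter.unusedSectionVars false
set_option linter.style.haveILetI false

open IntermediateField Polynomial ModularCurve AlgebraicCurve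

noncomputable section

namespace Fermat.Agent.S34.H46

open Fermat.Agent.S18 Fermat.Agent.S18.H74 Fermat.Agent.S18.H19 Fermat.Agent.S34.H19
  Fermat.Agent.S34.H61 Fermat.Agent.S34.H92 Fermat.Agent.S34.H54 Fermat.Agent.S34.H7

/-! ### Abstract integrality of the chart over the ramified base -/

/-- Every element of `chart AK (ι j)` is integral over `chart AE j`, if `AK = AE[π]` with `π`
integral over `AE`. -/
theorem chart_isIntegralElem {AE AK FE FK : Type*} [CommRing AE] [CommRing AK] [Field FE]
    [Field FK] [Algebra AE FE] [Algebra AK FK] (ιA : AE →+* AK) (ι : FE →+* FK)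
    (hι : ∀ a : AE, ι (algebraMap AE FE a) = algebraMap AK FK (ιA a)) (π : AK) (e : ℕ)
    (hbasisA : ∀ y : AK, ∃ c : Fin e → AE, y = ∑ i, ιA (c i) * π ^ (i : ℕ))
    (g₀ : AE[X]) (hmonic : g₀.Monic) (hroot : g₀.eval₂ ιA π = 0) (j : FE) (c : FK)
    (hc : c ∈ chart AK (ι j)) :
    (ι.comp (algebraMap ↥(chart AE j) FE)).IsIntegralElem c := by
  letI algC₀ : Algebra ↥(chart AE j) FK := (ι.comp (algebraMap ↥(chart AE j) FE)).toAlgebra
  have hconst : ∀ a : AE,
      algebraMap ↥(chart AE j) FK (algebraMap AE ↥(chart AE j) a) = algebraMap AK FK (ιA a) :=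
    fun a => hι a
  have hcomp : (algebraMap ↥(chart AE j) FK).comp (algebraMap AE ↥(chart AE j))
      = (algebraMap AK FK).comp ιA := by
    ext a
    exact hι a
  have hϖint : IsIntegral ↥(chart AE j) (algebraMap AK FK π) := by
    refine ⟨g₀.map (algebraMap AE ↥(chart AE j)), hmonic.map _, ?_⟩
    rw [Polynomial.eval₂_map, hcomp, ← Polynomial.hom_eval₂, hroot, map_zero]
  have h : IsIntegral ↥(chart AE j) c := by
    rw [mem_chart_iff] at hc
    refine isIntegral_of_isIntegral_subalgebra _ ?_ hc
    intro b hb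
    induction hb using Algebra.adjoin_induction with
    | mem x hx =>
      rw [Set.mem_singleton_iff] at hx
      rw [hx]
      exact isIntegral_algebraMap (x := (⟨j, self_mem_chart AE j⟩ : ↥(chart AE j)))
    | algebraMap r =>
      obtain ⟨d, rfl⟩ := hbasisA r
      rw [map_sum]
      refine IsIntegral.sum _ fun i _ => ?_
      rw [map_mul, map_pow, ← hconst]
      exact isIntegral_algebraMap.mul (hϖint.pow _)
    | add x y _ _ hx hy => exact hx.add hy
    | mul x y _ _ hx hy => exact hx.mul hy
  exact h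

/-- A ring homomorphism `f : chart AE j → chart AK (ι j)` lifting `ι` is integral. -/
theorem chart_hom_isIntegral {AE AK FE FK : Type*} [CommRing AE] [CommRing AK] [Field FE]
    [Field FK] [Algebra AE FE] [Algebra AK FK] (ιA : AE →+* AK) (ι : FE →+* FK)
    (hι : ∀ a : AE, ι (algebraMap AE FE a) = algebraMap AK FK (ιA a)) (π : AK) (e : ℕ)
    (hbasisA : ∀ y : AK, ∃ c : Fin e → AE, y = ∑ i, ιA (c i) * π ^ (i : ℕ))
    (g₀ : AE[X]) (hmonic : g₀.Monic) (hroot : g₀.eval₂ ιA π = 0) (j : FE)
    (f : ↥(chart AE j) →+* ↥(chart AK (ι j)))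
    (hf : ∀ a : ↥(chart AE j), ((f a : ↥(chart AK (ι j))) : FK) = ι (a : FE)) :
    f.IsIntegral := by
  intro c
  obtain ⟨p, hp, hpc⟩ := chart_isIntegralElem ιA ι hι π e hbasisA g₀ hmonic hroot j (c : FK) c.2
  refine ⟨p, hp, ?_⟩
  have hcomp : (algebraMap ↥(chart AK (ι j)) FK).comp f
      = ι.comp (algebraMap ↥(chart AE j) FE) := by
    ext a
    exact hf a
  apply Subtype.ext
  have h1 : ((Polynomial.eval₂ f c p : ↥(chart AK (ι j))) : FK)
      = Polynomial.eval₂ ((algebraMap ↥(chart AK (ι j)) FK).comp f) (c : FK) p :=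
    Polynomial.hom_eval₂ p f (algebraMap ↥(chart AK (ι j)) FK) c
  rw [h1, hcomp, hpc]
  rfl

/-- Non-units of the restriction of a valuation ring along a field homomorphism. -/
theorem mem_nonunits_comap_iff {F L : Type*} [Field F] [Field L] (O : ValuationSubring L)
    (f : F →+* L) (x : F) : x ∈ (O.comap f).nonunits ↔ f x ∈ O.nonunits := by
  rw [ValuationSubring.mem_nonunits_iff_or, ValuationSubring.mem_nonunits_iff_or,
    ValuationSubring.mem_comap, map_inv₀, map_eq_zero]

/-! ### The concrete charts -/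

variable (N : ℕ) (A : ValuationSubring Kb) {q : ℕ} {K E : IntermediateField ℚ Kb} {π : Kb}
  {e : ℕ} {g : Polynomial Kb}

/-- The chart over `A ∩ K` is integral over the chart over `A ∩ E`. -/
theorem chartIncl_isIntegral (hB : InertiaBase A q K E π e g) (j : ↥(ratForm N E)) :
    letI := algComap (A.comap (algebraMap (↥E) Kb)) (ratForm N E)
    letI := algComap (A.comap (algebraMap (↥K) Kb)) (ratForm N K)
    (chartIncl N A hB.le j).IsIntegral := by
  letI algE := algComap (A.comap (algebraMap (↥E) Kb)) (ratForm N E)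
  letI algK := algComap (A.comap (algebraMap (↥K) Kb)) (ratForm N K)
  obtain ⟨g₀, hmonic, -, hg₀⟩ := base_exists_descent hB
  exact chart_hom_isIntegral (valIncl A hB.le) (ratIncl N hB.le) (ratIncl_algebraMap N A hB.le)
    (baseGen hB) e (base_exists_eq_sum hB) g₀ hmonic (base_root g₀ hB hg₀) j
    (chartIncl N A hB.le j) (coe_chartIncl N A hB.le j)

/-- The trace on the chart over `A ∩ E` of a maximal ideal of the chart over `A ∩ K` is
maximal. -/
theorem comap_chartIncl_isMaximal (hB : InertiaBase A q K E π e g) (j : ↥(ratForm N E)) :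
    letI := algComap (A.comap (algebraMap (↥E) Kb)) (ratForm N E)
    letI := algComap (A.comap (algebraMap (↥K) Kb)) (ratForm N K)
    ∀ (x : Ideal ↥(chart (↥(A.comap (algebraMap (↥K) Kb))) (ratIncl N hB.le j))),
      x.IsMaximal → (x.comap (chartIncl N A hB.le j)).IsMaximal := by
  letI algE := algComap (A.comap (algebraMap (↥E) Kb)) (ratForm N E)
  letI algK := algComap (A.comap (algebraMap (↥K) Kb)) (ratForm N K)
  intro x hx
  exact Ideal.isMaximal_comap_of_isIntegral_of_isMaximal' _ (chartIncl_isIntegral N A hB j) x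

/-- The components of the special fibre correspond: for a valuation ring `O` of `F_N`, an
element of `ratForm N E` is a non-unit of `O ∩ ratForm N E` iff its image is a non-unit of
`O ∩ ratForm N K`. -/
theorem ratIncl_mem_nonunits_comap_iff {E K : IntermediateField ℚ Kb} (hEK : E ≤ K)
    (O : ValuationSubring (FN N)) (c : ↥(ratForm N E)) :
    ratIncl N hEK c ∈ (O.comap (algebraMap ↥(ratForm N K) (FN N))).nonunits ↔
      c ∈ (O.comap (algebraMap ↥(ratForm N E) (FN N))).nonunits := by
  rw [mem_nonunits_comap_iff, mem_nonunits_comap_iff]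
  rfl

set_option synthInstance.maxHeartbeats 400000 in
set_option maxHeartbeats 1000000 in
/-- **M6b on the concrete model, all crossing points.**  If the local ring of the chart `C₀` over
the unramified base `A ∩ E` at every closed point lying on both components `O₁`, `O₂` of the
special fibre is a regular node (`H68.crossing_regular_of_dsetup`), then for `u` with rational
zeros and poles the certificate `HGen` holds at every closed point `x ∋ ϖ` of the chart `C` over
`A ∩ K` lying on both components. -/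
theorem cross_of_regular (hB : InertiaBase A q K E π e g) (hq : q ≠ 0) (hπ0 : π ≠ 0)
    (hg0 : g.coeff 0 ≠ 0) [IsDiscreteValuationRing ↥(A.comap (algebraMap (↥K) Kb))]
    (ϖ : ↥(A.comap (algebraMap (↥K) Kb))) (hϖ : Irreducible ϖ) (j : ↥(ratForm N E))
    (O₁ O₂ : ValuationSubring (FN N)) :
    letI := algComap (A.comap (algebraMap (↥E) Kb)) (ratForm N E)
    letI := algComap (A.comap (algebraMap (↥K) Kb)) (ratForm N K)
    IsIntegrallyClosed ↥(chart (↥(A.comap (algebraMap (↥E) Kb))) j) →
    IsFractionRing ↥(chart (↥(A.comap (algebraMap (↥E) Kb))) j) ↥(ratForm N E) →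
    (Ideal.span {((q : ℕ) : ↥(chart (↥(A.comap (algebraMap (↥E) Kb))) j))}).IsRadical →
    (∀ (x₀ : Ideal ↥(chart (↥(A.comap (algebraMap (↥E) Kb))) j)) [x₀.IsMaximal],
      (∀ c : ↥(chart (↥(A.comap (algebraMap (↥E) Kb))) j),
        (c : ↥(ratForm N E)) ∈ (O₁.comap (algebraMap ↥(ratForm N E) (FN N))).nonunits →
          c ∈ x₀) →
      (∀ c : ↥(chart (↥(A.comap (algebraMap (↥E) Kb))) j),
        (c : ↥(ratForm N E)) ∈ (O₂.comap (algebraMap ↥(ratForm N E) (FN N))).nonunits →
          c ∈ x₀) →
      ∃ J b : Localization.AtPrime x₀, J * b = ((q : ℕ) : Localization.AtPrime x₀) ∧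
        IsLocalRing.maximalIdeal (Localization.AtPrime x₀) = Ideal.span {J, b}) →
    ∀ [IsIntegrallyClosed ↥(chart (↥(A.comap (algebraMap (↥K) Kb))) (ratIncl N hB.le j))]
      [IsNoetherianRing ↥(chart (↥(A.comap (algebraMap (↥K) Kb))) (ratIncl N hB.le j))]
      [IsFractionRing ↥(chart (↥(A.comap (algebraMap (↥K) Kb))) (ratIncl N hB.le j))
        ↥(ratForm N K)]
      (u : ↥(ratForm N K)),
      (∀ V : ValuationSubring ↥(ratForm N K),
        (∀ a : ↥(A.comap (algebraMap (↥K) Kb)), a ≠ 0 →
          (algebraMap ↥(A.comap (algebraMap (↥K) Kb)) ↥(ratForm N K) a)⁻¹ ∈ V) →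
        IsDiscreteValuationRing ↥V → ¬ (u ∈ V ∧ u⁻¹ ∈ V) →
        ∀ y ∈ V, ∃ a a' : ↥(A.comap (algebraMap (↥K) Kb)), a' ≠ 0 ∧
          y - algebraMap ↥(A.comap (algebraMap (↥K) Kb)) ↥(ratForm N K) a /
            algebraMap ↥(A.comap (algebraMap (↥K) Kb)) ↥(ratForm N K) a' ∈ V.nonunits) →
      ∀ (x : Ideal ↥(chart (↥(A.comap (algebraMap (↥K) Kb))) (ratIncl N hB.le j))),
        x.IsMaximal →
        algebraMap ↥(A.comap (algebraMap (↥K) Kb))
          ↥(chart (↥(A.comap (algebraMap (↥K) Kb))) (ratIncl N hB.le j)) ϖ ∈ x →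
        (∀ c : ↥(chart (↥(A.comap (algebraMap (↥K) Kb))) (ratIncl N hB.le j)),
          (c : ↥(ratForm N K)) ∈ (O₁.comap (algebraMap ↥(ratForm N K) (FN N))).nonunits →
            c ∈ x) →
        (∀ c : ↥(chart (↥(A.comap (algebraMap (↥K) Kb))) (ratIncl N hB.le j)),
          (c : ↥(ratForm N K)) ∈ (O₂.comap (algebraMap ↥(ratForm N K) (FN N))).nonunits →
            c ∈ x) →
        ∀ P : Ideal ↥(chart (↥(A.comap (algebraMap (↥K) Kb))) (ratIncl N hB.le j)),
          P.IsPrime → P.height = 1 → P ≤ x →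
          algebraMap ↥(A.comap (algebraMap (↥K) Kb))
            ↥(chart (↥(A.comap (algebraMap (↥K) Kb))) (ratIncl N hB.le j)) ϖ ∉ P →
          (∀ V : ValuationSubring ↥(ratForm N K), IsLocAt P V → ¬ IsU V u) →
          ∃ f' ∈ P, ∀ y ∈ P,
            ∃ s : ↥(chart (↥(A.comap (algebraMap (↥K) Kb))) (ratIncl N hB.le j)), s ∉ x ∧
              ∃ (n : ℕ) (c : ↥(chart (↥(A.comap (algebraMap (↥K) Kb))) (ratIncl N hB.le j))),
                s * algebraMap ↥(A.comap (algebraMap (↥K) Kb))
                  ↥(chart (↥(A.comap (algebraMap (↥K) Kb))) (ratIncl N hB.le j)) ϖ ^ n * y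
                  = f' * c := by
  letI algE := algComap (A.comap (algebraMap (↥E) Kb)) (ratForm N E)
  letI algK := algComap (A.comap (algebraMap (↥K) Kb)) (ratForm N K)
  intro hicl hfrac hrad hnode _ _ _ u hrat x hx hϖx hb₁ hb₂
  haveI hx₀ : (x.comap (chartIncl N A hB.le j)).IsMaximal :=
    comap_chartIncl_isMaximal N A hB j x hx
  haveI hxp : x.IsPrime := hx.isPrime
  have h₁ : ∀ c : ↥(chart (↥(A.comap (algebraMap (↥E) Kb))) j),
      (c : ↥(ratForm N E)) ∈ (O₁.comap (algebraMap ↥(ratForm N E) (FN N))).nonunits →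
        c ∈ x.comap (chartIncl N A hB.le j) := by
    intro c hc
    rw [Ideal.mem_comap]
    apply hb₁
    rw [coe_chartIncl]
    exact (ratIncl_mem_nonunits_comap_iff N hB.le O₁ _).mpr hc
  have h₂ : ∀ c : ↥(chart (↥(A.comap (algebraMap (↥E) Kb))) j),
      (c : ↥(ratForm N E)) ∈ (O₂.comap (algebraMap ↥(ratForm N E) (FN N))).nonunits →
        c ∈ x.comap (chartIncl N A hB.le j) := by
    intro c hc
    rw [Ideal.mem_comap]
    apply hb₂
    rw [coe_chartIncl]
    exact (ratIncl_mem_nonunits_comap_iff N hB.le O₂ _).mpr hc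
  have hn := hnode (x.comap (chartIncl N A hB.le j)) h₁ h₂
  exact hgen_ratForm_of_regular N A hB hq hπ0 hg0 ϖ hϖ j hicl hfrac hrad x hϖx
    (x.comap (chartIncl N A hB.le j)) rfl hn u
    (fun V hV hdvr _ hnu => hrat V hV hdvr hnu)

end Fermat.Agent.S34.H46
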