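import Fermat.Agent.S34.H46.BaseChange
import Fermat.Agent.S34.H54.KrullVal

/-!
# The node over the ramified base: glue (helper46; M6b (ii) of Program B', S34)

`R₀` the chart over the unramified base, `C` the chart over the ramified base, `F` the function
field over the ramified base (`R₀ → C → F` a tower), `π : C` the uniformiser of the ramified base.

* `exists_eq_add_of_eisShape` : `C = R₀ + π C` (from `EisShape.mem_adjoin_of_isIntegral`: the
  normal chart over the ramified base is `R₀[π]`);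
* `node_hyps_baseChange` : if the local ring of `R₀` at `x₀ = x ∩ R₀` has maximal ideal `(J, b)`
  (2-generator node, in the `locSubring` vocabulary of `H54.KrullVal`), then the local ring of `C`
  at `x` has maximal ideal `(J, b, π)`: the hypotheses `hJ hJ' hb hb' hgen` of
  `Fermat.Agent.S34.H77.hLoc_of_node_val`;
* `mem_locSubring_iff_mem_range` : an abstract local ring `Rl` which is a localisation of `R₀`
  (at any submonoid) is `locSubring x₀` for `x₀` the contraction of its maximal ideal;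
* `node_hyps_of_local` : the 2-generator node hypotheses at `x₀` from an abstract local ring `Rl`
  with `m = (J, b)` whose image in `F` is `locSubring x₀` (the output shape of
  `NodeConcl.regular`);
* `node_hyps_of_regular` : everything combined.
-/

set_option autoImplicit false
set_option linter.unusedSectionVars false

namespace Fermat.Agent.S34.H46

open Polynomial Fermat.Agent.S34.H54

section glue

variable {R₀ C F : Type*} [CommRing R₀] [CommRing C] [Field F] [Algebra R₀ C] [Algebra C F]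
  [Algebra R₀ F] [IsScalarTower R₀ C F]

/-- The local ring of `R₀` at `x ∩ R₀` is contained in the local ring of `C` at `x`. -/
theorem locSubring_comap_le (x : Ideal C) [x.IsPrime] (x₀ : Ideal R₀) [x₀.IsPrime]
    (hx₀ : x₀ = x.comap (algebraMap R₀ C)) :
    locSubring (K := F) x₀ ≤ locSubring (K := F) x := by
  rintro y ⟨s, hs, a, ha⟩
  refine ⟨algebraMap R₀ C s, ?_, algebraMap R₀ C a, ?_⟩
  · intro h
    exact hs (by rw [hx₀]; exact h)
  · rw [← IsScalarTower.algebraMap_apply, ← IsScalarTower.algebraMap_apply]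
    exact ha

/-- A non-unit of the local ring of `R₀` at `x ∩ R₀` is a non-unit of the local ring of `C` at
`x`. -/
theorem inv_notMem_locSubring_of_comap (hinj : Function.Injective (algebraMap C F))
    (x : Ideal C) [hx : x.IsPrime] (x₀ : Ideal R₀) [x₀.IsPrime]
    (hx₀ : x₀ = x.comap (algebraMap R₀ C)) {J : F}
    (hJ : J ∈ locSubring (K := F) x₀) (hJ' : J⁻¹ ∉ locSubring (K := F) x₀) :
    J⁻¹ ∉ locSubring (K := F) x := by
  have hJ0 : J ≠ 0 := by
    rintro rfl
    exact hJ' (by rw [inv_zero]; exact Subring.zero_mem _)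
  obtain ⟨s, hs, a, ha⟩ := hJ
  have ha_mem : a ∈ x₀ := by
    by_contra hax
    apply hJ'
    refine ⟨a, hax, s, ?_⟩
    rw [ha, mul_assoc, mul_inv_cancel₀ hJ0, mul_one]
  rintro ⟨t, ht, c, hc⟩
  have h1 : algebraMap C F (t * algebraMap R₀ C s) = algebraMap C F (c * algebraMap R₀ C a) := by
    rw [map_mul, map_mul, ← IsScalarTower.algebraMap_apply, ← IsScalarTower.algebraMap_apply,
      ha, hc]
    field_simp
  have h2 := hinj h1
  have h3 : t * algebraMap R₀ C s ∈ x := by
    rw [h2]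
    refine x.mul_mem_left _ ?_
    rw [hx₀] at ha_mem
    exact ha_mem
  rcases hx.mem_or_mem h3 with h | h
  · exact ht h
  · exact hs (by rw [hx₀]; exact h)

/-- **The node over the ramified base.**  If `C = R₀ + π C`, `π ∈ x`, and the local ring of `R₀`
at `x₀ = x ∩ R₀` has maximal ideal `(J, b)`, then the local ring of `C` at `x` has maximal ideal
`(J, b, π)`. -/
theorem node_hyps_baseChange (hinj : Function.Injective (algebraMap C F)) (π : C)
    (hdec : ∀ c : C, ∃ (a : R₀) (t : C), c = algebraMap R₀ C a + π * t)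
    (x : Ideal C) [x.IsPrime] (hπx : π ∈ x) (x₀ : Ideal R₀) [x₀.IsPrime]
    (hx₀ : x₀ = x.comap (algebraMap R₀ C)) (J b : F)
    (hJ : J ∈ locSubring (K := F) x₀) (hJ' : J⁻¹ ∉ locSubring (K := F) x₀)
    (hb : b ∈ locSubring (K := F) x₀) (hb' : b⁻¹ ∉ locSubring (K := F) x₀)
    (hgen₀ : ∀ a ∈ x₀, ∃ c₁ ∈ locSubring (K := F) x₀, ∃ c₂ ∈ locSubring (K := F) x₀,
      algebraMap R₀ F a = c₁ * J + c₂ * b) :
    J ∈ locSubring (K := F) x ∧ J⁻¹ ∉ locSubring (K := F) x ∧
    b ∈ locSubring (K := F) x ∧ b⁻¹ ∉ locSubring (K := F) x ∧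
    ∀ c ∈ x, ∃ c₁ ∈ locSubring (K := F) x, ∃ c₂ ∈ locSubring (K := F) x,
      ∃ c₃ ∈ locSubring (K := F) x,
        algebraMap C F c = c₁ * J + c₂ * b + c₃ * algebraMap C F π := by
  have hle := locSubring_comap_le (F := F) x x₀ hx₀
  refine ⟨hle hJ, inv_notMem_locSubring_of_comap hinj x x₀ hx₀ hJ hJ', hle hb,
    inv_notMem_locSubring_of_comap hinj x x₀ hx₀ hb hb', ?_⟩
  intro c hc
  obtain ⟨a, t, rfl⟩ := hdec c
  have ha : a ∈ x₀ := by
    rw [hx₀, Ideal.mem_comap]
    have h1 := x.sub_mem hc (x.mul_mem_right t hπx)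
    simpa using h1
  obtain ⟨c₁, hc₁, c₂, hc₂, h⟩ := hgen₀ a ha
  refine ⟨c₁, hle hc₁, c₂, hle hc₂, algebraMap C F t, algebraMap_mem_locSubring x t, ?_⟩
  rw [map_add, map_mul, ← IsScalarTower.algebraMap_apply, h]
  ring

end glue

section local_ring

variable {R₀ Rl F : Type*} [CommRing R₀] [CommRing Rl] [IsLocalRing Rl] [Field F]
  [Algebra R₀ F]

/-- A local ring `Rl` which is a localisation of `R₀` is the local ring `locSubring x₀` of `R₀` at
the contraction `x₀` of its maximal ideal. -/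
theorem mem_locSubring_iff_mem_range [Algebra R₀ Rl] [Algebra Rl F] [IsScalarTower R₀ Rl F]
    (T : Submonoid R₀) [IsLocalization T Rl] (x₀ : Ideal R₀) [x₀.IsPrime]
    (hx₀ : x₀ = (IsLocalRing.maximalIdeal Rl).comap (algebraMap R₀ Rl)) (y : F) :
    y ∈ locSubring (K := F) x₀ ↔ y ∈ (algebraMap Rl F).range := by
  constructor
  · rintro ⟨s, hs, a, ha⟩
    have hsu : IsUnit (algebraMap R₀ Rl s) := by
      by_contra hnu
      apply hs
      rw [hx₀, Ideal.mem_comap]
      exact (IsLocalRing.mem_maximalIdeal _).mpr hnu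
    obtain ⟨v, hv⟩ := hsu.exists_right_inv
    refine ⟨algebraMap R₀ Rl a * v, ?_⟩
    have h1 : algebraMap R₀ F s * algebraMap Rl F v = 1 := by
      rw [IsScalarTower.algebraMap_apply R₀ Rl F, ← map_mul, hv, map_one]
    rw [map_mul, ← IsScalarTower.algebraMap_apply, ha]
    calc algebraMap R₀ F s * y * algebraMap Rl F v
        = (algebraMap R₀ F s * algebraMap Rl F v) * y := by ring
      _ = y := by rw [h1, one_mul]
  · rintro ⟨r, rfl⟩
    obtain ⟨⟨a, t⟩, hat⟩ := IsLocalization.surj T r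
    refine ⟨t, ?_, a, ?_⟩
    · intro ht
      rw [hx₀, Ideal.mem_comap] at ht
      exact (IsLocalRing.mem_maximalIdeal _).mp ht (IsLocalization.map_units Rl t)
    · rw [IsScalarTower.algebraMap_apply R₀ Rl F a, ← hat, map_mul,
        ← IsScalarTower.algebraMap_apply, mul_comm]

/-- The 2-generator node hypotheses at `x₀` from an abstract local ring `Rl` with maximal ideal
`(J, b)` whose image in `F` is the local ring of `R₀` at `x₀`. -/
theorem node_hyps_of_local (hinj₀ : Function.Injective (algebraMap R₀ F))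
    (x₀ : Ideal R₀) [hx₀ : x₀.IsPrime] (ι : Rl →+* F) (hι : Function.Injective ι)
    (hrange : ∀ y : F, y ∈ locSubring (K := F) x₀ ↔ y ∈ ι.range)
    (J b : Rl) (hJ0 : J ≠ 0) (hb0 : b ≠ 0)
    (hm : IsLocalRing.maximalIdeal Rl = Ideal.span {J, b}) :
    ι J ∈ locSubring (K := F) x₀ ∧ (ι J)⁻¹ ∉ locSubring (K := F) x₀ ∧
    ι b ∈ locSubring (K := F) x₀ ∧ (ι b)⁻¹ ∉ locSubring (K := F) x₀ ∧
    ∀ a ∈ x₀, ∃ c₁ ∈ locSubring (K := F) x₀, ∃ c₂ ∈ locSubring (K := F) x₀,
      algebraMap R₀ F a = c₁ * ι J + c₂ * ι b := by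
  have hmem : ∀ r : Rl, ι r ∈ locSubring (K := F) x₀ := fun r => (hrange _).mpr ⟨r, rfl⟩
  have hnu : ∀ r : Rl, r ≠ 0 → r ∈ IsLocalRing.maximalIdeal Rl →
      (ι r)⁻¹ ∉ locSubring (K := F) x₀ := by
    intro r hr0 hr hinv
    obtain ⟨r', hr'⟩ := (hrange _).mp hinv
    have hιr : ι r ≠ 0 := fun h => hr0 (hι (by rw [h, map_zero]))
    have h1 : ι (r * r') = ι 1 := by
      rw [map_mul, hr', mul_inv_cancel₀ hιr, map_one]
    exact (IsLocalRing.mem_maximalIdeal _).mp hr (IsUnit.of_mul_eq_one _ (hι h1))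
  have hJm : J ∈ IsLocalRing.maximalIdeal Rl := by
    rw [hm]
    exact Ideal.subset_span (Set.mem_insert _ _)
  have hbm : b ∈ IsLocalRing.maximalIdeal Rl := by
    rw [hm]
    exact Ideal.subset_span (Set.mem_insert_of_mem _ rfl)
  refine ⟨hmem J, hnu J hJ0 hJm, hmem b, hnu b hb0 hbm, ?_⟩
  intro a ha
  obtain ⟨r, hr⟩ := (hrange _).mp (algebraMap_mem_locSubring (K := F) x₀ a)
  have hrm : r ∈ IsLocalRing.maximalIdeal Rl := by
    rw [IsLocalRing.mem_maximalIdeal]
    intro hu
    obtain ⟨v, hv⟩ := hu.exists_right_inv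
    obtain ⟨s, hs, a', ha'⟩ := hmem v
    have h1 : algebraMap R₀ F (a * a') = algebraMap R₀ F s := by
      rw [map_mul, ha', ← hr]
      calc ι r * (algebraMap R₀ F s * ι v) = algebraMap R₀ F s * ι (r * v) := by
            rw [map_mul]; ring
        _ = algebraMap R₀ F s := by rw [hv, map_one, mul_one]
    have h2 := hinj₀ h1
    exact hs (h2 ▸ x₀.mul_mem_right a' ha)
  rw [hm] at hrm
  obtain ⟨c₁, c₂, hc⟩ := Ideal.mem_span_pair.mp hrm
  refine ⟨ι c₁, hmem c₁, ι c₂, hmem c₂, ?_⟩
  rw [← hr, ← hc, map_add, map_mul, map_mul]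

end local_ring

section eis

variable {R K L C : Type*} [CommRing R] [IsDomain R] [IsIntegrallyClosed R] [Field K] [Field L]
  [Algebra R K] [IsFractionRing R K] [Algebra K L] [Algebra R L] [IsScalarTower R K L]
  [FiniteDimensional K L] [Algebra.IsSeparable K L]
  [CommRing C] [Algebra R C] [Algebra C L] [IsScalarTower R C L]
  {ϖ : L} {E : R[X]} {q u : R}

include K

/-- **`C = R + π C`** for the chart `C` over the ramified base: `R` the (normal) chart over the
unramified base with reduced special fibre, `L = K(ϖ)`, `ϖ` Eisenstein over `R`, and `C` integral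
over `R` containing `π ↦ ϖ`. -/
theorem exists_eq_add_of_eisShape (h : EisShape ϖ E q u) (hgen : Algebra.adjoin K {ϖ} = ⊤)
    (hD : ∃ (m : ℕ) (y : L), y ∈ Algebra.adjoin R {ϖ} ∧
      aeval ϖ (derivative E) * y = algebraMap R L (q ^ m))
    (hinj : Function.Injective (algebraMap C L)) (π : C) (hπ : algebraMap C L π = ϖ)
    (hint : ∀ c : C, IsIntegral R (algebraMap C L c)) (c : C) :
    ∃ (a : R) (t : C), c = algebraMap R C a + π * t := by
  have hc : algebraMap C L c ∈ Algebra.adjoin R {ϖ} :=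
    h.mem_adjoin_of_isIntegral (K := K) hgen hD (hint c)
  obtain ⟨a, t, ht, hat⟩ := h.exists_eq_add hc
  have hle : Algebra.adjoin R {ϖ} ≤ (IsScalarTower.toAlgHom R C L).range := by
    refine Algebra.adjoin_le ?_
    rintro _ rfl
    exact ⟨π, hπ⟩
  obtain ⟨t', ht'⟩ := hle ht
  refine ⟨a, t', hinj ?_⟩
  have ht'' : algebraMap C L t' = t := ht'
  rw [hat, map_add, map_mul, ← IsScalarTower.algebraMap_apply, hπ, ht'']

omit [FiniteDimensional K L] [Algebra.IsSeparable K L] [IsIntegrallyClosed R] in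
/-- `ϖ ^ e = -q (u + ϖ w)`, `e = deg E`: the Eisenstein relation with the unit made explicit. -/
theorem EisShape.pow_eq_neg (h : EisShape ϖ E q u) :
    ∃ w ∈ Algebra.adjoin R {ϖ},
      ϖ ^ E.natDegree = -(algebraMap R L q * (algebraMap R L u + ϖ * w)) := by
  have hn : E.natDegree ≠ 0 := by
    intro h0
    have h1 : E = 1 := Polynomial.eq_one_of_monic_natDegree_zero h.monic h0
    have h2 := h.root
    rw [h1, map_one] at h2
    exact one_ne_zero h2
  obtain ⟨m, hm⟩ := Nat.exists_eq_succ_of_ne_zero hn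
  have : ∀ i, ∃ c : R, i < E.natDegree → E.coeff i = q * c := by
    intro i
    by_cases hi : i < E.natDegree
    · obtain ⟨c, hc⟩ := h.dvd i hi; exact ⟨c, fun _ => hc⟩
    · exact ⟨0, fun hi' => absurd hi' hi⟩
  choose c hc using this
  refine ⟨∑ i ∈ Finset.range m, algebraMap R L (c (i + 1)) * ϖ ^ i, ?_, ?_⟩
  · exact Subalgebra.sum_mem _ fun i _ =>
      Subalgebra.mul_mem _ (Subalgebra.algebraMap_mem _ _)
        (Subalgebra.pow_mem _ (Algebra.self_mem_adjoin_singleton R ϖ) _)
  · have h1 : aeval ϖ E = ϖ ^ E.natDegree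
        + ∑ i ∈ Finset.range E.natDegree, algebraMap R L (E.coeff i) * ϖ ^ i := by
      conv_lhs => rw [h.monic.as_sum]
      simp
    rw [h.root] at h1
    have h2 : ∑ i ∈ Finset.range E.natDegree, algebraMap R L (E.coeff i) * ϖ ^ i
        = algebraMap R L q * (ϖ * ∑ i ∈ Finset.range m, algebraMap R L (c (i + 1)) * ϖ ^ i)
          + algebraMap R L q * algebraMap R L u := by
      rw [hm, Finset.sum_range_succ', h.coeff_zero, pow_zero, mul_one, map_mul]
      congr 1
      rw [Finset.mul_sum, Finset.mul_sum]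
      refine Finset.sum_congr rfl fun i hi => ?_
      rw [hc (i + 1) (by rw [hm]; exact Nat.succ_lt_succ (Finset.mem_range.mp hi)), map_mul,
        pow_succ]
      ring
    rw [h2] at h1
    linear_combination -h1

omit [FiniteDimensional K L] [Algebra.IsSeparable K L] [IsIntegrallyClosed R] in
/-- `q = ϖ ^ e * ε` with `ε` a unit of the local ring of `C` at any prime `x ∋ π`. -/
theorem EisShape.exists_unit_locSubring (h : EisShape ϖ E q u)
    (hinj : Function.Injective (algebraMap C L)) (π : C) (hπ : algebraMap C L π = ϖ)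
    (x : Ideal C) [hx : x.IsPrime] (hπx : π ∈ x) :
    ∃ ε : L, ε ≠ 0 ∧ ε ∈ locSubring (K := L) x ∧ ε⁻¹ ∈ locSubring (K := L) x ∧
      algebraMap R L q = ϖ ^ E.natDegree * ε := by
  obtain ⟨w, hw, hwe⟩ := h.pow_eq_neg (K := K)
  have hle : Algebra.adjoin R {ϖ} ≤ (IsScalarTower.toAlgHom R C L).range := by
    refine Algebra.adjoin_le ?_
    rintro _ rfl
    exact ⟨π, hπ⟩
  obtain ⟨w', hw'⟩ := hle hw
  have hw'' : algebraMap C L w' = w := hw'
  set v : C := -(algebraMap R C u + π * w') with hv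
  have hvx : v ∉ x := by
    intro hvx
    have h1 : algebraMap R C u ∈ x := by
      have h2 := x.sub_mem (x.neg_mem hvx) (x.mul_mem_right w' hπx)
      have e1 : -v - π * w' = algebraMap R C u := by rw [hv]; ring
      rwa [e1] at h2
    exact hx.ne_top (Ideal.eq_top_of_isUnit_mem _ h1 (h.unit.map (algebraMap R C)))
  have hv0 : algebraMap C L v ≠ 0 := by
    intro h0
    apply hvx
    have : v = 0 := hinj (by rw [h0, map_zero])
    rw [this]
    exact x.zero_mem
  have hve : ϖ ^ E.natDegree = algebraMap R L q * algebraMap C L v := by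
    rw [hwe, hv, map_neg, map_add, map_mul, ← IsScalarTower.algebraMap_apply, hπ, hw'']
    ring
  refine ⟨(algebraMap C L v)⁻¹, inv_ne_zero hv0, ⟨v, hvx, 1, ?_⟩, ?_, ?_⟩
  · rw [map_one, mul_inv_cancel₀ hv0]
  · rw [inv_inv]
    exact algebraMap_mem_locSubring x v
  · rw [hve, mul_assoc, mul_inv_cancel₀ hv0, mul_one]

/-- **The node over the ramified base from the regular node over the unramified base**
(all the node hypotheses of `Fermat.Agent.S34.H77.hLoc_of_node_val`).

`R` the normal chart over the unramified base (`K = Frac R`), `Rl` a local ring which is a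
localisation of `R` (the local ring at the crossing point `x₀`), with maximal ideal `(J, b)` and
`J * b = q` (`NodeConcl.regular`); `L = K(ϖ)` with `ϖ` Eisenstein over `R` (`EisShape`); `C` the
chart over the ramified base (integral over `R`, containing `π ↦ ϖ`), `x` a prime of `C`
containing `π` with `x ∩ R = x₀`.  Then, in `L`: `J * b = ϖ ^ e * ε` with `ε` a unit of `C_x`,
`J` and `b` are non-units of `C_x`, and `x C_x = (J, b, ϖ)`. -/
theorem node_hyps_of_regular {Rl : Type*} [CommRing Rl] [IsLocalRing Rl] [Algebra R Rl]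
    [Algebra Rl L] [IsScalarTower R Rl L]
    (h : EisShape ϖ E q u) (hgen : Algebra.adjoin K {ϖ} = ⊤)
    (hD : ∃ (m : ℕ) (y : L), y ∈ Algebra.adjoin R {ϖ} ∧
      aeval ϖ (derivative E) * y = algebraMap R L (q ^ m))
    (hinj : Function.Injective (algebraMap C L)) (π : C) (hπ : algebraMap C L π = ϖ)
    (hint : ∀ c : C, IsIntegral R (algebraMap C L c))
    (x : Ideal C) [hx : x.IsPrime] (hπx : π ∈ x)
    (T : Submonoid R) [IsLocalization T Rl]
    (hxT : x.comap (algebraMap R C) = (IsLocalRing.maximalIdeal Rl).comap (algebraMap R Rl))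
    (hιinj : Function.Injective (algebraMap Rl L))
    (J b : Rl) (hJb : J * b = algebraMap R Rl q)
    (hm : IsLocalRing.maximalIdeal Rl = Ideal.span {J, b}) :
    ∃ ε : L, ε ≠ 0 ∧ ε ∈ locSubring (K := L) x ∧ ε⁻¹ ∈ locSubring (K := L) x ∧
      algebraMap Rl L J * algebraMap Rl L b = ϖ ^ E.natDegree * ε ∧
      algebraMap Rl L J ∈ locSubring (K := L) x ∧
      (algebraMap Rl L J)⁻¹ ∉ locSubring (K := L) x ∧
      algebraMap Rl L b ∈ locSubring (K := L) x ∧
      (algebraMap Rl L b)⁻¹ ∉ locSubring (K := L) x ∧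
      ∀ c ∈ x, ∃ c₁ ∈ locSubring (K := L) x, ∃ c₂ ∈ locSubring (K := L) x,
        ∃ c₃ ∈ locSubring (K := L) x,
          algebraMap C L c = c₁ * algebraMap Rl L J + c₂ * algebraMap Rl L b + c₃ * ϖ := by
  have hinj₀ : Function.Injective (algebraMap R L) := EisShape.algebraMap_injective (K := K)
  have hq0 : algebraMap R Rl q ≠ 0 := by
    intro h0
    apply h.q_ne
    apply hinj₀
    rw [IsScalarTower.algebraMap_apply R Rl L, h0, map_zero, map_zero]
  have hJ0 : J ≠ 0 := by
    rintro rfl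
    exact hq0 (by rw [← hJb, zero_mul])
  have hb0 : b ≠ 0 := by
    rintro rfl
    exact hq0 (by rw [← hJb, mul_zero])
  have hx₀ : (x.comap (algebraMap R C)).IsPrime := Ideal.comap_isPrime _ _
  obtain ⟨h1, h2, h3, h4, h5⟩ := node_hyps_of_local (F := L) hinj₀ (x.comap (algebraMap R C))
    (algebraMap Rl L) hιinj
    (fun y => mem_locSubring_iff_mem_range (F := L) T (x.comap (algebraMap R C)) hxT y)
    J b hJ0 hb0 hm
  obtain ⟨k1, k2, k3, k4, k5⟩ := node_hyps_baseChange (F := L) hinj π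
    (exists_eq_add_of_eisShape (K := K) h hgen hD hinj π hπ hint) x hπx
    (x.comap (algebraMap R C)) rfl _ _ h1 h2 h3 h4 h5
  obtain ⟨ε, hε0, hε, hε', hqε⟩ := h.exists_unit_locSubring (K := K) hinj π hπ x hπx
  refine ⟨ε, hε0, hε, hε', ?_, k1, k2, k3, k4, ?_⟩
  · rw [← map_mul, hJb, ← IsScalarTower.algebraMap_apply, hqε]
  · intro c hc
    obtain ⟨c₁, hc₁, c₂, hc₂, c₃, hc₃, hce⟩ := k5 c hc
    exact ⟨c₁, hc₁, c₂, hc₂, c₃, hc₃, by rw [hce, hπ]⟩

end eis

end Fermat.Agent.S34.H46
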