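import Fermat.Agent.S34.H46.Node

/-!
# The regular node: `J` and `b` are non-associated primes (helper46; L2 of Program B', S34)

Bridge between the abstract node package (`Node.lean`) and the ramified-base lemmas
(`NodeNormal.lean`, `AdjoinLocal.lean`, `S34/H77/NodeSection.lean`): at a regular node,
`J * b = q` with `J`, `b` prime elements, neither dividing the other, `P2 = (J)`, `P1 = (b)`,
`m_R = (J, b)`.
-/

set_option autoImplicit false
set_option linter.unusedSectionVars false

namespace Fermat.Agent.S34.H46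

open Ideal IsLocalRing Polynomial

variable {q : ℕ} {S R : Type*} [CommRing S] [CommRing R] [IsDomain S] [IsDomain R]
  [Algebra S R] [IsLocalRing S] [IsLocalRing R] [IsNoetherianRing S] [Module.Finite S R]
  {θ : S} {P1 P2 : Ideal R} {x : R}

/-- At a regular node: `J * b = q` with `J`, `b` non-associated prime elements generating
`P2`, `P1`, and `m_R = (J, b)`. -/
theorem NodeHyp.regular_primes (h : NodeHyp q S R θ P1 P2 x)
    (hk : ∃ k : ℕ, (q : R) ^ k ∈ Ideal.span {nodeJ S x}) :
    ∃ b : R, nodeJ S x * b = (q : R) ∧ Prime (nodeJ S x) ∧ Prime b ∧ ¬ nodeJ S x ∣ b ∧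
      ¬ b ∣ nodeJ S x ∧ P2 = Ideal.span {nodeJ S x} ∧ P1 = Ideal.span {b} ∧
      maximalIdeal R = Ideal.span {nodeJ S x, b} := by
  have hc := h.concl
  obtain ⟨b, hJb, hP2, hP1, hm, u, hxu⟩ := hc.regular hk
  have hJ0 : nodeJ S x ≠ 0 := fun h0 => hc.J_not_mem1 (h0 ▸ P1.zero_mem)
  have hb0 : b ≠ 0 := by
    rintro rfl
    rw [mul_zero] at hJb
    exact h.q_ne_zero hJb.symm
  refine ⟨b, hJb, ?_, ?_, ?_, ?_, hP2, hP1, hm⟩
  · exact (Ideal.span_singleton_prime hJ0).mp (hP2 ▸ h.prime2)
  · exact (Ideal.span_singleton_prime hb0).mp (hP1 ▸ h.prime1)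
  · intro hdvd
    have hb2 : b ∈ P2 := by rw [hP2]; exact Ideal.mem_span_singleton.mpr hdvd
    exact h.x_not_mem2 (hxu ▸ P2.mul_mem_right _ hb2)
  · intro hdvd
    exact hc.J_not_mem1 (by rw [hP1]; exact Ideal.mem_span_singleton.mpr hdvd)

/-- The local ring at a node is noetherian. -/
theorem NodeHyp.isNoetherianRing (_h : NodeHyp q S R θ P1 P2 x) : IsNoetherianRing R :=
  IsNoetherianRing.of_finite S R

end Fermat.Agent.S34.H46
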