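import Mathlib

/-!
# Membership / unit criterion for a reduced two-component fibre (helper46; L2d of Program B', S34)

`R` a domain inside a domain `K` (e.g. its fraction field), `ϖ ≠ 0` in `R`, and two primes
`Z1`, `Z2` of `R` with `Z1 ∩ Z2 = ϖR` (the special fibre is reduced, with components `Z1`, `Z2`;
`Z1 = Z2` is allowed: integral special fibre).

* `mem_of_pow_mul_mem`: if `ϖ^n w ∈ R` and `w` is a fraction with denominator outside `Z1`, and a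
  fraction with denominator outside `Z2`, then `w ∈ R`.
* `exists_pow_mul_mem`: if `w` is a fraction with denominator outside `𝔭` for every prime `𝔭` not
  containing `ϖ`, then `ϖ^n w ∈ R` for some `n`.
* `mem_of_forall_prime`: hence `w ∈ R` as soon as `w ∈ R_𝔭` for `𝔭 = Z1`, `𝔭 = Z2` and all primes
  `𝔭 ∌ ϖ`.
* `isUnit_of_forall_prime`: the unit criterion (the same for `w` and `w'` with `w * w' = 1`).

No normality and no noetherian hypothesis.  Mathlib only.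
-/

set_option autoImplicit false
set_option linter.unusedSectionVars false

namespace Fermat.Agent.S34.H46

variable {R K : Type*} [CommRing R] [CommRing K] [IsDomain K] [Algebra R K]

/-- If `ϖ^n w ∈ R` and `w` has denominators outside `Z1` and outside `Z2`, where
`Z1 ∩ Z2 = ϖR`, then `w ∈ R`. -/
theorem mem_of_pow_mul_mem (hinj : Function.Injective (algebraMap R K)) {ϖ : R} (hϖ : ϖ ≠ 0)
    {Z1 Z2 : Ideal R} (h1 : Z1.IsPrime) (h2 : Z2.IsPrime) (hZ : Z1 ⊓ Z2 = Ideal.span {ϖ})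
    {w : K} {s1 t1 s2 t2 : R} (ht1 : t1 ∉ Z1) (hw1 : algebraMap R K t1 * w = algebraMap R K s1)
    (ht2 : t2 ∉ Z2) (hw2 : algebraMap R K t2 * w = algebraMap R K s2) :
    ∀ (n : ℕ) (r : R), algebraMap R K (ϖ ^ n) * w = algebraMap R K r →
      ∃ a : R, w = algebraMap R K a := by
  intro n
  induction n with
  | zero => intro r hr; exact ⟨r, by simpa using hr⟩
  | succ n ih =>
    intro r hr
    have key : ∀ (Z : Ideal R), Z.IsPrime → Ideal.span {ϖ} ≤ Z → ∀ s t : R, t ∉ Z →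
        algebraMap R K t * w = algebraMap R K s → r ∈ Z := by
      intro Z hZp hle s t ht hw
      have e : t * r = ϖ ^ (n + 1) * s := by
        apply hinj
        rw [map_mul, map_mul, ← hr, ← hw]; ring
      have hmem : t * r ∈ Z := by
        rw [e, pow_succ, mul_assoc]
        exact Z.mul_mem_left _ (Z.mul_mem_right _ (hle (Ideal.mem_span_singleton_self ϖ)))
      exact (hZp.mem_or_mem hmem).resolve_left ht
    have hr1 : r ∈ Z1 := key Z1 h1 (hZ ▸ inf_le_left) s1 t1 ht1 hw1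
    have hr2 : r ∈ Z2 := key Z2 h2 (hZ ▸ inf_le_right) s2 t2 ht2 hw2
    have hr3 : r ∈ Ideal.span {ϖ} := by rw [← hZ]; exact ⟨hr1, hr2⟩
    obtain ⟨r', rfl⟩ := Ideal.mem_span_singleton'.mp hr3
    apply ih r'
    have hϖK : algebraMap R K ϖ ≠ 0 := fun h0 => hϖ (hinj (by rw [h0, map_zero]))
    apply mul_left_cancel₀ hϖK
    rw [pow_succ, map_mul] at hr
    rw [map_mul] at hr
    linear_combination hr

/-- If `w ∈ R_𝔭` for every prime `𝔭` of `R` not containing `ϖ`, then `ϖ^n w ∈ R` for some `n`. -/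
theorem exists_pow_mul_mem (ϖ : R) (w : K)
    (hw : ∀ 𝔭 : Ideal R, 𝔭.IsPrime → ϖ ∉ 𝔭 →
      ∃ s t : R, t ∉ 𝔭 ∧ algebraMap R K t * w = algebraMap R K s) :
    ∃ (n : ℕ) (r : R), algebraMap R K (ϖ ^ n) * w = algebraMap R K r := by
  let D : Ideal R :=
    { carrier := {t | ∃ s : R, algebraMap R K t * w = algebraMap R K s}
      add_mem' := by
        rintro a b ⟨s, hs⟩ ⟨s', hs'⟩
        exact ⟨s + s', by rw [map_add, add_mul, hs, hs', map_add]⟩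
      zero_mem' := ⟨0, by simp⟩
      smul_mem' := by
        rintro c a ⟨s, hs⟩
        exact ⟨c * s, by rw [smul_eq_mul, map_mul, mul_assoc, hs, map_mul]⟩ }
  have hrad : ϖ ∈ D.radical := by
    rw [Ideal.radical_eq_sInf, Ideal.mem_sInf]
    rintro 𝔭 ⟨hD, h𝔭⟩
    by_contra hϖ
    obtain ⟨s, t, ht, hst⟩ := hw 𝔭 h𝔭 hϖ
    exact ht (hD ⟨s, hst⟩)
  obtain ⟨n, s, hs⟩ := hrad
  exact ⟨n, s, hs⟩

/-- **Membership criterion**: `w ∈ R` as soon as `w ∈ R_𝔭` for `𝔭 = Z1`, `𝔭 = Z2` and all primes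
`𝔭` not containing `ϖ`, where `Z1 ∩ Z2 = ϖR`. -/
theorem mem_of_forall_prime (hinj : Function.Injective (algebraMap R K)) {ϖ : R} (hϖ : ϖ ≠ 0)
    {Z1 Z2 : Ideal R} (h1 : Z1.IsPrime) (h2 : Z2.IsPrime) (hZ : Z1 ⊓ Z2 = Ideal.span {ϖ})
    (w : K)
    (hw : ∀ 𝔭 : Ideal R, 𝔭.IsPrime → (ϖ ∉ 𝔭 ∨ 𝔭 = Z1 ∨ 𝔭 = Z2) →
      ∃ s t : R, t ∉ 𝔭 ∧ algebraMap R K t * w = algebraMap R K s) :
    ∃ a : R, w = algebraMap R K a := by
  obtain ⟨n, r, hr⟩ := exists_pow_mul_mem ϖ w fun 𝔭 h𝔭 hϖ𝔭 => hw 𝔭 h𝔭 (Or.inl hϖ𝔭)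
  obtain ⟨s1, t1, ht1, hw1⟩ := hw Z1 h1 (Or.inr (Or.inl rfl))
  obtain ⟨s2, t2, ht2, hw2⟩ := hw Z2 h2 (Or.inr (Or.inr rfl))
  exact mem_of_pow_mul_mem hinj hϖ h1 h2 hZ ht1 hw1 ht2 hw2 n r hr

/-- **Unit criterion**: if `w * w' = 1` and both `w`, `w'` lie in `R_𝔭` for `𝔭 = Z1`, `𝔭 = Z2`
and all primes `𝔭` not containing `ϖ`, then `w` is (the image of) a unit of `R`. -/
theorem isUnit_of_forall_prime (hinj : Function.Injective (algebraMap R K)) {ϖ : R} (hϖ : ϖ ≠ 0)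
    {Z1 Z2 : Ideal R} (h1 : Z1.IsPrime) (h2 : Z2.IsPrime) (hZ : Z1 ⊓ Z2 = Ideal.span {ϖ})
    (w w' : K) (hww' : w * w' = 1)
    (hw : ∀ 𝔭 : Ideal R, 𝔭.IsPrime → (ϖ ∉ 𝔭 ∨ 𝔭 = Z1 ∨ 𝔭 = Z2) →
      ∃ s t : R, t ∉ 𝔭 ∧ algebraMap R K t * w = algebraMap R K s)
    (hw' : ∀ 𝔭 : Ideal R, 𝔭.IsPrime → (ϖ ∉ 𝔭 ∨ 𝔭 = Z1 ∨ 𝔭 = Z2) →
      ∃ s t : R, t ∉ 𝔭 ∧ algebraMap R K t * w' = algebraMap R K s) :
    ∃ u : Rˣ, w = algebraMap R K u := by
  obtain ⟨a, ha⟩ := mem_of_forall_prime hinj hϖ h1 h2 hZ w hw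
  obtain ⟨a', ha'⟩ := mem_of_forall_prime hinj hϖ h1 h2 hZ w' hw'
  have haa' : a * a' = 1 := by
    apply hinj
    rw [map_mul, ← ha, ← ha', hww', map_one]
  exact ⟨Units.mkOfMulEqOne a a' haa', ha⟩

/-- Variant of the unit criterion with the hypotheses `ϖ^n w ∈ R`, `ϖ^n' w' ∈ R` given. -/
theorem isUnit_of_pow_mul_mem (hinj : Function.Injective (algebraMap R K)) {ϖ : R} (hϖ : ϖ ≠ 0)
    {Z1 Z2 : Ideal R} (h1 : Z1.IsPrime) (h2 : Z2.IsPrime) (hZ : Z1 ⊓ Z2 = Ideal.span {ϖ})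
    (w w' : K) (hww' : w * w' = 1)
    {n : ℕ} {r : R} (hr : algebraMap R K (ϖ ^ n) * w = algebraMap R K r)
    {n' : ℕ} {r' : R} (hr' : algebraMap R K (ϖ ^ n') * w' = algebraMap R K r')
    {s1 t1 s2 t2 : R} (ht1 : t1 ∉ Z1) (hs1 : s1 ∉ Z1)
    (hw1 : algebraMap R K t1 * w = algebraMap R K s1)
    (ht2 : t2 ∉ Z2) (hs2 : s2 ∉ Z2) (hw2 : algebraMap R K t2 * w = algebraMap R K s2) :
    ∃ u : Rˣ, w = algebraMap R K u := by
  obtain ⟨a, ha⟩ := mem_of_pow_mul_mem hinj hϖ h1 h2 hZ ht1 hw1 ht2 hw2 n r hr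
  have hw1' : algebraMap R K s1 * w' = algebraMap R K t1 := by
    rw [← hw1, mul_assoc, hww', mul_one]
  have hw2' : algebraMap R K s2 * w' = algebraMap R K t2 := by
    rw [← hw2, mul_assoc, hww', mul_one]
  obtain ⟨a', ha'⟩ := mem_of_pow_mul_mem hinj hϖ h1 h2 hZ hs1 hw1' hs2 hw2' n' r' hr'
  have haa' : a * a' = 1 := by
    apply hinj
    rw [map_mul, ← ha, ← ha', hww', map_one]
  exact ⟨Units.mkOfMulEqOne a a' haa', ha⟩

end Fermat.Agent.S34.H46
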